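import Mathlib

/-!
# S56, brick G (finite group theory in `GL₂`): vocabulary and the brick statements

Mathlib only.  `M` = trace-zero `2 × 2` matrices with the twisted adjoint action
`tw g X = det g • (g X g⁻¹)` (this is `ad⁰ ρ̄ (1)` when `det ρ̄` is the mod `p` cyclotomic character).

* `KleinStatement`   (G.1)  fixed-point count on `OnePoint k`: the torus at a Sylow point is big
* `FieldStatement`   (G.2)  the Sylow group is `U(F)` for a subfield `F`, the torus contains `(Fˣ)²`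
* `CocycleStatement` (G.3)  cocycles vanish on the Sylow group
* `H1Statement`      (G.4)  every cocycle of a finite irreducible split `G₀ ≤ GL₂(k)` is a coboundary
* `RegStatement`, `ExitStatement` (G.5)  what the Taylor–Wiles prime brick consumes
-/

open Matrix Polynomial

namespace Fermat.Agent.S56.G

universe u v

/-- The twisted adjoint action `g • X = det g • (g X g⁻¹)`. -/
def tw {k : Type u} [Field k] (g : GL (Fin 2) k) (X : Matrix (Fin 2) (Fin 2) k) :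
    Matrix (Fin 2) (Fin 2) k :=
  g.val.det • (g.val * X * (g⁻¹ : GL (Fin 2) k).val)

/-- `[[1, x], [0, 1]]`. -/
noncomputable abbrev up {k : Type u} [Field k] (x : k) : GL (Fin 2) k :=
  Matrix.GeneralLinearGroup.upperRightHom x

/-- Scalar elements of `GL₂`. -/
def IsScal {k : Type u} [Field k] (g : GL (Fin 2) k) : Prop :=
  g.val ∈ Set.range (Matrix.scalar (Fin 2))

/-- `c` is a cocycle on `G` for the twisted adjoint action, with trace-zero values. -/
def IsCocycle {k : Type u} [Field k] (G : Subgroup (GL (Fin 2) k))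
    (c : GL (Fin 2) k → Matrix (Fin 2) (Fin 2) k) : Prop :=
  (∀ g ∈ G, ∀ h ∈ G, c (g * h) = c g + tw g (c h)) ∧ ∀ g ∈ G, (c g).trace = 0

/-- (G.1) Klein's fixed-point count.  `G` finite, all discriminants squares (split
characteristic polynomials), a non-trivial unipotent fixing `∞`, and `∞` not fixed by `G`.
Then `q ≤ 2 |μ| + 1`, where `q` is the number of unipotents of `G` fixing `∞` and
`μ = {t₀₀ / t₁₁ : t ∈ G upper triangular}`. -/
def KleinStatement : Prop :=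
  ∀ (k : Type u) [Field k] (p : ℕ) [Fact p.Prime] [CharP k p], p ≠ 2 →
  ∀ (G : Subgroup (GL (Fin 2) k)) [Finite G],
    (∀ g ∈ G, IsSquare g.val.discr) →
    (∃ x : k, x ≠ 0 ∧ up x ∈ G) →
    (∃ g ∈ G, g 1 0 ≠ 0) →
    Nat.card {x : k // up x ∈ G} ≤
      2 * Nat.card {a : k // ∃ g ∈ G, g 1 0 = 0 ∧ g 0 0 = a * g 1 1} + 1

/-- (G.2) From the bound of (G.1), normalised by `up 1 ∈ G`: the parameters of the unipotents
at `∞` are closed under multiplication (so they form a finite field `F`) and every square of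
`Fˣ` is the ratio of the diagonal of an upper triangular element of `G`. -/
def FieldStatement : Prop :=
  ∀ (k : Type u) [Field k] (p : ℕ) [Fact p.Prime] [CharP k p], p ≠ 2 →
  ∀ (G : Subgroup (GL (Fin 2) k)) [Finite G],
    up 1 ∈ G →
    Nat.card {x : k // up x ∈ G} ≤
      2 * Nat.card {a : k // ∃ g ∈ G, g 1 0 = 0 ∧ g 0 0 = a * g 1 1} + 1 →
    (∀ x y : k, up x ∈ G → up y ∈ G → up (x * y) ∈ G) ∧
    ∀ x : k, up x ∈ G → x ≠ 0 → ∃ t ∈ G, t 1 0 = 0 ∧ t 0 0 = x ^ 2 * t 1 1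

/-- (G.3) Cocycles are coboundaries on the Sylow group `{up x : x ∈ F}`, given the field
structure, the torus of (G.2) inside `G` (with determinant one), and for `|F| = 5` an upper
triangular element of `G` whose determinant is not `±1`. -/
def CocycleStatement : Prop :=
  ∀ (k : Type u) [Field k] (p : ℕ) [Fact p.Prime] [CharP k p], p ≠ 2 →
  ∀ (G : Subgroup (GL (Fin 2) k)) [Finite G],
    up 1 ∈ G →
    (∀ x y : k, up x ∈ G → up y ∈ G → up (x * y) ∈ G) →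
    (∀ x : k, up x ∈ G → x ≠ 0 →
      ∃ t ∈ G, t 1 0 = 0 ∧ t.val.det = 1 ∧ t 0 0 = x ^ 2 * t 1 1) →
    5 ≤ Nat.card {x : k // up x ∈ G} →
    (Nat.card {x : k // up x ∈ G} = 5 → ∃ g ∈ G, g 1 0 = 0 ∧ g.val.det ^ 2 ≠ 1) →
    ∀ c : GL (Fin 2) k → Matrix (Fin 2) (Fin 2) k, IsCocycle G c →
      ∃ Y : Matrix (Fin 2) (Fin 2) k, Y.trace = 0 ∧ ∀ x : k, up x ∈ G → c (up x) = tw (up x) Y - Y

/-- (G.4) `H¹(G₀, ad⁰ ⊗ det) = 0` for a finite subgroup of `GL₂(k)`, `char k = p` odd, with split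
characteristic polynomials, no stable line, and (for `p = 5`) an element with `det² ≠ 1`. -/
def H1Statement : Prop :=
  ∀ (k : Type u) [Field k] (p : ℕ) [Fact p.Prime] [CharP k p], p ≠ 2 →
  ∀ (G : Subgroup (GL (Fin 2) k)) [Finite G],
    (∀ g ∈ G, ∃ α β : k, g.val.charpoly = (X - C α) * (X - C β)) →
    (∀ v : Fin 2 → k, v ≠ 0 → ∃ g ∈ G, ∀ a : k, g.val *ᵥ v ≠ a • v) →
    (p = 5 → ∃ g ∈ G, g.val.det ^ 2 ≠ 1) →
    ∀ c : GL (Fin 2) k → Matrix (Fin 2) (Fin 2) k, IsCocycle G c →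
      ∃ Y : Matrix (Fin 2) (Fin 2) k, Y.trace = 0 ∧ ∀ g ∈ G, c g = tw g Y - Y

/-- The hypotheses on `ρ : Γ →* GL₂(k)` shared by the two exits. -/
structure RhoHyp {Γ : Type v} [Group Γ] {k : Type u} [Field k] (p : ℕ)
    (ρ : Γ →* GL (Fin 2) k) (Hn : Subgroup Γ) : Prop where
  /-- finite image -/
  fin : (Set.range ρ).Finite
  /-- split characteristic polynomials -/
  split : ∀ g, ∃ α β : k, (ρ g).val.charpoly = (X - C α) * (X - C β)
  /-- no stable line -/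
  irr : ∀ v : Fin 2 → k, v ≠ 0 → ∃ g, ∀ a : k, (ρ g).val *ᵥ v ≠ a • v
  /-- no trace-zero matrix is an eigenvector up to sign of the whole conjugation action -/
  pm : ∀ Y : Matrix (Fin 2) (Fin 2) k, Y.trace = 0 → Y ≠ 0 →
    ¬ ∀ g, (ρ g).val * Y * (ρ g)⁻¹.val = Y ∨ (ρ g).val * Y * (ρ g)⁻¹.val = -Y
  /-- for `p = 5` some determinant is not `±1` -/
  det5 : p = 5 → ∃ g, (ρ g).val.det ^ 2 ≠ 1
  /-- `Hn` contains all commutators -/
  comm : ∀ a b : Γ, a * b * a⁻¹ * b⁻¹ ∈ Hn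
  /-- `det ρ = 1` on `Hn` -/
  det_one : ∀ h ∈ Hn, (ρ h).val.det = 1

/-- (G.5a) a regular semisimple element in `Hn`. -/
def RegStatement : Prop :=
  ∀ (Γ : Type v) [Group Γ] (k : Type u) [Field k] (p : ℕ) [Fact p.Prime] [CharP k p], p ≠ 2 →
  ∀ (ρ : Γ →* GL (Fin 2) k) (Hn : Subgroup Γ), RhoHyp p ρ Hn →
    ∃ σ ∈ Hn, (ρ σ).val.trace ^ 2 ≠ 4

/-- (G.5b) the exit consumed by the Taylor–Wiles primes: a cocycle `ψ` of `Γ` in `ad⁰ ⊗ det`
that is not a coboundary is non-zero in `M / (σ - 1) M` for some regular semisimple `σ ∈ Hn`. -/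
def ExitStatement : Prop :=
  ∀ (Γ : Type v) [Group Γ] (k : Type u) [Field k] (p : ℕ) [Fact p.Prime] [CharP k p], p ≠ 2 →
  ∀ (ρ : Γ →* GL (Fin 2) k) (Hn : Subgroup Γ), RhoHyp p ρ Hn →
  ∀ ψ : Γ → Matrix (Fin 2) (Fin 2) k,
    (∀ a b, ψ (a * b) = ψ a + tw (ρ a) (ψ b)) → (∀ a, (ψ a).trace = 0) →
    (¬ ∃ Y : Matrix (Fin 2) (Fin 2) k, Y.trace = 0 ∧ ∀ a, ψ a = tw (ρ a) Y - Y) →
    ∃ σ ∈ Hn, (ρ σ).val.trace ^ 2 ≠ 4 ∧
      ¬ ∃ Y : Matrix (Fin 2) (Fin 2) k, Y.trace = 0 ∧ ψ σ = tw (ρ σ) Y - Y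

end Fermat.Agent.S56.G
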