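import Fermat.Agent.S56.G.Bricks

/-!
# S56, brick G, row G.5: the two exits `RegStatement` and `ExitStatement` (modulo `H1Statement`)

Mathlib only (plus the statement file `Bricks`).

* `no_stable_line`, `irred` : the trace-zero matrices are an irreducible module for the
  conjugation action of `ρ` (hypotheses `irr` and `pm` of `RhoHyp`).
* `exists_regular` / `regStatement` : a regular semisimple element in `Hn`.
* `exists_sigma_of_h1` / `exitStatement_of_h1` : the exit, given the vanishing of `H¹`.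
-/

namespace Fermat.Agent.S56.G.Exit

open Matrix Polynomial Module

universe u v

section basics

variable {k : Type*} [Field k]

theorem tw_one (X : Matrix (Fin 2) (Fin 2) k) : tw (1 : GL (Fin 2) k) X = X := by
  simp [tw]

theorem tw_zero (g : GL (Fin 2) k) : tw g (0 : Matrix (Fin 2) (Fin 2) k) = 0 := by
  simp [tw]

theorem tw_add (g : GL (Fin 2) k) (X Y : Matrix (Fin 2) (Fin 2) k) :
    tw g (X + Y) = tw g X + tw g Y := by
  simp [tw, Matrix.mul_add, Matrix.add_mul]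

theorem tw_sub (g : GL (Fin 2) k) (X Y : Matrix (Fin 2) (Fin 2) k) :
    tw g (X - Y) = tw g X - tw g Y := by
  simp [tw, Matrix.mul_sub, Matrix.sub_mul, smul_sub]

theorem tw_smul (g : GL (Fin 2) k) (a : k) (X : Matrix (Fin 2) (Fin 2) k) :
    tw g (a • X) = a • tw g X := by
  simp [tw, smul_smul, mul_comm]

theorem trace_tw (g : GL (Fin 2) k) (X : Matrix (Fin 2) (Fin 2) k) :
    (tw g X).trace = g.val.det * X.trace := by
  rw [tw, Matrix.trace_smul, Matrix.trace_units_conj, smul_eq_mul]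

theorem det_ne_zero_of_gl (g : GL (Fin 2) k) : g.val.det ≠ 0 :=
  IsUnit.ne_zero ((Matrix.isUnit_iff_isUnit_det _).mp g.isUnit)

/-- Cayley–Hamilton for 2×2 matrices. -/
theorem cayley_two (s : Matrix (Fin 2) (Fin 2) k) :
    s * s = s.trace • s - s.det • (1 : Matrix (Fin 2) (Fin 2) k) := by
  ext i j
  fin_cases i <;> fin_cases j <;>
    simp [Matrix.mul_apply, Fin.sum_univ_two, Matrix.det_fin_two, Matrix.trace_fin_two] <;> ring

/-- Two vectors in the kernel of a non-zero 2×2 matrix are proportional. -/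
theorem exists_smul_of_mulVec_eq_zero {N : Matrix (Fin 2) (Fin 2) k} (hN : N ≠ 0)
    {v x : Fin 2 → k} (hv : v ≠ 0) (hNv : N *ᵥ v = 0) (hNx : N *ᵥ x = 0) :
    ∃ a : k, x = a • v := by
  have h0 := congrFun hNv 0
  have h1 := congrFun hNv 1
  have h0' := congrFun hNx 0
  have h1' := congrFun hNx 1
  simp only [Matrix.mulVec, dotProduct, Fin.sum_univ_two, Pi.zero_apply] at h0 h1 h0' h1'
  have hD : v 0 * x 1 - v 1 * x 0 = 0 := by
    by_contra hD
    apply hN
    have e00 : N 0 0 * (v 0 * x 1 - v 1 * x 0) = 0 := by linear_combination x 1 * h0 - v 1 * h0'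
    have e01 : N 0 1 * (v 0 * x 1 - v 1 * x 0) = 0 := by linear_combination v 0 * h0' - x 0 * h0
    have e10 : N 1 0 * (v 0 * x 1 - v 1 * x 0) = 0 := by linear_combination x 1 * h1 - v 1 * h1'
    have e11 : N 1 1 * (v 0 * x 1 - v 1 * x 0) = 0 := by linear_combination v 0 * h1' - x 0 * h1
    ext i j
    fin_cases i <;> fin_cases j
    · exact (mul_eq_zero.mp e00).resolve_right hD
    · exact (mul_eq_zero.mp e01).resolve_right hD
    · exact (mul_eq_zero.mp e10).resolve_right hD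
    · exact (mul_eq_zero.mp e11).resolve_right hD
  by_cases hv0 : v 0 = 0
  · have hv1 : v 1 ≠ 0 := by
      intro hv1
      apply hv
      ext i
      fin_cases i
      · exact hv0
      · exact hv1
    refine ⟨x 1 / v 1, ?_⟩
    ext i
    fin_cases i
    · have : v 1 * x 0 = 0 := by rw [hv0] at hD; linear_combination -hD
      have hx0 : x 0 = 0 := (mul_eq_zero.mp this).resolve_left hv1
      simp [hx0, hv0]
    · simp; field_simp
  · refine ⟨x 0 / v 0, ?_⟩
    ext i
    fin_cases i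
    · simp; field_simp
    · simp; field_simp; linear_combination hD

/-- The trace form on 2×2 matrices. -/
def trB (k : Type*) [Field k] : LinearMap.BilinForm k (Matrix (Fin 2) (Fin 2) k) :=
  LinearMap.mk₂ k (fun X Y => (X * Y).trace)
    (fun X X' Y => by simp [Matrix.add_mul])
    (fun c X Y => by simp)
    (fun X Y Y' => by simp [Matrix.mul_add])
    (fun c X Y => by simp)

theorem trB_apply (X Y : Matrix (Fin 2) (Fin 2) k) : trB k X Y = (X * Y).trace := rfl

theorem trB_nondegenerate : (trB k).Nondegenerate := by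
  constructor
  · intro X hX
    ext i j
    have h := hX (Matrix.single j i 1)
    rw [trB_apply] at h
    fin_cases i <;> fin_cases j <;>
      simpa [Matrix.trace_fin_two, Matrix.mul_apply, Fin.sum_univ_two, Matrix.single_apply] using h
  · intro X hX
    ext i j
    have h := hX (Matrix.single j i 1)
    rw [trB_apply] at h
    fin_cases i <;> fin_cases j <;>
      simpa [Matrix.trace_fin_two, Matrix.mul_apply, Fin.sum_univ_two, Matrix.single_apply] using h

end basics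

section rep

variable {Γ : Type*} [Group Γ] {k : Type*} [Field k] (ρ : Γ →* GL (Fin 2) k)

/-- No line of trace-zero matrices is stable under conjugation by `ρ`. -/
theorem no_stable_line
    (hirr : ∀ v : Fin 2 → k, v ≠ 0 → ∃ g, ∀ a : k, (ρ g).1 *ᵥ v ≠ a • v)
    (hpm : ∀ Y : Matrix (Fin 2) (Fin 2) k, Y.trace = 0 → Y ≠ 0 →
        ¬ ∀ g, (ρ g).1 * Y * (ρ g)⁻¹.1 = Y ∨ (ρ g).1 * Y * (ρ g)⁻¹.1 = -Y)
    (Y : Matrix (Fin 2) (Fin 2) k) (hY0 : Y.trace = 0) (hY : Y ≠ 0)
    (hst : ∀ g, ∃ c : k, (ρ g).1 * Y * (ρ g)⁻¹.1 = c • Y) : False := by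
  have hsq : Y * Y = (-Y.det) • (1 : Matrix (Fin 2) (Fin 2) k) := by
    rw [cayley_two, hY0]; simp
  by_cases hd : Y.det = 0
  · have hYY : Y * Y = 0 := by rw [hsq, hd]; simp
    obtain ⟨w, hw⟩ : ∃ w : Fin 2 → k, Y *ᵥ w ≠ 0 := by
      by_contra hcon
      simp only [not_exists, not_not] at hcon
      apply hY
      ext i j
      have := congrFun (hcon (Pi.single j 1)) i
      simpa using this
    have hYv : Y *ᵥ (Y *ᵥ w) = 0 := by
      rw [Matrix.mulVec_mulVec, hYY, Matrix.zero_mulVec]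
    obtain ⟨g, hg⟩ := hirr _ hw
    obtain ⟨c, hc⟩ := hst g
    have hGY : (ρ g).1 * Y = c • (Y * (ρ g).1) := by
      have := congrArg (· * (ρ g).1) hc
      simpa [Matrix.mul_assoc, Units.inv_mul] using this
    have hc0 : c ≠ 0 := by
      rintro rfl
      apply hY
      have h0 : (ρ g)⁻¹.1 * ((ρ g).1 * Y) = 0 := by rw [hGY]; simp
      rwa [← Matrix.mul_assoc, Units.inv_mul, Matrix.one_mul] at h0
    have hYGv : Y *ᵥ ((ρ g).1 *ᵥ (Y *ᵥ w)) = 0 := by
      have h1 : Y * (ρ g).1 = c⁻¹ • ((ρ g).1 * Y) := by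
        rw [hGY, smul_smul, inv_mul_cancel₀ hc0, one_smul]
      rw [Matrix.mulVec_mulVec, h1, Matrix.smul_mulVec, ← Matrix.mulVec_mulVec, hYv]
      simp
    obtain ⟨a, ha⟩ := exists_smul_of_mulVec_eq_zero hY hw hYv hYGv
    exact hg a ha
  · refine hpm Y hY0 hY (fun g => ?_)
    obtain ⟨c, hc⟩ := hst g
    have h1 : ((ρ g).1 * Y * (ρ g)⁻¹.1) * ((ρ g).1 * Y * (ρ g)⁻¹.1)
        = (-Y.det) • (1 : Matrix (Fin 2) (Fin 2) k) := by
      calc ((ρ g).1 * Y * (ρ g)⁻¹.1) * ((ρ g).1 * Y * (ρ g)⁻¹.1)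
          = (ρ g).1 * (Y * ((ρ g)⁻¹.1 * (ρ g).1) * Y) * (ρ g)⁻¹.1 := by
            simp only [Matrix.mul_assoc]
        _ = (ρ g).1 * (Y * Y) * (ρ g)⁻¹.1 := by rw [Units.inv_mul, Matrix.mul_one]
        _ = _ := by rw [hsq]; simp
    rw [hc] at h1 ⊢
    have h2 : c * c * (-Y.det) = -Y.det := by
      have := congrFun (congrFun h1 0) 0
      simpa [hsq, mul_assoc] using this
    have hc2 : c * c = 1 := by
      have h3 : (c * c - 1) * (-Y.det) = 0 := by linear_combination h2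
      have h4 := (mul_eq_zero.mp h3).resolve_right (neg_ne_zero.mpr hd)
      linear_combination h4
    rcases mul_self_eq_one_iff.mp hc2 with rfl | rfl
    · left; simp
    · right; simp

/-- The trace-zero matrices are irreducible under conjugation by `ρ`. -/
theorem irred (h2 : (2 : k) ≠ 0)
    (hirr : ∀ v : Fin 2 → k, v ≠ 0 → ∃ g, ∀ a : k, (ρ g).1 *ᵥ v ≠ a • v)
    (hpm : ∀ Y : Matrix (Fin 2) (Fin 2) k, Y.trace = 0 → Y ≠ 0 →
        ¬ ∀ g, (ρ g).1 * Y * (ρ g)⁻¹.1 = Y ∨ (ρ g).1 * Y * (ρ g)⁻¹.1 = -Y)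
    (W : Submodule k (Matrix (Fin 2) (Fin 2) k))
    (hW0 : ∀ X ∈ W, X.trace = 0)
    (hWst : ∀ g, ∀ X ∈ W, (ρ g).1 * X * (ρ g)⁻¹.1 ∈ W) :
    W = ⊥ ∨ ∀ X : Matrix (Fin 2) (Fin 2) k, X.trace = 0 → X ∈ W := by
  classical
  set one : Submodule k (Matrix (Fin 2) (Fin 2) k) :=
    Submodule.span k {(1 : Matrix (Fin 2) (Fin 2) k)} with hone_def
  set M0 : Submodule k (Matrix (Fin 2) (Fin 2) k) := (trB k).orthogonal one with hM0_def
  have hM0 : ∀ X, X ∈ M0 ↔ X.trace = 0 := by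
    intro X
    rw [hM0_def, LinearMap.BilinForm.mem_orthogonal_iff]
    constructor
    · intro h
      have := h 1 (Submodule.mem_span_singleton_self 1)
      simpa [trB_apply] using this
    · intro h n hn
      obtain ⟨c, rfl⟩ := Submodule.mem_span_singleton.mp hn
      simp [trB_apply, h]
  have hfin4 : finrank k (Matrix (Fin 2) (Fin 2) k) = 4 := by
    simp [Module.finrank_matrix]
  have hone : finrank k one = 1 := finrank_span_singleton one_ne_zero
  have hM0rank : finrank k M0 = 3 := by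
    rw [hM0_def, LinearMap.BilinForm.finrank_orthogonal trB_nondegenerate, hfin4, hone]
  have hWM0 : W ≤ M0 := fun X hX => (hM0 X).2 (hW0 X hX)
  have hdisj : W ⊓ one = ⊥ := by
    rw [Submodule.eq_bot_iff]
    rintro X ⟨hXW, hX1⟩
    obtain ⟨c, rfl⟩ := Submodule.mem_span_singleton.mp hX1
    have h := hW0 _ hXW
    rw [Matrix.trace_smul, Matrix.trace_one, Fintype.card_fin, smul_eq_mul] at h
    have hc : c = 0 := by
      rcases mul_eq_zero.mp h with h | h
      · exact h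
      · exact absurd (by exact_mod_cast h) h2
    simp [hc]
  set W1 := W ⊔ one with hW1_def
  have hW1rank : finrank k W1 = finrank k W + 1 := by
    have := Submodule.finrank_sup_add_finrank_inf_eq W one
    rw [hdisj, finrank_bot, hone] at this
    simpa using this
  set W2 := (trB k).orthogonal W1 with hW2_def
  have hle3 : finrank k W ≤ 3 := hM0rank ▸ Submodule.finrank_mono hWM0
  have hW2rank : finrank k W2 = 3 - finrank k W := by
    rw [hW2_def, LinearMap.BilinForm.finrank_orthogonal trB_nondegenerate, hfin4, hW1rank]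
    omega
  have hW2tr : ∀ Y ∈ W2, Y.trace = 0 := fun Y hY => by
    have := hY 1 (Submodule.mem_sup_right (Submodule.mem_span_singleton_self 1))
    simpa [trB_apply] using this
  have hW1st : ∀ g, ∀ X ∈ W1, (ρ g).1 * X * (ρ g)⁻¹.1 ∈ W1 := by
    intro g X hX
    obtain ⟨w, hw, z, hz, rfl⟩ := Submodule.mem_sup.mp hX
    obtain ⟨c, rfl⟩ := Submodule.mem_span_singleton.mp hz
    rw [Matrix.mul_add, Matrix.add_mul]
    refine Submodule.add_mem _ (Submodule.mem_sup_left (hWst g w hw)) (Submodule.mem_sup_right ?_)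
    have : (ρ g).1 * (c • (1 : Matrix (Fin 2) (Fin 2) k)) * (ρ g)⁻¹.1 = c • 1 := by
      rw [Matrix.mul_smul, Matrix.smul_mul, Matrix.mul_one, Units.mul_inv]
    rw [this]
    exact Submodule.smul_mem _ _ (Submodule.mem_span_singleton_self 1)
  have hW2st : ∀ g, ∀ Y ∈ W2, (ρ g).1 * Y * (ρ g)⁻¹.1 ∈ W2 := by
    intro g Y hY X hX
    have h1 := hW1st g⁻¹ X hX
    have h3 := hY _ h1
    rw [map_inv, inv_inv] at h3
    show trB k X _ = 0
    rw [trB_apply] at h3 ⊢
    rw [← h3, ← Matrix.mul_assoc, ← Matrix.mul_assoc, Matrix.trace_mul_comm]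
    simp only [Matrix.mul_assoc]
  have hline : ∀ U : Submodule k (Matrix (Fin 2) (Fin 2) k), (∀ X ∈ U, X.trace = 0) →
      (∀ g, ∀ X ∈ U, (ρ g).1 * X * (ρ g)⁻¹.1 ∈ U) → finrank k U ≠ 1 := by
    intro U hU0 hUst hU1
    obtain ⟨Y, hY, hgen⟩ := finrank_eq_one_iff'.mp hU1
    refine no_stable_line ρ hirr hpm Y.1 (hU0 _ Y.2) (by simpa using hY) (fun g => ?_)
    obtain ⟨c, hc⟩ := hgen ⟨_, hUst g Y.1 Y.2⟩
    exact ⟨c, by simpa using (congrArg Subtype.val hc).symm⟩
  obtain (h | h | h | h) : finrank k W = 0 ∨ finrank k W = 1 ∨ finrank k W = 2 ∨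
      finrank k W = 3 := by omega
  · left; exact Submodule.finrank_eq_zero.mp h
  · exact absurd h (hline W hW0 hWst)
  · exact absurd (by rw [hW2rank, h]) (hline W2 hW2tr hW2st)
  · right
    intro X hX
    have : W = M0 := Submodule.eq_of_le_of_finrank_eq hWM0 (by rw [h, hM0rank])
    rw [this]
    exact (hM0 X).2 hX

/-- (G2): a regular semisimple element in `Hn`. -/
theorem exists_regular (h2 : (2 : k) ≠ 0)
    (hirr : ∀ v : Fin 2 → k, v ≠ 0 → ∃ g, ∀ a : k, (ρ g).1 *ᵥ v ≠ a • v)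
    (hpm : ∀ Y : Matrix (Fin 2) (Fin 2) k, Y.trace = 0 → Y ≠ 0 →
        ¬ ∀ g, (ρ g).1 * Y * (ρ g)⁻¹.1 = Y ∨ (ρ g).1 * Y * (ρ g)⁻¹.1 = -Y)
    (Hn : Subgroup Γ) (hab : ∀ a b : Γ, a * b * a⁻¹ * b⁻¹ ∈ Hn)
    (hdet : ∀ h ∈ Hn, (ρ h).1.det = 1) :
    ∃ σ ∈ Hn, ((ρ σ).1.trace) ^ 2 ≠ 4 := by
  by_contra hcon
  simp only [not_exists, not_and, not_not] at hcon
  have hconj : ∀ a h, h ∈ Hn → a * h * a⁻¹ ∈ Hn := by
    intro a h hh
    have := Hn.mul_mem (hab a h) hh
    simpa [mul_assoc] using this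
  set Nil : Γ → Matrix (Fin 2) (Fin 2) k :=
    fun h => ((ρ h).1.trace / 2) • (ρ h).1 - 1 with hNil
  have hNiltr : ∀ h ∈ Hn, (Nil h).trace = 0 := by
    intro h hh
    have := hcon h hh
    simp only [hNil, Matrix.trace_sub, Matrix.trace_smul, Matrix.trace_one, Fintype.card_fin,
      smul_eq_mul]
    field_simp
    push_cast
    linear_combination this
  have hNilconj : ∀ a h, (ρ a).1 * Nil h * (ρ a)⁻¹.1 = Nil (a * h * a⁻¹) := by
    intro a h
    simp only [hNil, map_mul, map_inv, Units.val_mul]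
    rw [Matrix.trace_units_conj, Matrix.mul_sub, Matrix.sub_mul, Matrix.mul_smul,
      Matrix.smul_mul, Matrix.mul_one, Units.mul_inv]
  set W := Submodule.span k (Nil '' (Hn : Set Γ)) with hW
  have hW0 : ∀ X ∈ W, X.trace = 0 := by
    intro X hX
    induction hX using Submodule.span_induction with
    | mem x hx => obtain ⟨h, hh, rfl⟩ := hx; exact hNiltr h hh
    | zero => simp
    | add x y _ _ hx hy => rw [Matrix.trace_add, hx, hy, add_zero]
    | smul c x _ hx => rw [Matrix.trace_smul, hx, smul_zero]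
  have hWst : ∀ g, ∀ X ∈ W, (ρ g).1 * X * (ρ g)⁻¹.1 ∈ W := by
    intro g X hX
    induction hX using Submodule.span_induction with
    | mem x hx =>
      obtain ⟨h, hh, rfl⟩ := hx
      rw [hNilconj]
      exact Submodule.subset_span ⟨_, hconj g h hh, rfl⟩
    | zero => simp
    | add x y _ _ hx hy => rw [Matrix.mul_add, Matrix.add_mul]; exact W.add_mem hx hy
    | smul c x _ hx => rw [Matrix.mul_smul, Matrix.smul_mul]; exact W.smul_mem c hx
  rcases irred ρ h2 hirr hpm W hW0 hWst with hbot | htop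
  · have hsc : ∀ h ∈ Hn, (ρ h).1 = ((ρ h).1.trace / 2) • (1 : Matrix (Fin 2) (Fin 2) k) := by
      intro h hh
      have h0 : Nil h = 0 := by
        have : Nil h ∈ W := Submodule.subset_span ⟨h, hh, rfl⟩
        rw [hbot] at this
        simpa using this
      have hε : ((ρ h).1.trace / 2) * ((ρ h).1.trace / 2) = 1 := by
        have := hcon h hh
        field_simp
        linear_combination this
      have h1 : ((ρ h).1.trace / 2) • (ρ h).1 = 1 := sub_eq_zero.mp h0
      calc (ρ h).1 = (((ρ h).1.trace / 2) * ((ρ h).1.trace / 2)) • (ρ h).1 := by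
            rw [hε, one_smul]
        _ = _ := by rw [mul_smul, h1]
    obtain ⟨b, hb⟩ := hirr ![1, 0] (by simp)
    set Bm := (ρ b).1 with hBm
    set Y := Bm - (Bm.trace / 2) • (1 : Matrix (Fin 2) (Fin 2) k) with hY
    have hYtr : Y.trace = 0 := by
      simp only [hY, Matrix.trace_sub, Matrix.trace_smul, Matrix.trace_one, Fintype.card_fin,
        smul_eq_mul]
      field_simp
      push_cast
      ring
    have hYne : Y ≠ 0 := by
      intro h0
      have : Bm = (Bm.trace / 2) • (1 : Matrix (Fin 2) (Fin 2) k) := sub_eq_zero.mp h0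
      apply hb (Bm.trace / 2)
      have h5 : Bm *ᵥ ![1, 0] = ((Bm.trace / 2) • (1 : Matrix (Fin 2) (Fin 2) k)) *ᵥ ![1, 0] :=
        congrArg (· *ᵥ ![1, 0]) this
      rw [h5]
      simp [Matrix.smul_mulVec]
    refine hpm Y hYtr hYne (fun a => ?_)
    have hcomm := hsc _ (hab a b)
    set ε := (ρ (a * b * a⁻¹ * b⁻¹)).1.trace / 2 with hε
    have hε2 : ε * ε = 1 := by
      have := hcon _ (hab a b)
      rw [hε]
      field_simp
      linear_combination this
    have hABA : (ρ a).1 * Bm * (ρ a)⁻¹.1 = ε • Bm := by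
      have h1 : (ρ (a * b * a⁻¹ * b⁻¹)).1 = (ρ a).1 * Bm * (ρ a)⁻¹.1 * (ρ b)⁻¹.1 := by
        simp [map_mul, map_inv, hBm]
      rw [h1] at hcomm
      have := congrArg (· * Bm) hcomm
      simp only [Matrix.mul_assoc, hBm, Units.inv_mul, Matrix.mul_one] at this
      simpa [Matrix.mul_assoc] using this
    rcases mul_self_eq_one_iff.mp hε2 with h1 | h1
    · left
      rw [hY, Matrix.mul_sub, Matrix.sub_mul, hABA, h1]
      simp
    · right
      have htr0 : Bm.trace = 0 := by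
        have := congrArg Matrix.trace hABA
        rw [Matrix.trace_units_conj, h1, Matrix.trace_smul] at this
        have h3 : (2 : k) * Bm.trace = 0 := by
          simp only [smul_eq_mul] at this
          linear_combination this
        exact (mul_eq_zero.mp h3).resolve_left h2
      rw [hY, htr0]
      simp only [zero_div, zero_smul, sub_zero]
      rw [hABA, h1]
      simp
  · have hpair : ∀ h ∈ Hn, ∀ h' ∈ Hn, (Nil h * Nil h').trace = 0 := by
      intro h hh h' hh'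
      have ht : (ρ h).1.trace ^ 2 = 4 := hcon h hh
      have ht' : (ρ h').1.trace ^ 2 = 4 := hcon h' hh'
      have hCH : (ρ h).1 * (ρ h).1 = (ρ h).1.trace • (ρ h).1 - 1 := by
        rw [cayley_two, hdet h hh, one_smul]
      have e1 : ((ρ h).1 * (ρ h').1).trace ^ 2 = 4 := by
        have := hcon (h * h') (Hn.mul_mem hh hh')
        simpa [map_mul] using this
      have e2 : ((ρ h).1 * (ρ h).1 * (ρ h').1).trace ^ 2 = 4 := by
        have := hcon (h * h * h') (Hn.mul_mem (Hn.mul_mem hh hh) hh')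
        simpa [map_mul] using this
      have e3 : ((ρ h).1 * (ρ h).1 * (ρ h').1).trace
          = (ρ h).1.trace * ((ρ h).1 * (ρ h').1).trace - (ρ h').1.trace := by
        rw [hCH, Matrix.sub_mul, Matrix.trace_sub, Matrix.smul_mul, Matrix.trace_smul,
          Matrix.one_mul, smul_eq_mul]
      rw [e3] at e2
      have e4 : (ρ h).1.trace * (ρ h').1.trace * ((ρ h).1 * (ρ h').1).trace = 8 := by
        have h16 : (2 : k) * ((ρ h).1.trace * (ρ h').1.trace * ((ρ h).1 * (ρ h').1).trace - 8)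
            = 0 := by
          linear_combination (-1 : k) * e2 + ((ρ h).1 * (ρ h').1).trace ^ 2 * ht + 4 * e1 + ht'
        have := (mul_eq_zero.mp h16).resolve_left h2
        linear_combination this
      simp only [hNil, Matrix.sub_mul, Matrix.mul_sub, Matrix.trace_sub, Matrix.smul_mul,
        Matrix.mul_smul, Matrix.trace_smul, Matrix.mul_one, Matrix.one_mul, Matrix.trace_one,
        smul_eq_mul, Fintype.card_fin]
      field_simp
      push_cast
      linear_combination e4 - 2 * ht - 2 * ht'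
    have hWW : ∀ X ∈ W, ∀ Y ∈ W, (X * Y).trace = 0 := by
      intro X hX
      induction hX using Submodule.span_induction with
      | mem x hx =>
        obtain ⟨h, hh, rfl⟩ := hx
        intro Y hY
        induction hY using Submodule.span_induction with
        | mem y hy => obtain ⟨h', hh', rfl⟩ := hy; exact hpair h hh h' hh'
        | zero => simp
        | add x y _ _ hx hy => rw [Matrix.mul_add, Matrix.trace_add, hx, hy, add_zero]
        | smul c x _ hx => rw [Matrix.mul_smul, Matrix.trace_smul, hx, smul_zero]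
      | zero => intro Y _; simp
      | add x y _ _ hx hy =>
        intro Y hY
        rw [Matrix.add_mul, Matrix.trace_add, hx Y hY, hy Y hY, add_zero]
      | smul c x _ hx =>
        intro Y hY
        rw [Matrix.smul_mul, Matrix.trace_smul, hx Y hY, smul_zero]
    have hH0 : (!![1, 0; 0, -1] : Matrix (Fin 2) (Fin 2) k) ∈ W :=
      htop _ (by simp [Matrix.trace_fin_two])
    have := hWW _ hH0 _ hH0
    simp [Matrix.trace_fin_two] at this
    exact h2 (by linear_combination this)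

end rep

/-- The exit of brick G, given the vanishing of `H¹` for the finite group `ρ.range`. -/
theorem exists_sigma_of_h1 {Γ : Type*} [Group Γ] {k : Type*} [Field k] (h2 : (2 : k) ≠ 0)
    (ρ : Γ →* GL (Fin 2) k)
    (h1 : ∀ c : GL (Fin 2) k → Matrix (Fin 2) (Fin 2) k, IsCocycle ρ.range c →
      ∃ Y : Matrix (Fin 2) (Fin 2) k, Y.trace = 0 ∧ ∀ g ∈ ρ.range, c g = tw g Y - Y)
    (hirr : ∀ v : Fin 2 → k, v ≠ 0 → ∃ g, ∀ a : k, (ρ g).1 *ᵥ v ≠ a • v)
    (hpm : ∀ Y : Matrix (Fin 2) (Fin 2) k, Y.trace = 0 → Y ≠ 0 →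
        ¬ ∀ g, (ρ g).1 * Y * (ρ g)⁻¹.1 = Y ∨ (ρ g).1 * Y * (ρ g)⁻¹.1 = -Y)
    (Hn : Subgroup Γ) (hab : ∀ a b : Γ, a * b * a⁻¹ * b⁻¹ ∈ Hn)
    (hH : ∀ h ∈ Hn, (ρ h).1.det = 1)
    (ψ : Γ → Matrix (Fin 2) (Fin 2) k) (hψ : ∀ a b, ψ (a * b) = ψ a + tw (ρ a) (ψ b))
    (hψtr : ∀ a, (ψ a).trace = 0)
    (hnot : ¬ ∃ Y : Matrix (Fin 2) (Fin 2) k, Y.trace = 0 ∧ ∀ a, ψ a = tw (ρ a) Y - Y) :
    ∃ σ ∈ Hn, ((ρ σ).1.trace) ^ 2 ≠ 4 ∧
      ¬ ∃ Y : Matrix (Fin 2) (Fin 2) k, Y.trace = 0 ∧ ψ σ = tw (ρ σ) Y - Y := by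
  classical
  have hψ1 : ψ 1 = 0 := by
    have := hψ 1 1
    rw [mul_one, map_one, tw_one] at this
    simpa using this
  have hconj : ∀ a h, h ∈ Hn → a * h * a⁻¹ ∈ Hn := by
    intro a h hh
    have := Hn.mul_mem (hab a h) hh
    simpa [mul_assoc] using this
  have hconj_tw : ∀ (a : Γ) (X : Matrix (Fin 2) (Fin 2) k), (ρ a).1 * X * (ρ a)⁻¹.1
      = ((ρ a).1.det)⁻¹ • tw (ρ a) X := by
    intro a X
    rw [tw, smul_smul, inv_mul_cancel₀ (det_ne_zero_of_gl _), one_smul]
  -- Step 1: `ψ` does not vanish on `ker ρ ∩ Hn`.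
  have step1 : ∃ τ, ρ τ = 1 ∧ τ ∈ Hn ∧ ψ τ ≠ 0 := by
    by_contra hcon
    simp only [not_exists, not_and, not_not] at hcon
    have hker : ∀ π, ρ π = 1 → ψ π = 0 := by
      intro π hπ
      by_contra hne
      have hfix : ∀ a, tw (ρ a) (ψ π) = ψ π := by
        intro a
        have hn : a⁻¹ * π⁻¹ * a * π ∈ Hn := by simpa using hab a⁻¹ π⁻¹
        have hρn : ρ (a⁻¹ * π⁻¹ * a * π) = 1 := by simp [map_mul, hπ]
        have hψn := hcon _ hρn hn
        have e1 : ψ (a * π) = ψ a + tw (ρ a) (ψ π) := hψ a π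
        have e2 : a * π = π * (a * (a⁻¹ * π⁻¹ * a * π)) := by group
        have e3 : ψ (π * (a * (a⁻¹ * π⁻¹ * a * π))) = ψ π + ψ a := by
          rw [hψ, hπ, tw_one, hψ, hψn, tw_zero, add_zero]
        rw [e2, e3, add_comm] at e1
        exact (add_left_cancel e1).symm
      exact no_stable_line ρ hirr hpm (ψ π) (hψtr π) hne
        (fun a => ⟨((ρ a).1.det)⁻¹, by rw [hconj_tw, hfix]⟩)
    have hdep : ∀ a b, ρ a = ρ b → ψ a = ψ b := by
      intro a b hab'
      have hb : b = a * (a⁻¹ * b) := by group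
      rw [hb, hψ, hker (a⁻¹ * b) (by simp [map_mul, hab']), tw_zero, add_zero]
    let c : GL (Fin 2) k → Matrix (Fin 2) (Fin 2) k :=
      fun g => if h : ∃ a, ρ a = g then ψ h.choose else 0
    have hc : ∀ a, c (ρ a) = ψ a := by
      intro a
      have hex : ∃ a', ρ a' = ρ a := ⟨a, rfl⟩
      simp only [c, dif_pos hex]
      exact hdep _ _ hex.choose_spec
    obtain ⟨Y, hYtr, hY⟩ := h1 c
        ⟨by rintro _ ⟨a, rfl⟩ _ ⟨b, rfl⟩; rw [← map_mul, hc, hc, hc, hψ],
          by rintro _ ⟨a, rfl⟩; rw [hc]; exact hψtr a⟩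
    exact hnot ⟨Y, hYtr, fun a => by rw [← hc]; exact hY _ ⟨a, rfl⟩⟩
  obtain ⟨τ0, hτ0ρ, hτ0H, hτ0ψ⟩ := step1
  -- Step 2: the span of `ψ (ker ρ ∩ Hn)` is everything.
  set S : Set Γ := {τ | ρ τ = 1 ∧ τ ∈ Hn} with hS
  set W := Submodule.span k (ψ '' S) with hW
  have hW0 : ∀ X ∈ W, X.trace = 0 := by
    intro X hX
    induction hX using Submodule.span_induction with
    | mem x hx => obtain ⟨h, _, rfl⟩ := hx; exact hψtr h
    | zero => simp
    | add x y _ _ hx hy => rw [Matrix.trace_add, hx, hy, add_zero]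
    | smul c x _ hx => rw [Matrix.trace_smul, hx, smul_zero]
  have hψconj : ∀ a τ, ρ τ = 1 → ψ (a * τ * a⁻¹) = tw (ρ a) (ψ τ) := by
    intro a τ hτ
    have e0 : ψ (a * a⁻¹) = ψ a + tw (ρ a) (ψ a⁻¹) := hψ a a⁻¹
    rw [mul_inv_cancel, hψ1] at e0
    rw [mul_assoc, hψ, hψ, hτ, tw_one, tw_add]
    have e1 : tw (ρ a) (ψ a⁻¹) = -ψ a := by
      rw [eq_neg_iff_add_eq_zero, add_comm]; exact e0.symm
    rw [e1]
    abel
  have hWst : ∀ g, ∀ X ∈ W, (ρ g).1 * X * (ρ g)⁻¹.1 ∈ W := by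
    intro g X hX
    induction hX using Submodule.span_induction with
    | mem x hx =>
      obtain ⟨τ, ⟨hτρ, hτH⟩, rfl⟩ := hx
      rw [hconj_tw, ← hψconj g τ hτρ]
      exact W.smul_mem _ (Submodule.subset_span
        ⟨_, ⟨by simp [map_mul, hτρ], hconj g τ hτH⟩, rfl⟩)
    | zero => simp
    | add x y _ _ hx hy => rw [Matrix.mul_add, Matrix.add_mul]; exact W.add_mem hx hy
    | smul c x _ hx => rw [Matrix.mul_smul, Matrix.smul_mul]; exact W.smul_mem c hx
  have hWtop : ∀ X : Matrix (Fin 2) (Fin 2) k, X.trace = 0 → X ∈ W := by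
    rcases irred ρ h2 hirr hpm W hW0 hWst with hbot | htop
    · exfalso
      apply hτ0ψ
      have : ψ τ0 ∈ W := Submodule.subset_span ⟨τ0, ⟨hτ0ρ, hτ0H⟩, rfl⟩
      rw [hbot] at this
      simpa using this
    · exact htop
  -- Step 3: the regular element and the functional `tr (· * Y0)`.
  obtain ⟨σ0, hσ0H, hσ0⟩ := exists_regular ρ h2 hirr hpm Hn hab hH
  have hdet : (ρ σ0).1.det = 1 := hH σ0 hσ0H
  set Y0 := (ρ σ0).1 - ((ρ σ0).1.trace / 2) • (1 : Matrix (Fin 2) (Fin 2) k) with hY0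
  have hY0tr : Y0.trace = 0 := by
    simp only [hY0, Matrix.trace_sub, Matrix.trace_smul, Matrix.trace_one, Fintype.card_fin,
      smul_eq_mul]
    field_simp
    push_cast
    ring
  have hY0sq : (Y0 * Y0).trace = ((ρ σ0).1.trace ^ 2 - 4) / 2 := by
    have hCH : (ρ σ0).1 * (ρ σ0).1 = (ρ σ0).1.trace • (ρ σ0).1 - 1 := by
      rw [cayley_two, hdet, one_smul]
    simp only [hY0, Matrix.sub_mul, Matrix.mul_sub, Matrix.trace_sub, Matrix.smul_mul,
      Matrix.mul_smul, Matrix.trace_smul, Matrix.mul_one, Matrix.one_mul, Matrix.trace_one,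
      smul_eq_mul, Fintype.card_fin, hCH]
    field_simp
    push_cast
    ring
  have hY0ne : (Y0 * Y0).trace ≠ 0 := by
    rw [hY0sq]
    intro h
    apply hσ0
    field_simp at h
    linear_combination h
  have hcob : ∀ Y : Matrix (Fin 2) (Fin 2) k, ((tw (ρ σ0) Y - Y) * Y0).trace = 0 := by
    intro Y
    rw [tw, hdet, one_smul, Matrix.sub_mul, Matrix.trace_sub, sub_eq_zero]
    have hcomm : Y0 * (ρ σ0).1 = (ρ σ0).1 * Y0 := by
      rw [hY0]; simp [Matrix.sub_mul, Matrix.mul_sub]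
    have hcomm' : (ρ σ0)⁻¹.1 * Y0 = Y0 * (ρ σ0)⁻¹.1 := by
      calc (ρ σ0)⁻¹.1 * Y0 = (ρ σ0)⁻¹.1 * Y0 * ((ρ σ0).1 * (ρ σ0)⁻¹.1) := by
            rw [Units.mul_inv, Matrix.mul_one]
        _ = (ρ σ0)⁻¹.1 * (Y0 * (ρ σ0).1) * (ρ σ0)⁻¹.1 := by simp only [Matrix.mul_assoc]
        _ = ((ρ σ0)⁻¹.1 * (ρ σ0).1) * Y0 * (ρ σ0)⁻¹.1 := by
            rw [hcomm]; simp only [Matrix.mul_assoc]
        _ = _ := by rw [Units.inv_mul, Matrix.one_mul]
    rw [Matrix.mul_assoc, hcomm', ← Matrix.mul_assoc, Matrix.trace_mul_comm,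
      ← Matrix.mul_assoc, ← Matrix.mul_assoc, Units.inv_mul, Matrix.one_mul]
  obtain ⟨τ, hτS, hτ⟩ : ∃ τ ∈ S, (ψ τ * Y0).trace ≠ 0 := by
    by_contra hcon
    simp only [not_exists, not_and, not_not] at hcon
    have hall : ∀ X ∈ W, (X * Y0).trace = 0 := by
      intro X hX
      induction hX using Submodule.span_induction with
      | mem x hx => obtain ⟨τ, hτ, rfl⟩ := hx; exact hcon τ hτ
      | zero => simp
      | add x y _ _ hx hy => rw [Matrix.add_mul, Matrix.trace_add, hx, hy, add_zero]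
      | smul c x _ hx => rw [Matrix.smul_mul, Matrix.trace_smul, hx, smul_zero]
    exact hY0ne (hall Y0 (hWtop Y0 hY0tr))
  by_cases hσψ : (ψ σ0 * Y0).trace = 0
  · refine ⟨τ * σ0, Hn.mul_mem hτS.2 hσ0H, ?_, ?_⟩
    · rw [map_mul, hτS.1, one_mul]; exact hσ0
    · rintro ⟨Y, -, hY⟩
      rw [map_mul, hτS.1, one_mul] at hY
      have e := hψ τ σ0
      rw [hτS.1, tw_one] at e
      apply hτ
      have h3 := hcob Y
      rw [← hY, e, Matrix.add_mul, Matrix.trace_add, hσψ, add_zero] at h3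
      exact h3
  · exact ⟨σ0, hσ0H, hσ0, fun ⟨Y, _, hY⟩ => hσψ (by rw [hY]; exact hcob Y)⟩

/-- `2 ≠ 0` in a field of odd characteristic. -/
theorem two_ne_zero_of_charP (k : Type*) [Field k] (p : ℕ) [Fact p.Prime] [CharP k p]
    (hp2 : p ≠ 2) : (2 : k) ≠ 0 := by
  intro h
  have hdvd : p ∣ 2 := (CharP.cast_eq_zero_iff k p 2).mp (by exact_mod_cast h)
  exact hp2 ((Nat.prime_dvd_prime_iff_eq (Fact.out : p.Prime) Nat.prime_two).mp hdvd)

/-- (G.5a) `RegStatement` of `Bricks`. -/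
theorem regStatement : RegStatement.{u, v} := by
  intro Γ _ k _ p _ _ hp2 ρ Hn h
  exact exists_regular ρ (two_ne_zero_of_charP k p hp2) h.irr h.pm Hn h.comm h.det_one

/-- (G.5b) `ExitStatement` of `Bricks`, given `H1Statement` (G.4). -/
theorem exitStatement_of_h1 (h1 : H1Statement.{u}) : ExitStatement.{u, v} := by
  intro Γ _ k _ p _ _ hp2 ρ Hn h ψ hψ hψtr hnot
  have hfin : Finite ρ.range := by
    have : Finite (Set.range ρ) := h.fin.to_subtype
    exact this
  refine exists_sigma_of_h1 (two_ne_zero_of_charP k p hp2) ρ (fun c hc => ?_) h.irr h.pm Hn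
    h.comm h.det_one ψ hψ hψtr hnot
  exact h1 k p hp2 ρ.range (by rintro _ ⟨a, rfl⟩; exact h.split a)
    (fun v hv => by obtain ⟨g, hg⟩ := h.irr v hv; exact ⟨ρ g, ⟨g, rfl⟩, hg⟩)
    (fun h5 => by obtain ⟨g, hg⟩ := h.det5 h5; exact ⟨ρ g, ⟨g, rfl⟩, hg⟩) c hc

end Fermat.Agent.S56.G.Exit
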