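import Fermat.Agent.S56.Contract
import Fermat.Agent.S56.G.Bricks

/-!
# S56, brick G.6: the contract adapter `Hyp ⇒ RhoHyp`

The frozen hypotheses of S56 (bundled as `Contract.Hyp`) give the hypotheses `RhoHyp` of the
group-theoretic exit of brick G, for `ρ := ρbar` written in a basis (`matRho`) and
`Hn := cycFix p n`, the fixer of the `p ^ (n + 1)`-th roots of unity.
-/

set_option autoImplicit false

open Polynomial IsLocalRing Matrix
open scoped TensorProduct

namespace Fermat.Agent.S56.G.HypAdapter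

open Fermat.Agent.S56.Contract

local notation "Qb" => AlgebraicClosure ℚ
local notation "GQ" => (AlgebraicClosure ℚ ≃ₐ[ℚ] AlgebraicClosure ℚ)

/-! ### (a) the fixer of `μ_{p^(n+1)}` -/

/-- The subgroup of `G_ℚ` fixing all `p ^ (n + 1)`-th roots of unity. -/
def cycFix (p n : ℕ) : Subgroup GQ where
  carrier := {σ | ∀ z : Qb, z ^ p ^ (n + 1) = 1 → σ z = z}
  mul_mem' := by
    intro a b ha hb z hz
    rw [AlgEquiv.mul_apply, hb z hz, ha z hz]
  one_mem' := fun _ _ => rfl
  inv_mem' := by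
    intro a ha z hz
    apply a.injective
    rw [← AlgEquiv.mul_apply, mul_inv_cancel, AlgEquiv.one_apply, ha z hz]

theorem mem_cycFix {p n : ℕ} {σ : GQ} :
    σ ∈ cycFix p n ↔ ∀ z : Qb, z ^ p ^ (n + 1) = 1 → σ z = z := Iff.rfl

/-- Every automorphism acts on the `N`-th roots of unity by a power. -/
theorem exists_pow_act (N : ℕ) (hN : 0 < N) (σ : GQ) :
    ∃ i : ℕ, ∀ z : Qb, z ^ N = 1 → σ z = z ^ i := by
  have : NeZero N := ⟨hN.ne'⟩
  have : NeZero ((N : ℕ) : Qb) := ⟨by exact_mod_cast hN.ne'⟩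
  obtain ⟨ζ, hζ⟩ := HasEnoughRootsOfUnity.exists_primitiveRoot Qb N
  have h1 : (σ ζ) ^ N = 1 := by rw [← map_pow, hζ.pow_eq_one, map_one]
  obtain ⟨i, -, hi⟩ := hζ.eq_pow_of_pow_eq_one h1
  refine ⟨i, fun z hz => ?_⟩
  obtain ⟨j, -, hj⟩ := hζ.eq_pow_of_pow_eq_one hz
  rw [← hj, map_pow, ← hi, ← pow_mul, ← pow_mul, mul_comm]

/-- Commutators fix the `p ^ (n + 1)`-th roots of unity. -/
theorem comm_mem_cycFix (p n : ℕ) (hp : 0 < p) (a b : GQ) : a * b * a⁻¹ * b⁻¹ ∈ cycFix p n := by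
  intro z hz
  obtain ⟨i, hi⟩ := exists_pow_act (p ^ (n + 1)) (pow_pos hp _) a
  obtain ⟨j, hj⟩ := exists_pow_act (p ^ (n + 1)) (pow_pos hp _) b
  have hroot : ∀ (σ : GQ) (w : Qb), w ^ p ^ (n + 1) = 1 → (σ w) ^ p ^ (n + 1) = 1 :=
    fun σ w hw => by rw [← map_pow, hw, map_one]
  have hw : (a⁻¹ (b⁻¹ z)) ^ p ^ (n + 1) = 1 := hroot _ _ (hroot _ _ hz)
  have hab : a (b (a⁻¹ (b⁻¹ z))) = b (a (a⁻¹ (b⁻¹ z))) := by
    rw [hi _ (hroot b _ hw), hj _ hw, hj _ (hroot a _ hw), hi _ hw, ← pow_mul, ← pow_mul, mul_comm]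
  have h1 : a (a⁻¹ (b⁻¹ z)) = b⁻¹ z := by
    rw [← AlgEquiv.mul_apply, mul_inv_cancel, AlgEquiv.one_apply]
  have h2 : b (b⁻¹ z) = z := by
    rw [← AlgEquiv.mul_apply, mul_inv_cancel, AlgEquiv.one_apply]
  show (a * b * a⁻¹ * b⁻¹) z = z
  rw [AlgEquiv.mul_apply, AlgEquiv.mul_apply, AlgEquiv.mul_apply, hab, h1, h2]

/-- An automorphism squaring the `p`-th roots of unity (`p` odd). -/
theorem exists_aut_sq (p : ℕ) [Fact p.Prime] (hp2 : p ≠ 2) :
    ∃ σ : GQ, ∀ μ : Qb, μ ^ p = 1 → σ μ = μ ^ 2 := by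
  have hp : p.Prime := Fact.out
  have : NeZero p := ⟨hp.ne_zero⟩
  have : NeZero ((p : ℕ) : Qb) := ⟨by exact_mod_cast hp.ne_zero⟩
  obtain ⟨ζ, hζ⟩ := HasEnoughRootsOfUnity.exists_primitiveRoot Qb p
  have hcop : Nat.Coprime 2 p := (Nat.coprime_primes Nat.prime_two hp).2 (Ne.symm hp2)
  have h1 : IsPrimitiveRoot (ζ ^ 2) p := hζ.pow_of_coprime 2 hcop
  have h2 : IsConjRoot ℚ (ζ ^ 2) ζ := by
    rw [isConjRoot_def, ← Polynomial.cyclotomic_eq_minpoly_rat hζ hp.pos,
      ← Polynomial.cyclotomic_eq_minpoly_rat h1 hp.pos]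
  have : Algebra.IsAlgebraic ℚ Qb := AlgebraicClosure.isAlgebraic ℚ
  have : IsAlgClosure ℚ Qb := ⟨inferInstance, inferInstance⟩
  have : Normal ℚ Qb := IsAlgClosure.normal ℚ Qb
  obtain ⟨σ, hσ⟩ := h2.exists_algEquiv
  refine ⟨σ, fun μ hμ => ?_⟩
  obtain ⟨j, -, hj⟩ := hζ.eq_pow_of_pow_eq_one hμ
  rw [← hj, map_pow, hσ, ← pow_mul, ← pow_mul, mul_comm]

/-! ### (b) `ρbar` in matrix form -/

/-- `ρbar` as a homomorphism to `GL₂(k)`, in the basis `b`. -/
noncomputable def matRho {k : Type} [Field k] (ρbar : ResidualGaloisRep k)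
    (b : Module.Basis (Fin 2) k ρbar.V) : GQ →* GL (Fin 2) k :=
  (Units.map (MonoidHomClass.toMonoidHom (LinearMap.toMatrixAlgEquiv b))).comp ρbar.ρ.toHomUnits

theorem matRho_val {k : Type} [Field k] (ρbar : ResidualGaloisRep k)
    (b : Module.Basis (Fin 2) k ρbar.V) (σ : GQ) :
    (matRho ρbar b σ).val = LinearMap.toMatrix b b (ρbar.ρ σ) := rfl

theorem matRho_inv_val {k : Type} [Field k] (ρbar : ResidualGaloisRep k)
    (b : Module.Basis (Fin 2) k ρbar.V) (σ : GQ) :
    ((matRho ρbar b σ)⁻¹ : GL (Fin 2) k).val = LinearMap.toMatrix b b (ρbar.ρ σ⁻¹) := by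
  rw [← map_inv, matRho_val]

/-- conjugation by `g` fixes `Y` iff `g` commutes with `Y`; it negates `Y` iff they anticommute -/
theorem conj_eq_iff {k : Type} [Field k] (g : GL (Fin 2) k) (Y Z : Matrix (Fin 2) (Fin 2) k) :
    g.val * Y * (g⁻¹ : GL (Fin 2) k).val = Z ↔ g.val * Y = Z * g.val := by
  constructor
  · intro h
    rw [← h, mul_assoc, ← Units.val_mul, inv_mul_cancel, Units.val_one, mul_one]
  · intro h
    rw [h, mul_assoc, ← Units.val_mul, mul_inv_cancel, Units.val_one, mul_one]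

/-! ### (c) irreducibility in matrix form -/

/-- Irreducibility of (a subgroup acting on) the base change `K ⊗ V`, in coordinates. -/
theorem matrix_irr_of_irr {k : Type} [Field k] (ρbar : ResidualGaloisRep k)
    (b : Module.Basis (Fin 2) k ρbar.V) (K : Type) [Field K] [Algebra k K] (G : Subgroup GQ)
    (hG : ∀ V : Submodule K (ρbar.baseChange K).V,
      (∀ σ ∈ G, ∀ x ∈ V, (ρbar.baseChange K).ρ σ x ∈ V) → V = ⊥ ∨ V = ⊤)
    (W : Submodule K (Fin 2 → K))
    (hW : ∀ σ ∈ G, ∀ u ∈ W, ((matRho ρbar b σ).val.map (algebraMap k K)) *ᵥ u ∈ W) :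
    W = ⊥ ∨ W = ⊤ := by
  classical
  let bK : Module.Basis (Fin 2) K (K ⊗[k] ρbar.V) := Algebra.TensorProduct.basis K b
  let V' : Submodule K (K ⊗[k] ρbar.V) := W.comap bK.equivFun.toLinearMap
  have hV' : ∀ σ ∈ G, ∀ x ∈ V', (ρbar.baseChange K).ρ σ x ∈ V' := by
    intro σ hσ x hx
    show bK.equivFun ((ρbar.ρ σ).baseChange K x) ∈ W
    have h1 := LinearMap.toMatrix_mulVec_repr bK bK ((ρbar.ρ σ).baseChange K) x
    rw [LinearMap.toMatrix_baseChange] at h1
    have h2 := hW σ hσ (bK.equivFun x) hx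
    rw [matRho_val] at h2
    have h3 : (bK.equivFun x : Fin 2 → K) = ⇑(bK.repr x) := rfl
    have h4 : (bK.equivFun ((ρbar.ρ σ).baseChange K x) : Fin 2 → K) =
        ⇑(bK.repr ((ρbar.ρ σ).baseChange K x)) := rfl
    rw [h4, ← h1, ← h3]
    exact h2
  rcases hG V' hV' with h | h
  · left
    rw [eq_bot_iff]
    intro u hu
    have h1 : bK.equivFun.symm u ∈ V' := by
      show bK.equivFun (bK.equivFun.symm u) ∈ W
      rwa [LinearEquiv.apply_symm_apply]
    rw [h, Submodule.mem_bot] at h1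
    have h2 : u = 0 := by rw [← LinearEquiv.apply_symm_apply bK.equivFun u, h1, map_zero]
    rw [h2]
    exact Submodule.zero_mem _
  · right
    rw [eq_top_iff]
    intro u _
    have h1 : bK.equivFun.symm u ∈ V' := by rw [h]; trivial
    have h3 : bK.equivFun (bK.equivFun.symm u) ∈ W := h1
    rwa [LinearEquiv.apply_symm_apply] at h3

/-! ### (d) the adapter -/

section Adapter

variable {𝒪 : Type} [CommRing 𝒪] [IsLocalRing 𝒪] {p : ℕ} [Fact p.Prime]
  {ρbar : ResidualGaloisRep (ResidueField 𝒪)} {S Smin : Finset ℕ}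

omit [Fact p.Prime] in
theorem natCast_p_eq_zero (h : Hyp 𝒪 p ρbar S Smin) : ((p : ℕ) : ResidueField 𝒪) = 0 := by
  have h2 : IsLocalRing.residue 𝒪 (p : 𝒪) = 0 := (IsLocalRing.residue_eq_zero_iff _).2 h.hp𝒪
  rwa [map_natCast] at h2

theorem charP_of_hyp (h : Hyp 𝒪 p ρbar S Smin) : CharP (ResidueField 𝒪) p :=
  (CharP.charP_iff_prime_eq_zero (Fact.out : p.Prime)).2 (natCast_p_eq_zero h)

omit [Fact p.Prime] in
/-- `det ρbar` is the mod `p` cyclotomic character. -/
theorem det_eq_natCast (h : Hyp 𝒪 p ρbar S Smin) (b : Module.Basis (Fin 2) (ResidueField 𝒪) ρbar.V)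
    (σ : GQ) (a : ℕ) (ha : ∀ μ : Qb, μ ^ p = 1 → σ μ = μ ^ a) :
    (matRho ρbar b σ).val.det = (a : ResidueField 𝒪) := by
  have h1 := h.hdet.2 1 σ a (by intro μ hμ; exact ha μ (by rwa [pow_one] at hμ))
  have hp0 := natCast_p_eq_zero h
  rw [pow_one, hp0, Ideal.span_singleton_eq_bot.2 rfl, Ideal.mem_bot, sub_eq_zero] at h1
  rw [matRho_val, LinearMap.det_toMatrix]
  exact h1

omit [Fact p.Prime] in
theorem det_one_of_mem (h : Hyp 𝒪 p ρbar S Smin)
    (b : Module.Basis (Fin 2) (ResidueField 𝒪) ρbar.V) (n : ℕ) {σ : GQ} (hσ : σ ∈ cycFix p n) :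
    (matRho ρbar b σ).val.det = 1 := by
  have h1 := det_eq_natCast h b σ 1 (fun μ hμ => by
    rw [pow_one]
    exact hσ μ (by rw [pow_succ, pow_mul', hμ, one_pow]))
  rw [h1, Nat.cast_one]

theorem two_ne_zero_of_hyp (h : Hyp 𝒪 p ρbar S Smin) : (2 : ResidueField 𝒪) ≠ 0 := by
  have hp : p.Prime := Fact.out
  have := charP_of_hyp h
  intro h2
  have h3 : ((2 : ℕ) : ResidueField 𝒪) = 0 := by exact_mod_cast h2
  rw [CharP.cast_eq_zero_iff (ResidueField 𝒪) p 2] at h3
  exact h.hp2 ((Nat.prime_dvd_prime_iff_eq hp Nat.prime_two).1 h3)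

omit [Fact p.Prime] in
/-- no stable line -/
theorem irr_of_hyp (h : Hyp 𝒪 p ρbar S Smin) (b : Module.Basis (Fin 2) (ResidueField 𝒪) ρbar.V)
    (v : Fin 2 → ResidueField 𝒪) (hv : v ≠ 0) :
    ∃ g : GQ, ∀ a : ResidueField 𝒪, (matRho ρbar b g).val *ᵥ v ≠ a • v := by
  by_contra hcon
  push Not at hcon
  let K := AlgebraicClosure (ResidueField 𝒪)
  let u : Fin 2 → K := fun i => algebraMap (ResidueField 𝒪) K (v i)
  have hu : u ≠ 0 := by
    intro hu0
    apply hv
    ext i
    have h1 : algebraMap (ResidueField 𝒪) K (v i) = 0 := congrFun hu0 i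
    exact (map_eq_zero (algebraMap (ResidueField 𝒪) K)).1 h1
  have hstab : ∀ σ ∈ (⊤ : Subgroup GQ), ∀ w ∈ (K ∙ u),
      ((matRho ρbar b σ).val.map (algebraMap (ResidueField 𝒪) K)) *ᵥ w ∈ (K ∙ u) := by
    intro σ _ w hw
    rw [Submodule.mem_span_singleton] at hw ⊢
    obtain ⟨c, rfl⟩ := hw
    obtain ⟨a, ha⟩ := hcon σ
    refine ⟨c * algebraMap (ResidueField 𝒪) K a, ?_⟩
    have h1 : (matRho ρbar b σ).val.map (algebraMap (ResidueField 𝒪) K) *ᵥ u =
        algebraMap (ResidueField 𝒪) K a • u := by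
      ext i
      have h2 := RingHom.map_mulVec (algebraMap (ResidueField 𝒪) K) (matRho ρbar b σ).val v i
      rw [ha] at h2
      rw [Pi.smul_apply, smul_eq_mul, map_mul] at h2
      exact h2.symm
    rw [Matrix.mulVec_smul, h1, smul_smul]
  rcases matrix_irr_of_irr ρbar b K ⊤
    (fun V hV => h.habs V (fun σ x hx => hV σ trivial x hx)) (K ∙ u) hstab with h0 | h1
  · have h2 := Submodule.mem_span_singleton_self (R := K) u
    rw [h0, Submodule.mem_bot] at h2
    exact hu h2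
  · have h0' : (![1, 0] : Fin 2 → K) ∈ K ∙ u := by rw [h1]; trivial
    have h1' : (![0, 1] : Fin 2 → K) ∈ K ∙ u := by rw [h1]; trivial
    rw [Submodule.mem_span_singleton] at h0' h1'
    obtain ⟨c, hc⟩ := h0'
    obtain ⟨d, hd⟩ := h1'
    have c0 := congrFun hc 0
    have c1 := congrFun hc 1
    have d1 := congrFun hd 1
    simp only [Pi.smul_apply, smul_eq_mul, Matrix.cons_val_zero, Matrix.cons_val_one] at c0 c1 d1
    rcases mul_eq_zero.1 c1 with hc0 | hu1
    · rw [hc0, zero_mul] at c0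
      exact zero_ne_one c0
    · rw [hu1, mul_zero] at d1
      exact zero_ne_one d1

/-- no trace-zero matrix is an eigenvector up to sign of the conjugation action -/
theorem pm_of_hyp (h : Hyp 𝒪 p ρbar S Smin) (b : Module.Basis (Fin 2) (ResidueField 𝒪) ρbar.V)
    (Y : Matrix (Fin 2) (Fin 2) (ResidueField 𝒪)) (htr : Y.trace = 0) (hY0 : Y ≠ 0) :
    ¬ ∀ g : GQ, (matRho ρbar b g).val * Y * (matRho ρbar b g)⁻¹.val = Y ∨
      (matRho ρbar b g).val * Y * (matRho ρbar b g)⁻¹.val = -Y := by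
  intro hall
  have h2 : (2 : ResidueField 𝒪) ≠ 0 := two_ne_zero_of_hyp h
  have hall' : ∀ g : GQ, (matRho ρbar b g).val * Y = Y * (matRho ρbar b g).val ∨
      (matRho ρbar b g).val * Y = -(Y * (matRho ρbar b g).val) := by
    intro g
    rcases hall g with h1 | h1
    · left
      exact (conj_eq_iff _ _ _).1 h1
    · right
      rw [← neg_mul]
      exact (conj_eq_iff _ _ _).1 h1
  -- a unit killed by `Y` forces `Y = 0`
  have hkill : ∀ g : GQ, (matRho ρbar b g).val * Y = Y * (matRho ρbar b g).val →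
      (matRho ρbar b g).val * Y = -(Y * (matRho ρbar b g).val) → False := by
    intro g e1 e2
    have e3 : Y * (matRho ρbar b g).val = 0 := by
      have h4 : (2 : ResidueField 𝒪) • (Y * (matRho ρbar b g).val) = 0 := by
        rw [two_smul]
        nth_rewrite 1 [← e1]
        rw [e2, neg_add_cancel]
      exact (smul_eq_zero.1 h4).resolve_left h2
    apply hY0
    have h5 : Y = Y * (matRho ρbar b g).val * (matRho ρbar b g)⁻¹.val := by
      rw [mul_assoc, ← Units.val_mul, mul_inv_cancel, Units.val_one, mul_one]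
    rw [h5, e3, zero_mul]
  let Gp : Subgroup GQ :=
    { carrier := {g | Commute (matRho ρbar b g).val Y}
      mul_mem' := by
        intro a c ha hc
        show Commute (matRho ρbar b (a * c)).val Y
        rw [map_mul, Units.val_mul]
        exact Commute.mul_left ha hc
      one_mem' := by
        show Commute (matRho ρbar b 1).val Y
        rw [map_one, Units.val_one]
        exact Commute.one_left Y
      inv_mem' := by
        intro a ha
        show Commute (matRho ρbar b a⁻¹).val Y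
        rw [map_inv]
        exact Commute.units_inv_left ha }
  let K := AlgebraicClosure (ResidueField 𝒪)
  have hG : ∀ V : Submodule K (ρbar.baseChange K).V,
      (∀ σ ∈ Gp, ∀ x ∈ V, (ρbar.baseChange K).ρ σ x ∈ V) → V = ⊥ ∨ V = ⊤ := by
    by_cases htop : ∀ g, g ∈ Gp
    · intro V hV
      exact h.habs V (fun σ x hx => hV σ (htop σ) x hx)
    · push Not at htop
      obtain ⟨a, ha⟩ := htop
      have haA : (matRho ρbar b a).val * Y = -(Y * (matRho ρbar b a).val) :=
        (hall' a).resolve_left ha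
      have hidx : Gp.index = 2 := by
        rw [Subgroup.index_eq_two_iff]
        refine ⟨a, fun g => ?_⟩
        have hga : (matRho ρbar b (g * a)).val = (matRho ρbar b g).val * (matRho ρbar b a).val := by
          rw [map_mul, Units.val_mul]
        rcases hall' g with hg | hg
        · right
          refine ⟨hg, fun hga' => ?_⟩
          refine hkill (g * a) hga' ?_
          rw [hga, mul_assoc, haA, mul_neg, ← mul_assoc, hg, mul_assoc]
        · left
          refine ⟨?_, fun hg' => hkill g hg' hg⟩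
          show (matRho ρbar b (g * a)).val * Y = Y * (matRho ρbar b (g * a)).val
          rw [hga, mul_assoc, haA, mul_neg, ← mul_assoc, hg, neg_mul, neg_neg, mul_assoc]
      exact h.hTW K Gp hidx
  -- an eigenvalue of `Y` over `K`
  obtain ⟨lam, hlam⟩ := IsAlgClosed.exists_eq_mul_self (algebraMap (ResidueField 𝒪) K (-Y.det))
  let YK : Matrix (Fin 2) (Fin 2) K := Y.map (algebraMap (ResidueField 𝒪) K)
  let N : Matrix (Fin 2) (Fin 2) K := YK - lam • (1 : Matrix (Fin 2) (Fin 2) K)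
  let W : Submodule K (Fin 2 → K) := LinearMap.ker (Matrix.mulVecLin N)
  have hYK : ∀ i j, YK i j = algebraMap (ResidueField 𝒪) K (Y i j) := fun i j => rfl
  have htrK : YK 0 0 + YK 1 1 = 0 := by
    have h3 := congrArg (algebraMap (ResidueField 𝒪) K) htr
    rw [Matrix.trace_fin_two, map_add, map_zero] at h3
    exact h3
  have hdetK : YK 0 0 * YK 1 1 - YK 0 1 * YK 1 0 = -(lam * lam) := by
    rw [← hlam, map_neg, neg_neg, Matrix.det_fin_two, map_sub, map_mul, map_mul]
    rfl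
  have hstab : ∀ σ ∈ Gp, ∀ u ∈ W,
      ((matRho ρbar b σ).val.map (algebraMap (ResidueField 𝒪) K)) *ᵥ u ∈ W := by
    intro σ hσ u hu
    have hu' : N *ᵥ u = 0 := hu
    show N *ᵥ (((matRho ρbar b σ).val.map (algebraMap (ResidueField 𝒪) K)) *ᵥ u) = 0
    have hc : (matRho ρbar b σ).val * Y = Y * (matRho ρbar b σ).val := hσ
    have hcK : ((matRho ρbar b σ).val.map (algebraMap (ResidueField 𝒪) K)) * YK =
        YK * ((matRho ρbar b σ).val.map (algebraMap (ResidueField 𝒪) K)) := by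
      show _ * Y.map _ = Y.map _ * _
      rw [← Matrix.map_mul, ← Matrix.map_mul, hc]
    have hcN : N * ((matRho ρbar b σ).val.map (algebraMap (ResidueField 𝒪) K)) =
        ((matRho ρbar b σ).val.map (algebraMap (ResidueField 𝒪) K)) * N := by
      show (YK - lam • 1) * _ = _ * (YK - lam • 1)
      rw [sub_mul, mul_sub, hcK, smul_mul_assoc, mul_smul_comm, one_mul, mul_one]
    rw [Matrix.mulVec_mulVec, hcN, ← Matrix.mulVec_mulVec, hu', Matrix.mulVec_zero]
  have hN : ∀ i j, N i j = YK i j - lam * (1 : Matrix (Fin 2) (Fin 2) K) i j := fun i j => rfl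
  rcases matrix_irr_of_irr ρbar b K Gp hG W hstab with h0 | h1
  · have hdet : N.det = 0 := by
      rw [Matrix.det_fin_two, hN, hN, hN, hN]
      simp only [Matrix.one_apply_eq, Matrix.one_apply_ne, ne_eq, Fin.isValue, zero_ne_one,
        one_ne_zero, not_false_eq_true, mul_one, mul_zero, sub_zero]
      linear_combination hdetK - lam * htrK
    obtain ⟨u, hu0, hu⟩ := Matrix.exists_mulVec_eq_zero_iff.2 hdet
    have h3 : u ∈ W := hu
    rw [h0, Submodule.mem_bot] at h3
    exact hu0 h3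
  · have e0 : N *ᵥ ![1, 0] = 0 := by
      have h3 : (![1, 0] : Fin 2 → K) ∈ W := by rw [h1]; trivial
      exact h3
    have e1 : N *ᵥ ![0, 1] = 0 := by
      have h3 : (![0, 1] : Fin 2 → K) ∈ W := by rw [h1]; trivial
      exact h3
    have a00 := congrFun e0 0
    have a10 := congrFun e0 1
    have a01 := congrFun e1 0
    have a11 := congrFun e1 1
    simp only [Matrix.mulVec, dotProduct, Fin.sum_univ_two, Matrix.cons_val_zero,
      Matrix.cons_val_one, mul_one, mul_zero, add_zero, zero_add, Pi.zero_apply, hN,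
      Matrix.one_apply_eq, Matrix.one_apply_ne, ne_eq, Fin.isValue, zero_ne_one,
      one_ne_zero, not_false_eq_true, sub_zero] at a00 a10 a01 a11
    have h2K : (2 : K) ≠ 0 := by
      intro h3
      apply h2
      have h4 : algebraMap (ResidueField 𝒪) K 2 = 0 := by rw [map_ofNat]; exact h3
      exact (map_eq_zero (algebraMap (ResidueField 𝒪) K)).1 h4
    have hlam0 : lam = 0 := by
      have h3 : (2 : K) * lam = 0 := by linear_combination htrK - a00 - a11
      exact (mul_eq_zero.1 h3).resolve_left h2K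
    apply hY0
    have hz : ∀ i j, YK i j = 0 := by
      intro i j
      fin_cases i <;> fin_cases j
      · show YK 0 0 = 0
        linear_combination a00 + hlam0
      · show YK 0 1 = 0
        exact a01
      · show YK 1 0 = 0
        exact a10
      · show YK 1 1 = 0
        linear_combination a11 + hlam0
    ext i j
    have h3 := hz i j
    rw [hYK] at h3
    exact (map_eq_zero (algebraMap (ResidueField 𝒪) K)).1 h3

/-- **(G.6)** the frozen hypotheses of S56 give the hypotheses of the G exit. -/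
theorem rhoHyp_of_hyp [Finite (ResidueField 𝒪)] (h : Hyp 𝒪 p ρbar S Smin)
    (b : Module.Basis (Fin 2) (ResidueField 𝒪) ρbar.V) (n : ℕ) :
    RhoHyp p (matRho ρbar b) (cycFix p n) := by
  have hp : p.Prime := Fact.out
  have := charP_of_hyp h
  refine ⟨Set.toFinite _, ?_, irr_of_hyp h b, pm_of_hyp h b, ?_,
    fun a c => comm_mem_cycFix p n hp.pos a c, fun σ hσ => det_one_of_mem h b n hσ⟩
  · intro g
    obtain ⟨α, β, hαβ⟩ := h.hsplit g
    exact ⟨α, β, by rw [matRho_val, LinearMap.charpoly_toMatrix]; exact hαβ⟩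
  · intro hp5
    obtain ⟨σ, hσ⟩ := exists_aut_sq p h.hp2
    refine ⟨σ, ?_⟩
    rw [det_eq_natCast h b σ 2 hσ]
    intro h4
    have h3 : ((3 : ℕ) : ResidueField 𝒪) = 0 := by
      push_cast at h4 ⊢
      linear_combination h4
    rw [CharP.cast_eq_zero_iff (ResidueField 𝒪) p 3, hp5] at h3
    omega

omit [Fact p.Prime] in
/-- a regular element of `cycFix` has two distinct eigenvalues (the `hσ` of `TW/Cheb`) -/
theorem exists_distinct_of_reg (h : Hyp 𝒪 p ρbar S Smin)
    (b : Module.Basis (Fin 2) (ResidueField 𝒪) ρbar.V) (n : ℕ) {σ : GQ} (hσ : σ ∈ cycFix p n)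
    (hreg : (matRho ρbar b σ).val.trace ^ 2 ≠ 4) :
    ∃ α β : ResidueField 𝒪, α ≠ β ∧
      LinearMap.charpoly (ρbar.ρ σ) = (X - C α) * (X - C β) := by
  obtain ⟨α, β, hαβ⟩ := h.hsplit σ
  refine ⟨α, β, ?_, hαβ⟩
  rintro rfl
  apply hreg
  have hdet : (matRho ρbar b σ).val.det = 1 := det_one_of_mem h b n hσ
  have hcp : (matRho ρbar b σ).val.charpoly = (X - C α) * (X - C α) := by
    rw [matRho_val, LinearMap.charpoly_toMatrix]
    exact hαβ
  rw [Matrix.charpoly_fin_two] at hcp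
  have c1 := congrArg (fun f : (ResidueField 𝒪)[X] => f.coeff 1) hcp
  have c0 := congrArg (fun f : (ResidueField 𝒪)[X] => f.coeff 0) hcp
  simp [coeff_X, coeff_C, coeff_X_pow, sub_mul, mul_sub] at c0 c1
  rw [hdet] at c0
  linear_combination (-((matRho ρbar b σ).val.trace + 2 * α)) * c1 - 4 * c0

/-- The exit of brick G in the vocabulary of the contract. -/
theorem exit_of_hyp (hExit : ExitStatement.{0, 0}) [Finite (ResidueField 𝒪)]
    (h : Hyp 𝒪 p ρbar S Smin) (b : Module.Basis (Fin 2) (ResidueField 𝒪) ρbar.V) (n : ℕ)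
    (ψ : GQ → Matrix (Fin 2) (Fin 2) (ResidueField 𝒪))
    (hψ : ∀ a c, ψ (a * c) = ψ a + tw (matRho ρbar b a) (ψ c)) (htr : ∀ a, (ψ a).trace = 0)
    (hnc : ¬ ∃ Y : Matrix (Fin 2) (Fin 2) (ResidueField 𝒪),
      Y.trace = 0 ∧ ∀ a, ψ a = tw (matRho ρbar b a) Y - Y) :
    ∃ σ : GQ, (∀ z : Qb, z ^ p ^ (n + 1) = 1 → σ z = z) ∧
      (∃ α β : ResidueField 𝒪, α ≠ β ∧
        LinearMap.charpoly (ρbar.ρ σ) = (X - C α) * (X - C β)) ∧
      ¬ ∃ Y : Matrix (Fin 2) (Fin 2) (ResidueField 𝒪),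
        Y.trace = 0 ∧ ψ σ = tw (matRho ρbar b σ) Y - Y := by
  have := charP_of_hyp h
  obtain ⟨σ, hσ, hreg, hno⟩ := hExit GQ (ResidueField 𝒪) p h.hp2 (matRho ρbar b) (cycFix p n)
    (rhoHyp_of_hyp h b n) ψ hψ htr hnc
  exact ⟨σ, hσ, exists_distinct_of_reg h b n hσ hreg, hno⟩

end Adapter

end Fermat.Agent.S56.G.HypAdapter
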