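import Fermat.Agent.S56.G.H1Proof
import Fermat.Agent.S56.G.Exit
import Fermat.Agent.S56.G.HypAdapter

/-!
# S56, brick G: the final exits

* `h1Statement`, `regStatement`, `exitStatement` : the Props of `Bricks.lean`, proved
  (rows G.1–G.5: `Klein`, `FieldProof`, `CocycleProof`, `H1Proof`, `Exit`).
* `exists_sigma` : the exit in the vocabulary of the S56 contract (row G.6, `HypAdapter`): under
  the frozen hypotheses `Contract.Hyp`, a trace-zero cocycle `ψ` of `G_ℚ` in `ad⁰ ρbar (1)`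
  (matrices in a basis `b`, action `tw (matRho ρbar b ·)`) that is not a coboundary does not
  vanish in `M / (σ - 1) M` for some `σ` fixing `μ_{p^(n+1)}` with two distinct eigenvalues.
* `exists_regular` : such a `σ` exists (without any cocycle).
-/

set_option autoImplicit false

open Polynomial IsLocalRing Matrix

namespace Fermat.Agent.S56.G.Final

open Fermat.Agent.S56.Contract Fermat.Agent.S56.G.HypAdapter

universe u v

local notation "Qb" => AlgebraicClosure ℚ
local notation "GQ" => (AlgebraicClosure ℚ ≃ₐ[ℚ] AlgebraicClosure ℚ)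

/-- (G.4) `H¹(G₀, ad⁰ ⊗ det) = 0`. -/
theorem h1Statement : H1Statement.{u} := H1Proof.h1Statement

/-- (G.5a) a regular semisimple element in `Hn`. -/
theorem regStatement : RegStatement.{u, v} := Exit.regStatement

/-- (G.5b) the exit consumed by the Taylor–Wiles primes. -/
theorem exitStatement : ExitStatement.{u, v} := Exit.exitStatement_of_h1 H1Proof.h1Statement

variable {𝒪 : Type} [CommRing 𝒪] [IsLocalRing 𝒪] [Finite (ResidueField 𝒪)] {p : ℕ} [Fact p.Prime]
  {ρbar : ResidualGaloisRep (ResidueField 𝒪)} {S Smin : Finset ℕ}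

/-- The exit of brick G in the vocabulary of the contract. -/
theorem exists_sigma (h : Hyp 𝒪 p ρbar S Smin)
    (b : Module.Basis (Fin 2) (ResidueField 𝒪) ρbar.V) (n : ℕ)
    (ψ : GQ → Matrix (Fin 2) (Fin 2) (ResidueField 𝒪))
    (hψ : ∀ a c, ψ (a * c) = ψ a + tw (matRho ρbar b a) (ψ c)) (htr : ∀ a, (ψ a).trace = 0)
    (hnc : ¬ ∃ Y : Matrix (Fin 2) (Fin 2) (ResidueField 𝒪),
      Y.trace = 0 ∧ ∀ a, ψ a = tw (matRho ρbar b a) Y - Y) :
    ∃ σ : GQ, (∀ z : Qb, z ^ p ^ (n + 1) = 1 → σ z = z) ∧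
      (∃ α β : ResidueField 𝒪, α ≠ β ∧
        LinearMap.charpoly (ρbar.ρ σ) = (X - C α) * (X - C β)) ∧
      ¬ ∃ Y : Matrix (Fin 2) (Fin 2) (ResidueField 𝒪),
        Y.trace = 0 ∧ ψ σ = tw (matRho ρbar b σ) Y - Y :=
  exit_of_hyp exitStatement h b n ψ hψ htr hnc

/-- A regular semisimple element fixing `μ_{p^(n+1)}`. -/
theorem exists_regular (h : Hyp 𝒪 p ρbar S Smin)
    (b : Module.Basis (Fin 2) (ResidueField 𝒪) ρbar.V) (n : ℕ) :
    ∃ σ : GQ, (∀ z : Qb, z ^ p ^ (n + 1) = 1 → σ z = z) ∧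
      ∃ α β : ResidueField 𝒪, α ≠ β ∧
        LinearMap.charpoly (ρbar.ρ σ) = (X - C α) * (X - C β) := by
  have := charP_of_hyp h
  obtain ⟨σ, hσ, hreg⟩ := regStatement.{0, 0} GQ (ResidueField 𝒪) p h.hp2 (matRho ρbar b)
    (cycFix p n) (rhoHyp_of_hyp h b n)
  exact ⟨σ, hσ, exists_distinct_of_reg h b n hσ hreg⟩

end Fermat.Agent.S56.G.Final
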