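import Fermat.Agent.S56.G.SplitTI
import Fermat.Agent.S53.MatRep

/-!
# S56, brick G.7 (d): two more exports for the splitting field of `ρbar`

* `matOfBasisRes_eq_one_of_mem` : `Gal(ℚ̄/F)` acts trivially in the matrix model of `TangentSel`;
* `isUnramifiedOutside_splitField_of_Smin` : `F` is unramified outside every set of primes
  containing `Smin` (the level of `ρbar` is `Smin`, not `S`).
-/

set_option autoImplicit false

open IsLocalRing

namespace Fermat.Agent.S56.G.SplitExtra

open Fermat.Agent.S56.Contract Fermat.Agent.S56.G.HypAdapter Fermat.Agent.S56.G.SplitTI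
  Fermat.Agent.S53.MatRep

local notation "Qb" => AlgebraicClosure ℚ
local notation "GQ" => (AlgebraicClosure ℚ ≃ₐ[ℚ] AlgebraicClosure ℚ)

theorem matOfBasisRes_eq_one_of_mem {k : Type} [Field k] (ρbar : ResidualGaloisRep k)
    (b0 : Module.Basis (Fin 2) k ρbar.V) {σ : GQ} (hσ : σ ∈ (splitField ρbar).fixingSubgroup) :
    matOfBasisRes ρbar b0 σ = 1 := by
  rw [matOfBasisRes_eq_toMatrix, (mem_fixingSubgroup_splitField ρbar).1 hσ,
    LinearMap.toMatrix_one]

theorem matOfBasisRes_eq_one_iff {k : Type} [Field k] (ρbar : ResidualGaloisRep k)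
    (b0 : Module.Basis (Fin 2) k ρbar.V) {σ : GQ} :
    matOfBasisRes ρbar b0 σ = 1 ↔ σ ∈ (splitField ρbar).fixingSubgroup := by
  constructor
  · intro h
    rw [mem_fixingSubgroup_splitField]
    have h3 : LinearMap.toMatrix b0 b0 (ρbar.ρ σ) = LinearMap.toMatrix b0 b0 1 := by
      rw [← matOfBasisRes_eq_toMatrix, h, LinearMap.toMatrix_one]
    exact (LinearMap.toMatrix b0 b0).injective h3
  · exact matOfBasisRes_eq_one_of_mem ρbar b0

theorem matRho_val_eq_matOfBasisRes {k : Type} [Field k] (ρbar : ResidualGaloisRep k)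
    (b0 : Module.Basis (Fin 2) k ρbar.V) (σ : GQ) :
    (matRho ρbar b0 σ).val = matOfBasisRes ρbar b0 σ := rfl

variable {𝒪 : Type} [CommRing 𝒪] [IsLocalRing 𝒪] {p : ℕ} [Fact p.Prime]
  {ρbar : ResidualGaloisRep (ResidueField 𝒪)} {S Smin : Finset ℕ}

omit [Fact p.Prime] in
/-- `ρbar` is unramified outside `Smin`. -/
theorem unramified_of_not_mem_Smin (h : Hyp 𝒪 p ρbar S Smin) (q : ℕ) (hq : q.Prime)
    (hqS : q ∉ Smin) : ρbar.IsUnramifiedAt q := by
  have hqp : q ≠ p := by
    rintro rfl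
    exact hqS h.hpSmin
  by_contra hcon
  exact hqS ((h.hmin q hq hqp).2 hcon)

omit [Fact p.Prime] in
theorem isUnramifiedOutside_splitField_of_Smin (h : Hyp 𝒪 p ρbar S Smin)
    (S' : Finset Nat.Primes) (hS' : ∀ q : Nat.Primes, (q : ℕ) ∈ Smin → q ∈ S') :
    (splitField ρbar).IsUnramifiedOutside S' :=
  isUnramifiedOutside_splitField ρbar S' (fun q hq =>
    unramified_of_not_mem_Smin h (q : ℕ) q.2 (fun hqS => hq (hS' q hqS)))

end Fermat.Agent.S56.G.SplitExtra
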