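import Fermat.Agent.S56.EC.Contract
import Fermat.Agent.S56.EC.SBig
import Fermat.Agent.S56.G.SplitExtra

/-!
# S56, brick G.7 exit: `EC.ECExit` at the splitting field of `ρbar`

(helper254.)  The hypotheses of `EC.ECExit` are discharged for `F := SplitTI.splitField ρbar`
(the fixed field of `ker ρbar`):

* `F` is unramified outside every `T ⊇ Smin` (`SplitExtra.isUnramifiedOutside_splitField_of_Smin`);
* `μ_p ⊂ F` (`SplitTI.cycloField_le_splitField`: `det ρbar` is the cyclotomic character);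
* the class-group clause holds for all `K ≤ F` and all `T ⊇ Sbig` (`EC/SBig.exists_Sbig`);
* the Sylow `p`-subgroups of `Gal(F/ℚ)` are TI (`SplitTI.splitField_ti`).

Exits:

* `exists_Sbig_chi2_le` : there is a finite set of primes `Sbig ⊇ S₁ ∪ {p} ∪ Smin` such that for
  every `T ⊇ Sbig` every finite `𝔽_p[G_ℚ]`-module `N` which is trivial on `ker ρbar` has
  `χ₂(G_T, N) ≤ - dim N^{c = -1}`;
* `cycloChar_eq_one_of_ker`, `dualTwist_trivial_of_ker` : the mod `p` cyclotomic character is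
  trivial on `ker ρbar`, so `M^∨(1)` is trivial on `ker ρbar` when `M` is;
* `exists_Sbig_chi2_dualTwist_le` : the same bound for `N = M^∨(1)`.
-/

set_option autoImplicit false
set_option linter.style.haveILetI false
set_option linter.unusedSectionVars false

open scoped NumberField
open CategoryTheory ExtCitation IsLocalRing

namespace Fermat.Agent.S56.G.ChiExit

open Fermat.Agent.S55 Fermat.Agent.S55.Abs Fermat.Agent.S55.Count
open Fermat.Agent.CFT.Global.CountV Fermat.Agent.CFT.Global.SelmerCount Fermat.Agent.S55.Glue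
open Fermat.Agent.S56.EC Fermat.Agent.S56.Contract Fermat.Agent.S56.G.HypAdapter
  Fermat.Agent.S56.G.SplitTI Fermat.Agent.S56.G.SplitExtra

local notation "Qb" => AlgebraicClosure ℚ

variable {𝒪 : Type} [CommRing 𝒪] [IsLocalRing 𝒪] {p : ℕ} [Fact p.Prime]
  {ρbar : ResidualGaloisRep (ResidueField 𝒪)} {S Smin : Finset ℕ}

/-- The mod `p` cyclotomic character is trivial on `ker ρbar`. -/
theorem cycloChar_eq_one_of_ker (h : Hyp 𝒪 p ρbar S Smin) {g : GQ} (hg : ρbar.ρ g = 1) :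
    cycloChar p g = 1 :=
  cycloChar_eq_one_of_mem_fixingSubgroup p
    ((mem_fixingSubgroup_cycloField_iff p g).2 (fun z hz => fixes_roots_of_mem_ker h hg z hz))

/-- If `M` is trivial on `ker ρbar`, so is `M^∨(1)`. -/
theorem dualTwist_trivial_of_ker (h : Hyp 𝒪 p ρbar S Smin) (M : Rep.{0} (ZMod p) GQ)
    (hM : ∀ g : GQ, ρbar.ρ g = 1 → M.ρ g = 1) (g : GQ) (hg : ρbar.ρ g = 1)
    (x : ↥(M.dualTwist (cycloChar p))) : (M.dualTwist (cycloChar p)).ρ g x = x := by
  rw [dualTwist_ρ_eq_one M (cycloChar p) (hM g hg) (cycloChar_eq_one_of_ker h hg)]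
  rfl

/-- **`ECExit` at the splitting field of `ρbar`.**  There is a finite set of primes
`Sbig ⊇ S₁ ∪ {p} ∪ Smin` such that for every `T ⊇ Sbig`, every finite `𝔽_p[G_ℚ]`-module `N`
trivial on `ker ρbar` has `χ₂(G_T, N) ≤ - dim N^{c = -1}`. -/
theorem exists_Sbig_chi2_le (hEC : ECExit) (h : Hyp 𝒪 p ρbar S Smin) (S₁ : Finset Nat.Primes) :
    ∃ Sbig : Finset Nat.Primes, S₁ ⊆ Sbig ∧ pPrime p ∈ Sbig ∧
      (∀ q : Nat.Primes, (q : ℕ) ∈ Smin → q ∈ Sbig) ∧
      ∀ T : Finset Nat.Primes, Sbig ⊆ T →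
        ∀ (N : Rep.{0} (ZMod p) GQ) [Module.Finite (ZMod p) N],
          (∀ g : GQ, ρbar.ρ g = 1 → ∀ x : N, N.ρ g x = x) →
          chi2 (globalLevel T) N ≤ -(cMinus N : ℤ) := by
  classical
  haveI := finiteDimensional_splitField ρbar
  obtain ⟨Sbig, hsub, hcl⟩ := SBig.exists_Sbig p (splitField ρbar)
    (S₁ ∪ {pPrime p} ∪ (Smin.subtype Nat.Prime : Finset Nat.Primes))
  have hp : pPrime p ∈ Sbig :=
    hsub (Finset.mem_union_left _ (Finset.mem_union_right _ (Finset.mem_singleton_self _)))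
  have hSmin : ∀ q : Nat.Primes, (q : ℕ) ∈ Smin → q ∈ Sbig := fun q hq =>
    hsub (Finset.mem_union_right _ (Finset.mem_subtype.2 hq))
  refine ⟨Sbig, fun q hq => hsub (Finset.mem_union_left _ (Finset.mem_union_left _ hq)), hp,
    hSmin, fun T hT N _ htriv => ?_⟩
  exact hEC p h.hp2 T (hT hp) (splitField ρbar)
    (isUnramifiedOutside_splitField_of_Smin h T (fun q hq => hT (hSmin q hq)))
    (cycloField_le_splitField h)
    (fun K _ _ hKF => hcl T hT K hKF)
    default (fun g hg => splitField_ti h default g hg) N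
    (fun g hg x => htriv g ((mem_fixingSubgroup_splitField ρbar).1 hg) x)

/-- **The bound for `M^∨(1)`.**  There is a finite set of primes `Sbig ⊇ S₁ ∪ {p} ∪ Smin` such
that for every `T ⊇ Sbig` and every finite `𝔽_p[G_ℚ]`-module `M` trivial on `ker ρbar`:
`χ₂(G_T, M^∨(1)) ≤ - dim (M^∨(1))^{c = -1}`. -/
theorem exists_Sbig_chi2_dualTwist_le (hEC : ECExit) (h : Hyp 𝒪 p ρbar S Smin)
    (S₁ : Finset Nat.Primes) :
    ∃ Sbig : Finset Nat.Primes, S₁ ⊆ Sbig ∧ pPrime p ∈ Sbig ∧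
      (∀ q : Nat.Primes, (q : ℕ) ∈ Smin → q ∈ Sbig) ∧
      ∀ T : Finset Nat.Primes, Sbig ⊆ T →
        ∀ (M : Rep.{0} (ZMod p) GQ) [Module.Finite (ZMod p) M],
          (∀ g : GQ, ρbar.ρ g = 1 → M.ρ g = 1) →
          chi2 (globalLevel T) (M.dualTwist (cycloChar p)) ≤
            -(cMinus (M.dualTwist (cycloChar p)) : ℤ) := by
  obtain ⟨Sbig, h1, h2, h3, h4⟩ := exists_Sbig_chi2_le hEC h S₁
  refine ⟨Sbig, h1, h2, h3, fun T hT M _ hM => ?_⟩
  haveI : Module.Finite (ZMod p) ↥(M.dualTwist (cycloChar p)) :=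
    inferInstanceAs (Module.Finite (ZMod p) (Module.Dual (ZMod p) M))
  exact h4 T hT _ (dualTwist_trivial_of_ker h M hM)

end Fermat.Agent.S56.G.ChiExit
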