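import Mathlib

/-!
# S56, brick G, row G.3: cocycles on the Sylow group `P = {u(x) : x ∈ F}` are coboundaries

Level-free, Mathlib only.  `k` a field of odd characteristic `p`, `G0 ≤ GL₂(k)` a subgroup,
`F ⊆ k` a finite subfield with at least `5` elements such that `u x = !![1, x; 0, 1] ∈ G0` for
`x ∈ F`, and such that for every `a ∈ Fˣ` there is an upper triangular `t ∈ G0` of determinant
`1` with `t₁ / t₂ = a²` (the torus).  If `|F| = 5` we also need an upper triangular element of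
`G0` normalising `P` whose determinant is not `± 1`.

Then every cocycle `c : G0 → M₂(k)` with trace-zero values, for the twisted conjugation action
`g • X = det g • (g X g⁻¹)`, restricts to a coboundary on `P`.
-/

set_option autoImplicit false
set_option linter.unnecessarySeqFocus false

namespace Fermat.Agent.S56.G.CocycleP

open Matrix

variable {k : Type*} [Field k]

/-- The twisted conjugation action `g • X = det g • (g X g⁻¹)` on `2 × 2` matrices. -/
def tw (g : GL (Fin 2) k) (X : Matrix (Fin 2) (Fin 2) k) : Matrix (Fin 2) (Fin 2) k :=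
  ((Matrix.GeneralLinearGroup.det g : kˣ) : k) • (g.1 * X * (g⁻¹ : GL (Fin 2) k).1)

theorem det_ne_zero' (g : GL (Fin 2) k) : g.1.det ≠ 0 := by
  have h := (Matrix.GeneralLinearGroup.det g).ne_zero
  simpa using h

theorem tw_eq_adjugate (g : GL (Fin 2) k) (X : Matrix (Fin 2) (Fin 2) k) :
    tw g X = g.1 * X * g.1.adjugate := by
  have hdet : g.1.det ≠ 0 := det_ne_zero' g
  unfold tw
  rw [Matrix.coe_units_inv, Matrix.inv_def, Ring.inverse_eq_inv', Matrix.GeneralLinearGroup.val_det_apply,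
    Matrix.mul_smul, smul_smul, mul_inv_cancel₀ hdet, one_smul]

theorem tw_mul (g h : GL (Fin 2) k) (X : Matrix (Fin 2) (Fin 2) k) :
    tw (g * h) X = tw g (tw h X) := by
  simp only [tw_eq_adjugate, Units.val_mul, Matrix.adjugate_mul_distrib, Matrix.mul_assoc]

theorem tw_add (g : GL (Fin 2) k) (X Y : Matrix (Fin 2) (Fin 2) k) :
    tw g (X + Y) = tw g X + tw g Y := by
  simp only [tw_eq_adjugate, Matrix.mul_add, Matrix.add_mul]

theorem tw_sub (g : GL (Fin 2) k) (X Y : Matrix (Fin 2) (Fin 2) k) :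
    tw g (X - Y) = tw g X - tw g Y := by
  simp only [tw_eq_adjugate, Matrix.mul_sub, Matrix.sub_mul]

theorem tw_smul (g : GL (Fin 2) k) (a : k) (X : Matrix (Fin 2) (Fin 2) k) :
    tw g (a • X) = a • tw g X := by
  simp only [tw_eq_adjugate, Matrix.mul_smul, Matrix.smul_mul]

/-- Entries of `tw g X`. -/
theorem tw_apply (g : GL (Fin 2) k) (X : Matrix (Fin 2) (Fin 2) k) :
    tw g X = !![(g 0 0 * X 0 0 + g 0 1 * X 1 0) * g 1 1 - (g 0 0 * X 0 1 + g 0 1 * X 1 1) * g 1 0,
                (g 0 0 * X 0 1 + g 0 1 * X 1 1) * g 0 0 - (g 0 0 * X 0 0 + g 0 1 * X 1 0) * g 0 1;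
                (g 1 0 * X 0 0 + g 1 1 * X 1 0) * g 1 1 - (g 1 0 * X 0 1 + g 1 1 * X 1 1) * g 1 0,
                (g 1 0 * X 0 1 + g 1 1 * X 1 1) * g 0 0 - (g 1 0 * X 0 0 + g 1 1 * X 1 0) * g 0 1] := by
  rw [tw_eq_adjugate, Matrix.adjugate_fin_two]
  ext i j
  fin_cases i <;> fin_cases j <;>
    simp [Matrix.mul_apply, Fin.sum_univ_two] <;> ring


open Matrix.GeneralLinearGroup

@[simp] theorem u_00 (x : k) : (upperRightHom x : GL (Fin 2) k) 0 0 = 1 := rfl
@[simp] theorem u_01 (x : k) : (upperRightHom x : GL (Fin 2) k) 0 1 = x := rfl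
@[simp] theorem u_10 (x : k) : (upperRightHom x : GL (Fin 2) k) 1 0 = 0 := rfl
@[simp] theorem u_11 (x : k) : (upperRightHom x : GL (Fin 2) k) 1 1 = 1 := rfl

theorem tw_u_00 (x : k) (X : Matrix (Fin 2) (Fin 2) k) :
    tw (upperRightHom x) X 0 0 = X 0 0 + x * X 1 0 := by
  rw [tw_apply]; simp

theorem tw_u_01 (x : k) (X : Matrix (Fin 2) (Fin 2) k) :
    tw (upperRightHom x) X 0 1 = X 0 1 + x * X 1 1 - x * X 0 0 - x ^ 2 * X 1 0 := by
  rw [tw_apply]; simp; ring

theorem tw_u_10 (x : k) (X : Matrix (Fin 2) (Fin 2) k) :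
    tw (upperRightHom x) X 1 0 = X 1 0 := by
  rw [tw_apply]; simp

theorem tw_u_11 (x : k) (X : Matrix (Fin 2) (Fin 2) k) :
    tw (upperRightHom x) X 1 1 = X 1 1 - x * X 1 0 := by
  rw [tw_apply]; simp; ring

/-- For upper triangular `t`: the lower left entry of `tw t X`. -/
theorem tw_upper_10 (t : GL (Fin 2) k) (ht : t 1 0 = 0) (X : Matrix (Fin 2) (Fin 2) k) :
    tw t X 1 0 = t 1 1 ^ 2 * X 1 0 := by
  rw [tw_apply]; simp [ht]; ring

/-- For upper triangular `t`: `tw t (z E) = t₁² z E`. -/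
theorem tw_upper_E (t : GL (Fin 2) k) (ht : t 1 0 = 0) (z : k) :
    tw t !![0, z; 0, 0] = !![0, t 0 0 ^ 2 * z; 0, 0] := by
  rw [tw_apply]
  ext i j
  fin_cases i <;> fin_cases j <;> simp [ht] <;> ring

theorem upper_diag_ne_zero (t : GL (Fin 2) k) (ht : t 1 0 = 0) : t 0 0 ≠ 0 ∧ t 1 1 ≠ 0 := by
  have h := det_ne_zero' t
  rw [Matrix.det_fin_two] at h
  have ht' : t.1 1 0 = 0 := ht
  rw [ht', mul_zero, sub_zero] at h
  exact ⟨left_ne_zero_of_mul h, right_ne_zero_of_mul h⟩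

theorem upper_det (t : GL (Fin 2) k) (ht : t 1 0 = 0) : t.1.det = t 0 0 * t 1 1 := by
  have ht' : t.1 1 0 = 0 := ht
  rw [Matrix.det_fin_two, ht', mul_zero, sub_zero]

/-- `u(x) t = t u((t₂/t₁) x)` for upper triangular `t`. -/
theorem u_mul_upper (t : GL (Fin 2) k) (ht : t 1 0 = 0) (x : k) :
    upperRightHom x * t = t * upperRightHom (t 1 1 / t 0 0 * x) := by
  obtain ⟨h0, -⟩ := upper_diag_ne_zero t ht
  have ht' : t.1 1 0 = 0 := ht
  apply Units.ext
  rw [Units.val_mul, Units.val_mul]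
  ext i j
  fin_cases i <;> fin_cases j <;>
    simp [Matrix.mul_apply, Fin.sum_univ_two, upperRightHom_apply, ht'] <;>
    (try field_simp) <;> (try ring)


/-! ### Finite subfields -/

theorem card_cast_eq_zero (F : Subfield k) [Finite F] : ((Nat.card F : ℕ) : k) = 0 := by
  have h : Nat.card F • (1 : F) = 0 := card_nsmul_eq_zero'
  have h' := congrArg (fun z : F => (z : k)) h
  simpa using h'

theorem pow_card_sub_one (F : Subfield k) [Finite F] {a : k} (ha : a ∈ F) (ha0 : a ≠ 0) :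
    a ^ (Nat.card F - 1) = 1 := by
  have : Fintype F := Fintype.ofFinite F
  have h := FiniteField.pow_card_sub_one_eq_one (⟨a, ha⟩ : F)
    (fun h => ha0 (congrArg Subtype.val h))
  rw [← Nat.card_eq_fintype_card] at h
  have h' := congrArg (fun z : F => (z : k)) h
  simpa using h'

theorem exists_pow_four_ne_one (F : Subfield k) [Finite F] (h6 : 5 < Nat.card F) :
    ∃ a ∈ F, a ≠ 0 ∧ a ^ 4 ≠ 1 := by
  by_contra hcon
  push Not at hcon
  obtain ⟨g, hg⟩ := IsCyclic.exists_generator (α := (↥F)ˣ)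
  have h1 : orderOf g = Nat.card (↥F)ˣ := orderOf_eq_card_of_forall_mem_zpowers hg
  rw [Nat.card_units] at h1
  have h4 : g ^ 4 = 1 := by
    apply Units.ext
    apply Subtype.ext
    have := hcon ((g : F) : k) (g : F).2 (fun h => g.ne_zero (Subtype.ext h))
    simpa using this
  have h5 := orderOf_le_of_pow_eq_one (by norm_num) h4
  omega

/-! ### Step (4): a cocycle of the shape `u x ↦ f x • E` is linear -/

theorem linear_of_torus (G0 : Subgroup (GL (Fin 2) k)) (F : Subfield k) [Finite F]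
    (h2 : (2 : k) ≠ 0)
    (hP : ∀ x ∈ F, upperRightHom x ∈ G0)
    (htorus : ∀ a ∈ F, a ≠ 0 → ∃ t ∈ G0, t 1 0 = 0 ∧ t.1.det = 1 ∧ t 0 0 = a ^ 2 * t 1 1)
    (c : GL (Fin 2) k → Matrix (Fin 2) (Fin 2) k)
    (hc : ∀ g ∈ G0, ∀ h ∈ G0, c (g * h) = c g + tw g (c h))
    (f : k → k) (hcf : ∀ x ∈ F, c (upperRightHom x) = !![0, f x; 0, 0]) :
    ∀ x ∈ F, f x = f 1 * x := by
  have h1F : (1 : k) ∈ F := F.one_mem
  -- additivity of `f`
  have hf_add : ∀ x ∈ F, ∀ y ∈ F, f (x + y) = f x + f y := by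
    intro x hx y hy
    have h := hc _ (hP x hx) _ (hP y hy)
    rw [← AddChar.map_add_eq_mul, hcf _ (F.add_mem hx hy), hcf x hx, hcf y hy] at h
    have h01 := congrFun (congrFun h 0) 1
    rw [Matrix.add_apply, tw_u_01] at h01
    simpa using h01
  -- the torus relation
  have hrel : ∀ a ∈ F, a ≠ 0 → ∃ d : k, ∀ x ∈ F, a ^ 2 * f (x / a ^ 2) = f x - d * x := by
    intro a ha ha0
    obtain ⟨t, htG, ht10, htdet, ht00⟩ := htorus a ha ha0
    obtain ⟨h0, h1⟩ := upper_diag_ne_zero t ht10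
    have hdet : t 0 0 * t 1 1 = 1 := by rw [← upper_det t ht10]; exact htdet
    have ha2 : a ^ 2 ≠ 0 := pow_ne_zero 2 ha0
    have hq : t 1 1 / t 0 0 = (a ^ 2)⁻¹ := by
      rw [ht00]; field_simp
    have hsq : t 0 0 ^ 2 = a ^ 2 := by
      have h : t 0 0 ^ 2 = a ^ 2 * (t 0 0 * t 1 1) := by rw [ht00]; ring
      rw [h, hdet, mul_one]
    have key : ∀ x ∈ F, c (upperRightHom x) + tw (upperRightHom x) (c t) =
        c t + tw t (c (upperRightHom (t 1 1 / t 0 0 * x))) := by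
      intro x hx
      have hy : t 1 1 / t 0 0 * x ∈ F := by
        rw [hq]; exact F.mul_mem (F.inv_mem (F.pow_mem ha 2)) hx
      have e1 := hc _ (hP x hx) _ htG
      have e2 := hc _ htG _ (hP _ hy)
      rw [u_mul_upper t ht10 x] at e1
      exact e1.symm.trans e2
    have h10 : (c t) 1 0 = 0 := by
      have e := key 1 h1F
      have hy : t 1 1 / t 0 0 * 1 ∈ F := by
        rw [hq]; exact F.mul_mem (F.inv_mem (F.pow_mem ha 2)) h1F
      rw [hcf 1 h1F, hcf _ hy, tw_upper_E t ht10] at e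
      have e00 := congrFun (congrFun e 0) 0
      rw [Matrix.add_apply, Matrix.add_apply, tw_u_00] at e00
      simpa using e00
    refine ⟨(c t) 0 0 - (c t) 1 1, fun x hx => ?_⟩
    have hy : t 1 1 / t 0 0 * x ∈ F := by
      rw [hq]; exact F.mul_mem (F.inv_mem (F.pow_mem ha 2)) hx
    have e := key x hx
    rw [hcf x hx, hcf _ hy, tw_upper_E t ht10] at e
    have e01 := congrFun (congrFun e 0) 1
    rw [Matrix.add_apply, Matrix.add_apply, tw_u_01, h10, hsq, hq] at e01
    have e01' : f x + ((c t) 0 1 + x * (c t) 1 1 - x * (c t) 0 0 - x ^ 2 * 0) =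
        (c t) 0 1 + a ^ 2 * f ((a ^ 2)⁻¹ * x) := by simpa using e01
    rw [div_eq_inv_mul]
    linear_combination -e01'
  -- `g := f - f 1 • id` is a derivation on squares
  set g : k → k := fun x => f x - f 1 * x with hg
  have hg_add : ∀ x ∈ F, ∀ y ∈ F, g (x + y) = g x + g y := by
    intro x hx y hy
    simp only [hg, hf_add x hx y hy]; ring
  have hg1 : g 1 = 0 := by simp [hg]
  have hg0 : g 0 = 0 := by
    have h := hg_add 0 F.zero_mem 0 F.zero_mem
    rw [add_zero] at h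
    linear_combination -h
  have hder : ∀ a ∈ F, a ≠ 0 → ∀ μ ∈ F, g (a ^ 2 * μ) = a ^ 2 * g μ + μ * g (a ^ 2) := by
    intro a ha ha0 μ hμ
    obtain ⟨d, hd⟩ := hrel a ha ha0
    have ha2 : a ^ 2 ≠ 0 := pow_ne_zero 2 ha0
    have haF : a ^ 2 ∈ F := F.pow_mem ha 2
    have e1 := hd (a ^ 2) haF
    have e2 := hd (a ^ 2 * μ) (F.mul_mem haF hμ)
    rw [div_self ha2] at e1
    rw [mul_div_cancel_left₀ μ ha2] at e2
    simp only [hg]
    linear_combination (-1 : k) * e2 + μ * e1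
  have hpow : ∀ a ∈ F, a ≠ 0 → ∀ n : ℕ,
      a ^ 2 * g ((a ^ 2) ^ n) = n * (a ^ 2) ^ n * g (a ^ 2) := by
    intro a ha ha0 n
    have haF : a ^ 2 ∈ F := F.pow_mem ha 2
    induction n with
    | zero => simp [hg1]
    | succ n ih =>
      have h := hder a ha ha0 ((a ^ 2) ^ n) (F.pow_mem haF n)
      rw [pow_succ' (a ^ 2) n, h]
      push_cast
      linear_combination (a ^ 2) * ih
  have hsq0 : ∀ a ∈ F, g (a ^ 2) = 0 := by
    intro a ha
    by_cases ha0 : a = 0
    · subst ha0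
      simpa using hg0
    · have h := hpow a ha ha0 (Nat.card F - 1)
      have e1 : (a ^ 2) ^ (Nat.card F - 1) = 1 := by
        rw [← pow_mul, mul_comm, pow_mul, pow_card_sub_one F ha ha0, one_pow]
      have hN : ((Nat.card F - 1 : ℕ) : k) = -1 := by
        have hpos : 1 ≤ Nat.card F := Nat.card_pos
        rw [Nat.cast_sub hpos, card_cast_eq_zero F]; simp
      rw [e1, hg1, mul_zero, mul_one, hN] at h
      linear_combination h
  intro x hx
  have h2mem : (2 : k) ∈ F := by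
    rw [← one_add_one_eq_two]; exact F.add_mem h1F h1F
  have h2F : (2 : k)⁻¹ ∈ F := F.inv_mem h2mem
  have hs : (x + 1) * 2⁻¹ ∈ F := F.mul_mem (F.add_mem hx h1F) h2F
  have hr : (x - 1) * 2⁻¹ ∈ F := F.mul_mem (F.sub_mem hx h1F) h2F
  have hx' : x + ((x - 1) * 2⁻¹) ^ 2 = ((x + 1) * 2⁻¹) ^ 2 := by
    field_simp; ring
  have h := hg_add x hx _ (F.pow_mem hr 2)
  rw [hx', hsq0 _ hs, hsq0 _ hr, add_zero] at h
  have hgx : f x - f 1 * x = 0 := h.symm
  linear_combination hgx


/-! ### The exit of row G.3 -/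

theorem two_ne_zero_of_char (p : ℕ) [Fact p.Prime] [CharP k p] (hp2 : p ≠ 2) : (2 : k) ≠ 0 := by
  intro h
  have h' : ((2 : ℕ) : k) = 0 := by exact_mod_cast h
  rw [CharP.cast_eq_zero_iff k p] at h'
  exact hp2 ((Nat.prime_dvd_prime_iff_eq (Fact.out : p.Prime) Nat.prime_two).1 h')

/-- **Row G.3.**  A trace-zero cocycle of `G0` for the twisted conjugation action restricts to a
coboundary on `P = {u x : x ∈ F}`, `F` a finite subfield with at least `5` elements, provided
`G0` contains the torus elements `t` (upper triangular, determinant `1`, `t₁/t₂ = a²` for every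
`a ∈ Fˣ`) and, if `|F| = 5`, an upper triangular element normalising `P` with `det ^ 2 ≠ 1`. -/
theorem exists_coboundary_on_P (p : ℕ) [Fact p.Prime] [CharP k p] (hp2 : p ≠ 2)
    (G0 : Subgroup (GL (Fin 2) k)) (F : Subfield k) [Finite F] (hF5 : 5 ≤ Nat.card F)
    (hP : ∀ x ∈ F, upperRightHom x ∈ G0)
    (htorus : ∀ a ∈ F, a ≠ 0 → ∃ t ∈ G0, t 1 0 = 0 ∧ t.1.det = 1 ∧ t 0 0 = a ^ 2 * t 1 1)
    (h5 : Nat.card F = 5 → ∃ t ∈ G0, t 1 0 = 0 ∧ t 0 0 / t 1 1 ∈ F ∧ t.1.det ^ 2 ≠ 1)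
    (c : GL (Fin 2) k → Matrix (Fin 2) (Fin 2) k)
    (hc : ∀ g ∈ G0, ∀ h ∈ G0, c (g * h) = c g + tw g (c h))
    (htr : ∀ g ∈ G0, (c g).trace = 0) :
    ∃ Y : Matrix (Fin 2) (Fin 2) k, Y.trace = 0 ∧
      ∀ x ∈ F, c (upperRightHom x) = tw (upperRightHom x) Y - Y := by
  have h2 : (2 : k) ≠ 0 := two_ne_zero_of_char p hp2
  have h1F : (1 : k) ∈ F := F.one_mem
  -- the entries of `c (u x)`
  have hD : ∀ x ∈ F, c (upperRightHom x) 1 1 = - c (upperRightHom x) 0 0 := by
    intro x hx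
    have h := htr _ (hP x hx)
    rw [Matrix.trace_fin_two] at h
    linear_combination h
  have hcu : ∀ x ∈ F, ∀ y ∈ F, c (upperRightHom (x + y)) =
      c (upperRightHom x) + tw (upperRightHom x) (c (upperRightHom y)) := by
    intro x hx y hy
    rw [AddChar.map_add_eq_mul]; exact hc _ (hP x hx) _ (hP y hy)
  have hC_add : ∀ x ∈ F, ∀ y ∈ F, c (upperRightHom (x + y)) 1 0 =
      c (upperRightHom x) 1 0 + c (upperRightHom y) 1 0 := by
    intro x hx y hy
    have h := congrFun (congrFun (hcu x hx y hy) 1) 0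
    rw [Matrix.add_apply, tw_u_10] at h
    exact h
  have hB_add : ∀ x ∈ F, ∀ y ∈ F, c (upperRightHom (x + y)) 0 0 =
      c (upperRightHom x) 0 0 + c (upperRightHom y) 0 0 + x * c (upperRightHom y) 1 0 := by
    intro x hx y hy
    have h := congrFun (congrFun (hcu x hx y hy) 0) 0
    rw [Matrix.add_apply, tw_u_00] at h
    rw [h]; ring
  have hA_add : ∀ x ∈ F, ∀ y ∈ F, c (upperRightHom (x + y)) 0 1 =
      c (upperRightHom x) 0 1 + c (upperRightHom y) 0 1 - 2 * x * c (upperRightHom y) 0 0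
        - x ^ 2 * c (upperRightHom y) 1 0 := by
    intro x hx y hy
    have h := congrFun (congrFun (hcu x hx y hy) 0) 1
    rw [Matrix.add_apply, tw_u_01, hD y hy] at h
    rw [h]; ring
  -- (1) `C` is linear
  obtain ⟨α, hα⟩ : ∃ α : k, α = c (upperRightHom 1) 1 0 := ⟨_, rfl⟩
  have hC_lin : ∀ x ∈ F, c (upperRightHom x) 1 0 = x * α := by
    intro x hx
    have e1 := hB_add x hx 1 h1F
    have e2 := hB_add 1 h1F x hx
    rw [add_comm 1 x, e1] at e2
    rw [hα]
    linear_combination (-1 : k) * e2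
  -- (2) `α = 0`
  have key10 : ∀ t ∈ G0, t 1 0 = 0 → ∀ x ∈ F, t 1 1 / t 0 0 * x ∈ F →
      c (upperRightHom x) 1 0 = t 1 1 ^ 2 * c (upperRightHom (t 1 1 / t 0 0 * x)) 1 0 := by
    intro t htG ht10 x hx hy
    have e1 := hc _ (hP x hx) _ htG
    have e2 := hc _ htG _ (hP _ hy)
    rw [u_mul_upper t ht10 x] at e1
    have e := e1.symm.trans e2
    have e10 := congrFun (congrFun e 1) 0
    rw [Matrix.add_apply, Matrix.add_apply, tw_u_10, tw_upper_10 t ht10] at e10
    linear_combination e10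
  have hα0 : α = 0 := by
    by_contra hne
    have hrel : ∀ t ∈ G0, t 1 0 = 0 → t 1 1 / t 0 0 ∈ F → t 1 1 ^ 3 = t 0 0 := by
      intro t htG ht10 hq
      obtain ⟨h0, h1⟩ := upper_diag_ne_zero t ht10
      have hy : t 1 1 / t 0 0 * 1 ∈ F := by rw [mul_one]; exact hq
      have e := key10 t htG ht10 1 h1F hy
      rw [hC_lin 1 h1F, hC_lin _ hy] at e
      have hq' : t 1 1 / t 0 0 * t 0 0 = t 1 1 := div_mul_cancel₀ _ h0
      have e' : α * (t 0 0 - t 1 1 ^ 3) = 0 := by
        linear_combination (t 0 0) * e + (t 1 1 ^ 2 * α) * hq'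
      have h := (mul_eq_zero.1 e').resolve_left hne
      linear_combination (-1 : k) * h
    rcases Nat.lt_or_ge 5 (Nat.card F) with h6 | h5'
    · obtain ⟨a, haF, ha0, ha4⟩ := exists_pow_four_ne_one F h6
      obtain ⟨t, htG, ht10, htdet, ht00⟩ := htorus a haF ha0
      obtain ⟨h0, h1⟩ := upper_diag_ne_zero t ht10
      have hdet : t 0 0 * t 1 1 = 1 := by rw [← upper_det t ht10]; exact htdet
      have ha2 : a ^ 2 ≠ 0 := pow_ne_zero 2 ha0
      have hq : t 1 1 / t 0 0 = (a ^ 2)⁻¹ := by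
        rw [ht00]; field_simp
      have h3 := hrel t htG ht10 (by rw [hq]; exact F.inv_mem (F.pow_mem haF 2))
      apply ha4
      have e1 : t 1 1 ^ 2 = a ^ 2 := by
        have h : t 1 1 * (t 1 1 ^ 2 - a ^ 2) = 0 := by
          rw [ht00] at h3; linear_combination h3
        have h' := (mul_eq_zero.1 h).resolve_left h1
        linear_combination h'
      have e2 : a ^ 2 * t 1 1 ^ 2 = 1 := by
        rw [ht00] at hdet; linear_combination hdet
      rw [e1] at e2
      linear_combination e2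
    · have hc5 : Nat.card F = 5 := le_antisymm h5' hF5
      obtain ⟨t, htG, ht10, hrF, hdet2⟩ := h5 hc5
      obtain ⟨h0, h1⟩ := upper_diag_ne_zero t ht10
      have hr0 : t 0 0 / t 1 1 ≠ 0 := div_ne_zero h0 h1
      have hq : t 1 1 / t 0 0 ∈ F := by
        have h := F.inv_mem hrF
        rwa [inv_div] at h
      have h3 := hrel t htG ht10 hq
      apply hdet2
      rw [upper_det t ht10]
      have h4 := pow_card_sub_one F hrF hr0
      rw [hc5] at h4
      have hr : t 0 0 / t 1 1 = t 1 1 ^ 2 := by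
        rw [← h3]; field_simp
      rw [hr] at h4
      have h4' : (t 1 1 ^ 2) ^ 4 = 1 := h4
      rw [← h3]
      linear_combination h4'
  have hC0 : ∀ x ∈ F, c (upperRightHom x) 1 0 = 0 := by
    intro x hx; rw [hC_lin x hx, hα0, mul_zero]
  -- (3) `B` is linear
  obtain ⟨β, hβ⟩ : ∃ β : k, β = c (upperRightHom 1) 0 0 := ⟨_, rfl⟩
  have hB_lin : ∀ x ∈ F, c (upperRightHom x) 0 0 = β * x := by
    intro x hx
    have e1 := hA_add x hx 1 h1F
    have e2 := hA_add 1 h1F x hx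
    rw [add_comm 1 x, e1, hC0 1 h1F, hC0 x hx] at e2
    have e3 : (2 : k) * (c (upperRightHom x) 0 0 - β * x) = 0 := by
      rw [hβ]; linear_combination e2
    have h := (mul_eq_zero.1 e3).resolve_left h2
    linear_combination h
  -- subtract the coboundary of `β • F`
  set Y1 : Matrix (Fin 2) (Fin 2) k := !![0, 0; β, 0] with hY1
  set c' : GL (Fin 2) k → Matrix (Fin 2) (Fin 2) k := fun g => c g - (tw g Y1 - Y1) with hc'
  have hc'_coc : ∀ g ∈ G0, ∀ h ∈ G0, c' (g * h) = c' g + tw g (c' h) := by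
    intro g hg h hh
    simp only [hc', hc g hg h hh, tw_mul, tw_sub]
    abel
  set f : k → k := fun x => c (upperRightHom x) 0 1 + β * x ^ 2 with hf
  have hc'u : ∀ x ∈ F, c' (upperRightHom x) = !![0, f x; 0, 0] := by
    intro x hx
    ext i j
    fin_cases i <;> fin_cases j
    · simp [-upperRightHom_apply, hc', hY1, hf, tw_u_00, hB_lin x hx]; ring
    · simp [-upperRightHom_apply, hc', hY1, hf, tw_u_01]; ring
    · simp [-upperRightHom_apply, hc', hY1, hf, tw_u_10, hC0 x hx]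
    · simp [-upperRightHom_apply, hc', hY1, hf, tw_u_11, hD x hx, hB_lin x hx]; ring
  have hlin := linear_of_torus G0 F h2 hP htorus c' hc'_coc f hc'u
  -- the coboundary
  refine ⟨!![-(f 1 / 2), 0; β, f 1 / 2], ?_, fun x hx => ?_⟩
  · rw [Matrix.trace_fin_two]; simp
  · have hfx := hlin x hx
    have hAx : c (upperRightHom x) 0 1 = f 1 * x - β * x ^ 2 := by
      have : f x = c (upperRightHom x) 0 1 + β * x ^ 2 := rfl
      rw [this] at hfx; linear_combination hfx
    ext i j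
    fin_cases i <;> fin_cases j
    · simp [-upperRightHom_apply, tw_u_00, hB_lin x hx]; ring
    · simp [-upperRightHom_apply, tw_u_01, hAx]; field_simp; ring
    · simp [-upperRightHom_apply, tw_u_10, hC0 x hx]
    · simp [-upperRightHom_apply, tw_u_11, hD x hx, hB_lin x hx]; ring


/-- The same statement with the twisted action written out (no `tw`), for consumers that carry
their own name for it. -/
theorem exists_coboundary_on_P' (p : ℕ) [Fact p.Prime] [CharP k p] (hp2 : p ≠ 2)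
    (G0 : Subgroup (GL (Fin 2) k)) (F : Subfield k) [Finite F] (hF5 : 5 ≤ Nat.card F)
    (hP : ∀ x ∈ F, upperRightHom x ∈ G0)
    (htorus : ∀ a ∈ F, a ≠ 0 → ∃ t ∈ G0, t 1 0 = 0 ∧ t.1.det = 1 ∧ t 0 0 = a ^ 2 * t 1 1)
    (h5 : Nat.card F = 5 → ∃ t ∈ G0, t 1 0 = 0 ∧ t 0 0 / t 1 1 ∈ F ∧ t.1.det ^ 2 ≠ 1)
    (c : GL (Fin 2) k → Matrix (Fin 2) (Fin 2) k)
    (hc : ∀ g ∈ G0, ∀ h ∈ G0, c (g * h) =
      c g + ((Matrix.GeneralLinearGroup.det g : kˣ) : k) • (g.1 * c h * (g⁻¹ : GL (Fin 2) k).1))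
    (htr : ∀ g ∈ G0, (c g).trace = 0) :
    ∃ Y : Matrix (Fin 2) (Fin 2) k, Y.trace = 0 ∧
      ∀ x ∈ F, c (upperRightHom x) =
        ((Matrix.GeneralLinearGroup.det (upperRightHom x : GL (Fin 2) k) : kˣ) : k) •
          ((upperRightHom x : GL (Fin 2) k).1 * Y * ((upperRightHom x)⁻¹ : GL (Fin 2) k).1) - Y :=
  exists_coboundary_on_P p hp2 G0 F hF5 hP htorus h5 c hc htr

end Fermat.Agent.S56.G.CocycleP
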