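import Mathlib
import Fermat.Agent.S56.G.Bricks
import Fermat.Agent.S56.G.CocycleP

/-!
# S56, brick G, row G.3: proof of `Fermat.Agent.S56.G.CocycleStatement`

The statement is in `S56/G/Bricks.lean`; the mathematics is in `S56/G/CocycleP.lean`
(`exists_coboundary_on_P`, stated for a `Subfield`).  Here the parameter set
`X = {x | up x ∈ G}` of the unipotent elements of `G` at `∞` is turned into a finite subfield
(closed under products by hypothesis, under inverses because it is finite), and the normalising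
property of the upper triangular element used for `|X| = 5` is derived from `g ∈ G`.
-/

set_option autoImplicit false

open Matrix Matrix.GeneralLinearGroup

namespace Fermat.Agent.S56.G.CocycleProof

open Fermat.Agent.S56.G

universe u

variable {k : Type u} [Field k]

/-- The two spellings of the twisted action agree. -/
theorem tw_eq (g : GL (Fin 2) k) (X : Matrix (Fin 2) (Fin 2) k) :
    Fermat.Agent.S56.G.tw g X = CocycleP.tw g X := rfl

/-- The parameters of the unipotent elements of `G` at `∞`, as a subfield. -/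
def paramField (G : Subgroup (GL (Fin 2) k)) [Finite G] (h1 : up (1 : k) ∈ G)
    (hmul : ∀ x y : k, up x ∈ G → up y ∈ G → up (x * y) ∈ G) : Subfield k where
  carrier := {x | up x ∈ G}
  mul_mem' := fun {x y} hx hy => hmul x y hx hy
  one_mem' := h1
  add_mem' := fun {x y} hx hy => by
    show up (x + y) ∈ G
    rw [up, AddChar.map_add_eq_mul]; exact G.mul_mem hx hy
  zero_mem' := by
    show up (0 : k) ∈ G
    rw [up, AddChar.map_zero_eq_one]; exact G.one_mem
  neg_mem' := fun {x} hx => by
    show up (-x) ∈ G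
    rw [up, AddChar.map_neg_eq_inv]; exact G.inv_mem hx
  inv_mem' := fun x hx => by
    show up x⁻¹ ∈ G
    by_cases hx0 : x = 0
    · rw [hx0, _root_.inv_zero, up, AddChar.map_zero_eq_one]; exact G.one_mem
    · have hfin : Finite {y : k // up y ∈ G} :=
        Finite.of_injective (fun y : {y : k // up y ∈ G} => (⟨up y.1, y.2⟩ : G))
          (fun a b hab => Subtype.ext (injective_upperRightHom (congrArg Subtype.val hab)))
      let φ : {y : k // up y ∈ G} → {y : k // up y ∈ G} := fun y => ⟨x * y.1, hmul x y.1 hx y.2⟩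
      have hinj : Function.Injective φ := fun a b hab =>
        Subtype.ext (mul_left_cancel₀ hx0 (congrArg Subtype.val hab))
      obtain ⟨y, hy⟩ := (Finite.injective_iff_surjective.1 hinj) ⟨1, h1⟩
      have hxy : x * y.1 = 1 := congrArg Subtype.val hy
      have : x⁻¹ = y.1 := by
        rw [← mul_one x⁻¹, ← hxy, ← mul_assoc, inv_mul_cancel₀ hx0, one_mul]
      rw [this]; exact y.2

theorem mem_paramField (G : Subgroup (GL (Fin 2) k)) [Finite G] (h1 : up (1 : k) ∈ G)
    (hmul : ∀ x y : k, up x ∈ G → up y ∈ G → up (x * y) ∈ G) (x : k) :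
    x ∈ paramField G h1 hmul ↔ up x ∈ G := Iff.rfl

instance finite_paramField (G : Subgroup (GL (Fin 2) k)) [Finite G] (h1 : up (1 : k) ∈ G)
    (hmul : ∀ x y : k, up x ∈ G → up y ∈ G → up (x * y) ∈ G) :
    Finite (paramField G h1 hmul) :=
  Finite.of_injective (fun y : paramField G h1 hmul => (⟨up y.1, y.2⟩ : G))
    (fun _ _ hab => Subtype.ext (injective_upperRightHom (congrArg Subtype.val hab)))

theorem card_paramField (G : Subgroup (GL (Fin 2) k)) [Finite G] (h1 : up (1 : k) ∈ G)
    (hmul : ∀ x y : k, up x ∈ G → up y ∈ G → up (x * y) ∈ G) :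
    Nat.card (paramField G h1 hmul) = Nat.card {x : k // up x ∈ G} := rfl

/-- **Row G.3**: `CocycleStatement`. -/
theorem cocycleStatement : CocycleStatement.{u} := by
  intro k _ p _ _ hp2 G _ h1 hmul htorus h5le h5 c hc
  obtain ⟨hc1, hc2⟩ := hc
  set F := paramField G h1 hmul with hF
  have hcard : Nat.card F = Nat.card {x : k // up x ∈ G} := card_paramField G h1 hmul
  have h5' : Nat.card F = 5 → ∃ t ∈ G, t 1 0 = 0 ∧ t 0 0 / t 1 1 ∈ F ∧ t.1.det ^ 2 ≠ 1 := by
    intro h
    obtain ⟨t, htG, ht10, hdet⟩ := h5 (hcard ▸ h)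
    refine ⟨t, htG, ht10, ?_, hdet⟩
    obtain ⟨h0, h1'⟩ := CocycleP.upper_diag_ne_zero t ht10
    have hcomm := CocycleP.u_mul_upper t ht10 1
    have hmem : up (t 1 1 / t 0 0 * 1) ∈ G := by
      have e : up (t 1 1 / t 0 0 * 1) = t⁻¹ * (up 1 * t) := by
        show upperRightHom (t 1 1 / t 0 0 * 1) = t⁻¹ * (upperRightHom 1 * t)
        rw [hcomm, inv_mul_cancel_left]
      rw [e]; exact G.mul_mem (G.inv_mem htG) (G.mul_mem h1 htG)
    rw [mul_one] at hmem
    have hinv : (t 1 1 / t 0 0)⁻¹ ∈ F := F.inv_mem hmem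
    rwa [inv_div] at hinv
  obtain ⟨Y, hY, hYc⟩ := CocycleP.exists_coboundary_on_P p hp2 G F (hcard ▸ h5le)
    (fun x hx => hx) (fun a ha ha0 => htorus a ha ha0) h5' c
    (fun g hg h hh => hc1 g hg h hh) hc2
  exact ⟨Y, hY, fun x hx => hYc x hx⟩

end Fermat.Agent.S56.G.CocycleProof
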