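import Mathlib
import Fermat.Agent.S56.G.Bricks

/-!
# S56, brick G, row G.2: the Sylow group at `∞` is `U(F)` for a field `F`, with a big torus

Proof of `Fermat.Agent.S56.G.FieldStatement` (statement in `S56/G/Bricks.lean`).

`X = {x | up x ∈ G}` is a finite additive subgroup of `k` with `1 ∈ X`;
`μ = {a | ∃ g ∈ G, g 1 0 = 0 ∧ g 0 0 = a * g 1 1}` is closed under products and inverses,
`0 ∉ μ`, and `μ · X ⊆ X` (conjugation of `up x` by an upper triangular element).  The stabiliser
`R = {c | c · X ⊆ X}` is an additive subgroup of `X` containing `μ ∪ {0}`; by the bound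
`|X| ≤ 2 |μ| + 1` it has more than `|X| / 2` elements, so `R = X` (Lagrange) and `X` is closed
under multiplication.  For `x ∈ X`, `x ≠ 0`, `x ∉ μ` the sets `μ` and `x · μ` are disjoint in
`X ∖ {0}` and fill it, so `x² ∈ μ`.
-/

open Matrix

namespace Fermat.Agent.S56.G.FieldProof

open Fermat.Agent.S56.G

universe u

variable {k : Type u} [Field k]

/-! ### Entries of products and inverses in `GL₂` -/

theorem mul_entry (g h : GL (Fin 2) k) (i j : Fin 2) :
    (g * h) i j = g i 0 * h 0 j + g i 1 * h 1 j := by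
  change (g.val * h.val) i j = _
  rw [Matrix.mul_apply, Fin.sum_univ_two]

theorem up_entry (x : k) :
    up x 0 0 = 1 ∧ up x 0 1 = x ∧ up x 1 0 = 0 ∧ up x 1 1 = 1 := by
  refine ⟨?_, ?_, ?_, ?_⟩ <;> simp [up]

theorem upper_inv {g : GL (Fin 2) k} (h10 : g 1 0 = 0) :
    (g⁻¹ : GL (Fin 2) k) 1 0 = 0 ∧ g 0 0 * (g⁻¹ : GL (Fin 2) k) 0 0 = 1 ∧
      g 1 1 * (g⁻¹ : GL (Fin 2) k) 1 1 = 1 := by
  have e : g * g⁻¹ = 1 := mul_inv_cancel g
  have e11 : (g * g⁻¹) 1 1 = 1 := by rw [e]; rfl
  have e10 : (g * g⁻¹) 1 0 = 0 := by rw [e]; rfl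
  have e00 : (g * g⁻¹) 0 0 = 1 := by rw [e]; rfl
  rw [mul_entry, h10, zero_mul, zero_add] at e11 e10
  have hg11 : g 1 1 ≠ 0 := left_ne_zero_of_mul_eq_one e11
  have hinv10 : (g⁻¹ : GL (Fin 2) k) 1 0 = 0 := by
    rcases mul_eq_zero.mp e10 with h | h
    · exact absurd h hg11
    · exact h
  rw [mul_entry, hinv10, mul_zero, add_zero] at e00
  exact ⟨hinv10, e00, e11⟩

theorem upper_ne_zero {g : GL (Fin 2) k} (h10 : g 1 0 = 0) : g 0 0 ≠ 0 ∧ g 1 1 ≠ 0 :=
  ⟨left_ne_zero_of_mul_eq_one (upper_inv h10).2.1, left_ne_zero_of_mul_eq_one (upper_inv h10).2.2⟩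

/-- Conjugation of `up x` by an upper triangular element with diagonal ratio `a`. -/
theorem upper_mul_up {g : GL (Fin 2) k} {a : k} (h10 : g 1 0 = 0) (h00 : g 0 0 = a * g 1 1)
    (x : k) : g * up x = up (a * x) * g := by
  apply Units.ext
  ext i j
  obtain ⟨u00, u01, u10, u11⟩ := up_entry x
  obtain ⟨v00, v01, v10, v11⟩ := up_entry (a * x)
  rw [mul_entry, mul_entry]
  fin_cases i <;> fin_cases j
  · change g 0 0 * up x 0 0 + g 0 1 * up x 1 0 = up (a * x) 0 0 * g 0 0 + up (a * x) 0 1 * g 1 0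
    rw [u00, u10, v00, v01, h10]; ring
  · change g 0 0 * up x 0 1 + g 0 1 * up x 1 1 = up (a * x) 0 0 * g 0 1 + up (a * x) 0 1 * g 1 1
    rw [u01, u11, v00, v01, h00]; ring
  · change g 1 0 * up x 0 0 + g 1 1 * up x 1 0 = up (a * x) 1 0 * g 0 0 + up (a * x) 1 1 * g 1 0
    rw [u00, u10, v10, v11, h10]; ring
  · change g 1 0 * up x 0 1 + g 1 1 * up x 1 1 = up (a * x) 1 0 * g 0 1 + up (a * x) 1 1 * g 1 1
    rw [u01, u11, v10, v11, h10]; ring

/-! ### The sets `X` and `μ` -/

variable (G : Subgroup (GL (Fin 2) k))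

/-- The parameters of the unipotents of `G` fixing `∞`, as an additive subgroup of `k`. -/
def paramX : AddSubgroup k where
  carrier := {x | up x ∈ G}
  zero_mem' := by
    change up (0 : k) ∈ G
    rw [show up (0 : k) = 1 from AddChar.map_zero_eq_one _]
    exact G.one_mem
  add_mem' := by
    intro a b ha hb
    change up (a + b) ∈ G
    rw [show up (a + b) = up a * up b from AddChar.map_add_eq_mul _ a b]
    exact G.mul_mem ha hb
  neg_mem' := by
    intro a ha
    change up (-a) ∈ G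
    rw [show up (-a) = (up a)⁻¹ from AddChar.map_neg_eq_inv _ a]
    exact G.inv_mem ha

theorem mem_paramX {x : k} : x ∈ paramX G ↔ up x ∈ G := Iff.rfl

/-- The diagonal ratios of the upper triangular elements of `G`. -/
def ratio : Set k := {a | ∃ g ∈ G, g 1 0 = 0 ∧ g 0 0 = a * g 1 1}

theorem ratio_ne_zero {a : k} (ha : a ∈ ratio G) : a ≠ 0 := by
  obtain ⟨g, -, h10, h00⟩ := ha
  intro h0
  rw [h0, zero_mul] at h00
  exact (upper_ne_zero h10).1 h00

theorem ratio_mul {a b : k} (ha : a ∈ ratio G) (hb : b ∈ ratio G) : a * b ∈ ratio G := by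
  obtain ⟨g, hg, g10, g00⟩ := ha
  obtain ⟨h, hh, h10, h00⟩ := hb
  refine ⟨g * h, G.mul_mem hg hh, ?_, ?_⟩
  · rw [mul_entry, g10, h10]; ring
  · rw [mul_entry, mul_entry, g10, h10, g00, h00]; ring

theorem ratio_inv {a : k} (ha : a ∈ ratio G) : a⁻¹ ∈ ratio G := by
  have ha0 : a ≠ 0 := ratio_ne_zero G ha
  obtain ⟨g, hg, g10, g00⟩ := ha
  obtain ⟨i10, i00, i11⟩ := upper_inv g10
  refine ⟨g⁻¹, G.inv_mem hg, i10, ?_⟩
  have h1 : a * (g⁻¹ : GL (Fin 2) k) 0 0 = (g⁻¹ : GL (Fin 2) k) 1 1 := by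
    have h2 : a * (g⁻¹ : GL (Fin 2) k) 0 0 * (g 1 1 * (g⁻¹ : GL (Fin 2) k) 1 1)
        = (g 0 0 * (g⁻¹ : GL (Fin 2) k) 0 0) * (g⁻¹ : GL (Fin 2) k) 1 1 := by
      rw [g00]; ring
    rw [i00, i11, mul_one, one_mul] at h2
    exact h2
  rw [← h1, ← mul_assoc, inv_mul_cancel₀ ha0, one_mul]

theorem ratio_smul {a x : k} (ha : a ∈ ratio G) (hx : x ∈ paramX G) : a * x ∈ paramX G := by
  obtain ⟨g, hg, g10, g00⟩ := ha
  have h := upper_mul_up g10 g00 x
  have h2 : up (a * x) = g * up x * g⁻¹ := by rw [h, mul_inv_cancel_right]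
  change up (a * x) ∈ G
  rw [h2]
  exact G.mul_mem (G.mul_mem hg hx) (G.inv_mem hg)

/-- The stabiliser of `X` under multiplication, as an additive subgroup of `k`. -/
def stab : AddSubgroup k where
  carrier := {c | ∀ x ∈ paramX G, c * x ∈ paramX G}
  zero_mem' := by
    intro _ _
    rw [zero_mul]
    exact (paramX G).zero_mem
  add_mem' := by
    intro a b ha hb x hx
    rw [add_mul]
    exact (paramX G).add_mem (ha x hx) (hb x hx)
  neg_mem' := by
    intro a ha x hx
    rw [neg_mul]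
    exact (paramX G).neg_mem (ha x hx)

theorem stab_le (h1 : up (1 : k) ∈ G) : stab G ≤ paramX G := by
  intro c hc
  have := hc 1 h1
  rwa [mul_one] at this

theorem ratio_subset_stab : ratio G ⊆ (stab G : Set k) :=
  fun _ ha _ hx => ratio_smul G ha hx

theorem card_paramX : Nat.card {x : k // up x ∈ G} = Nat.card (paramX G) := rfl

theorem card_ratio :
    Nat.card {a : k // ∃ g ∈ G, g 1 0 = 0 ∧ g 0 0 = a * g 1 1} = (ratio G).ncard := rfl

instance finite_paramX [Finite G] : Finite (paramX G) := by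
  have hinj : Function.Injective (fun x : paramX G => (⟨up x.1, x.2⟩ : G)) := by
    intro x y hxy
    have h1 : up x.1 = up y.1 := congrArg Subtype.val hxy
    exact Subtype.ext (Matrix.GeneralLinearGroup.injective_upperRightHom h1)
  exact Finite.of_injective _ hinj

/-- **The stabiliser ring is all of `X`.** -/
theorem stab_eq [Finite G] (h1 : up (1 : k) ∈ G)
    (hcard : Nat.card {x : k // up x ∈ G} ≤
      2 * Nat.card {a : k // ∃ g ∈ G, g 1 0 = 0 ∧ g 0 0 = a * g 1 1} + 1) :
    stab G = paramX G := by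
  have hle := stab_le G h1
  have hXfin : (paramX G : Set k).Finite := Set.finite_coe_iff.mp (finite_paramX G)
  have hRfin : (stab G : Set k).Finite := hXfin.subset hle
  -- `μ ∪ {0} ⊆ R`
  have h0 : (0 : k) ∉ ratio G := fun h => ratio_ne_zero G h rfl
  have hins : insert (0 : k) (ratio G) ⊆ (stab G : Set k) :=
    Set.insert_subset (stab G).zero_mem (ratio_subset_stab G)
  have hμfin : (ratio G).Finite := hRfin.subset (ratio_subset_stab G)
  have hc1 : (ratio G).ncard + 1 ≤ (stab G : Set k).ncard := by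
    rw [← Set.ncard_insert_of_notMem h0 hμfin]
    exact Set.ncard_le_ncard hins hRfin
  have hcR : (stab G : Set k).ncard = Nat.card (stab G) := rfl
  have hcX : (paramX G : Set k).ncard = Nat.card (paramX G) := rfl
  rw [card_paramX, card_ratio] at hcard
  -- Lagrange
  have hdvd : Nat.card (stab G) ∣ Nat.card (paramX G) := AddSubgroup.card_dvd_of_le hle
  have hpos : Nat.card (paramX G) ≠ 0 := Nat.card_pos.ne'
  have heq : Nat.card (paramX G) = Nat.card (stab G) :=
    Nat.eq_of_dvd_of_lt_two_mul hpos hdvd (by omega)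
  have hset : (stab G : Set k) = (paramX G : Set k) :=
    Set.eq_of_subset_of_ncard_le hle (by rw [hcR, hcX, heq]) hXfin
  exact SetLike.coe_injective hset

/-- **(G.2)** -/
theorem fieldStatement : FieldStatement.{u} := by
  intro k _ p _ _ _ G _ h1 hcard
  have hstab := stab_eq G h1 hcard
  have hmul : ∀ x y : k, up x ∈ G → up y ∈ G → up (x * y) ∈ G := by
    intro x y hx hy
    have hx' : x ∈ stab G := by rw [hstab]; exact hx
    exact hx' y hy
  refine ⟨hmul, ?_⟩
  intro x hx hx0
  change x ^ 2 ∈ ratio G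
  by_cases hxμ : x ∈ ratio G
  · rw [pow_two]; exact ratio_mul G hxμ hxμ
  -- `μ` and `x μ` are disjoint in `X ∖ {0}` and fill it
  have hXfin : (paramX G : Set k).Finite := Set.finite_coe_iff.mp (finite_paramX G)
  have hμsub : ratio G ⊆ (paramX G : Set k) \ {0} := by
    intro a ha
    refine ⟨?_, fun h => ratio_ne_zero G ha h⟩
    have := ratio_smul G ha h1
    rwa [mul_one] at this
  have himsub : (fun a => x * a) '' ratio G ⊆ (paramX G : Set k) \ {0} := by
    rintro _ ⟨a, ha, rfl⟩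
    refine ⟨?_, fun h => ?_⟩
    · have := ratio_smul G ha hx
      rwa [mul_comm] at this
    · rcases mul_eq_zero.mp h with h | h
      · exact hx0 h
      · exact ratio_ne_zero G ha h
  have hTfin : ((paramX G : Set k) \ {0}).Finite := hXfin.subset Set.sdiff_subset
  have hμfin : (ratio G).Finite := hTfin.subset hμsub
  have hdisj : Disjoint (ratio G) ((fun a => x * a) '' ratio G) := by
    rw [Set.disjoint_left]
    rintro b hb ⟨a, ha, hab⟩
    apply hxμ
    have : x = b * a⁻¹ := by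
      have ha0 := ratio_ne_zero G ha
      field_simp
      exact hab
    rw [this]
    exact ratio_mul G hb (ratio_inv G ha)
  have hinj : Set.InjOn (fun a => x * a) (ratio G) := fun a _ b _ h => mul_left_cancel₀ hx0 h
  have hcardU : (ratio G ∪ (fun a => x * a) '' ratio G).ncard = 2 * (ratio G).ncard := by
    rw [Set.ncard_union_eq hdisj hμfin (hμfin.image _), Set.InjOn.ncard_image hinj]
    ring
  have hcardT : ((paramX G : Set k) \ {0}).ncard + 1 = Nat.card (paramX G) := by
    have h0 : (0 : k) ∈ (paramX G : Set k) := (paramX G).zero_mem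
    have := Set.ncard_sdiff_singleton_add_one h0 hXfin
    exact this
  rw [card_paramX, card_ratio] at hcard
  have hfill : ratio G ∪ (fun a => x * a) '' ratio G = (paramX G : Set k) \ {0} :=
    Set.eq_of_subset_of_ncard_le (Set.union_subset hμsub himsub) (by rw [hcardU]; omega) hTfin
  have hx2 : x ^ 2 ∈ (paramX G : Set k) \ {0} :=
    ⟨by rw [pow_two]; exact hmul x x hx hx, pow_ne_zero 2 hx0⟩
  rw [← hfill] at hx2
  rcases hx2 with h | ⟨a, ha, hxa⟩
  · exact h
  · exfalso
    apply hxμ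
    have : x = a := by
      have hxa' : x * a = x ^ 2 := hxa
      have h3 : x * a = x * x := by rw [hxa', pow_two]
      exact (mul_left_cancel₀ hx0 h3).symm
    rw [this]; exact ha

end Fermat.Agent.S56.G.FieldProof
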