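/-
S56 brick G, row G.2 ("field + torus") of the design `notes/helper254/S56_G_design.md`.
Mathlib only.  (helper63)

`G0` is a finite subgroup of `GL₂(k)`, `u x = !![1, x; 0, 1]` is Mathlib's
`Matrix.GeneralLinearGroup.upperRightHom x`, and

* `X = {x | u x ∈ G0}` (Mathlib's `Subgroup.strictPeriods G0`),
* `μ = ratioSet G0 = {a | ∃ t ∈ G0, det t = 1, t₁₀ = 0, t₀₀ = a * t₁₁}`.

If `1 ∈ X` and `|X| ≤ 2 |μ| + 1` (the exit of the Klein count, row G.1, applied to the
determinant-one part of `G0`), then `X` is (the carrier of) a finite subfield `F` of `k`, and every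
non-zero square of `F` is a ratio: for `a ∈ F`, `a ≠ 0`, there is an upper triangular `t ∈ G0` of
determinant one with `t₀₀ = a² t₁₁`.

Proof: `R = {c | c X ⊆ X}` is an additive subgroup with `μ ∪ {0} ⊆ R ⊆ X`, so
`|X| ≤ 2 |μ| + 1 < 2 |R|` and `|R|` divides `|X|`, whence `X = R` is closed under multiplication;
a finite subring of a field is a subfield; `μ` and `a μ` are disjoint of the same size inside
`X ∖ {0}` when `a ∉ μ`, so they cover it and `a² ∈ μ`.
-/
import Mathlib

namespace Fermat.Agent.S56.G.FieldTorus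

open Matrix Matrix.GeneralLinearGroup

variable {k : Type*} [Field k]

/-! ### Upper triangular elements -/

lemma diag_ne_zero (t : GL (Fin 2) k) (h10 : t 1 0 = 0) : t 0 0 ≠ 0 ∧ t 1 1 ≠ 0 := by
  have hdet : (t : Matrix (Fin 2) (Fin 2) k).det ≠ 0 := by
    have := (Matrix.GeneralLinearGroup.det t).ne_zero
    rwa [Matrix.GeneralLinearGroup.val_det_apply] at this
  rw [Matrix.det_fin_two, h10, mul_zero, sub_zero] at hdet
  exact ⟨left_ne_zero_of_mul hdet, right_ne_zero_of_mul hdet⟩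

lemma conj_upperRightHom (t : GL (Fin 2) k) (a x : k) (h10 : t 1 0 = 0)
    (h00 : t 0 0 = a * t 1 1) :
    t * upperRightHom x * t⁻¹ = upperRightHom (a * x) := by
  rw [mul_inv_eq_iff_eq_mul]
  apply Units.ext
  ext i j
  fin_cases i <;> fin_cases j <;>
    simp [Matrix.mul_apply, Fin.sum_univ_two, h10, h00] <;> ring

lemma mul_entries (s t : GL (Fin 2) k) (hs : s 1 0 = 0) (ht : t 1 0 = 0) :
    (s * t) 1 0 = 0 ∧ (s * t) 0 0 = s 0 0 * t 0 0 ∧ (s * t) 1 1 = s 1 1 * t 1 1 := by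
  simp [Matrix.mul_apply, Fin.sum_univ_two, hs, ht]

lemma inv_entries (t : GL (Fin 2) k) (ht : t 1 0 = 0) :
    (t⁻¹) 1 0 = 0 ∧ (t⁻¹) 0 0 = (t 0 0)⁻¹ ∧ (t⁻¹) 1 1 = (t 1 1)⁻¹ := by
  obtain ⟨h0, h1⟩ := diag_ne_zero t ht
  have h : ((t⁻¹ : GL (Fin 2) k) : Matrix (Fin 2) (Fin 2) k) * (t : Matrix (Fin 2) (Fin 2) k)
      = 1 := by
    rw [← Units.val_mul, inv_mul_cancel, Units.val_one]
  have e10 := congrFun (congrFun h 1) 0
  have e00 := congrFun (congrFun h 0) 0
  have e11 := congrFun (congrFun h 1) 1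
  rw [Matrix.mul_apply, Fin.sum_univ_two, ht, mul_zero, add_zero] at e10 e00
  rw [Matrix.mul_apply, Fin.sum_univ_two] at e11
  rw [Matrix.one_apply_ne (by decide)] at e10
  rw [Matrix.one_apply_eq] at e00 e11
  have s10 : (t⁻¹) 1 0 = 0 := by
    rcases mul_eq_zero.mp e10 with h | h
    · exact h
    · exact absurd h h0
  refine ⟨s10, ?_, ?_⟩
  · exact eq_inv_of_mul_eq_one_left e00
  · rw [s10, zero_mul, zero_add] at e11
    exact eq_inv_of_mul_eq_one_left e11

/-! ### The ratio set `μ` -/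

/-- The set of ratios `t₀₀ / t₁₁` of upper triangular elements of determinant one of `G0`. -/
def ratioSet (G0 : Subgroup (GL (Fin 2) k)) : Set k :=
  {a | ∃ t ∈ G0, t.det = 1 ∧ t 1 0 = 0 ∧ t 0 0 = a * t 1 1}

variable {G0 : Subgroup (GL (Fin 2) k)}

lemma mem_ratioSet {a : k} :
    a ∈ ratioSet G0 ↔ ∃ t ∈ G0, t.det = 1 ∧ t 1 0 = 0 ∧ t 0 0 = a * t 1 1 := Iff.rfl

lemma one_mem_ratioSet : (1 : k) ∈ ratioSet G0 :=
  ⟨1, G0.one_mem, map_one _, by simp, by simp⟩

lemma ne_zero_of_mem_ratioSet {a : k} (ha : a ∈ ratioSet G0) : a ≠ 0 := by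
  obtain ⟨t, -, -, h10, h00⟩ := ha
  rintro rfl
  rw [zero_mul] at h00
  exact (diag_ne_zero t h10).1 h00

lemma mul_mem_ratioSet {a b : k} (ha : a ∈ ratioSet G0) (hb : b ∈ ratioSet G0) :
    a * b ∈ ratioSet G0 := by
  obtain ⟨s, hs, hsd, hs10, hs00⟩ := ha
  obtain ⟨t, ht, htd, ht10, ht00⟩ := hb
  obtain ⟨e10, e00, e11⟩ := mul_entries s t hs10 ht10
  refine ⟨s * t, G0.mul_mem hs ht, by rw [map_mul, hsd, htd, one_mul], e10, ?_⟩
  rw [e00, e11, hs00, ht00]
  ring

lemma inv_mem_ratioSet {a : k} (ha : a ∈ ratioSet G0) : a⁻¹ ∈ ratioSet G0 := by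
  have ha0 := ne_zero_of_mem_ratioSet ha
  obtain ⟨t, ht, htd, ht10, ht00⟩ := ha
  obtain ⟨h0, h1⟩ := diag_ne_zero t ht10
  obtain ⟨e10, e00, e11⟩ := inv_entries t ht10
  refine ⟨t⁻¹, G0.inv_mem ht, by rw [map_inv, htd, inv_one], e10, ?_⟩
  rw [e00, e11, ht00, mul_inv]

lemma upperRightHom_mul_mem {a x : k} (ha : a ∈ ratioSet G0) (hx : upperRightHom x ∈ G0) :
    upperRightHom (a * x) ∈ G0 := by
  obtain ⟨t, ht, -, h10, h00⟩ := ha
  rw [← conj_upperRightHom t a x h10 h00]
  exact G0.mul_mem (G0.mul_mem ht hx) (G0.inv_mem ht)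

/-! ### The multiplier group `R` -/

/-- `R = {c | c X ⊆ X}` for `X = G0.strictPeriods = {x | u x ∈ G0}`. -/
def mult (G0 : Subgroup (GL (Fin 2) k)) : AddSubgroup k where
  carrier := {c | ∀ x ∈ G0.strictPeriods, c * x ∈ G0.strictPeriods}
  add_mem' := by
    intro a b ha hb x hx
    rw [add_mul]
    exact add_mem (ha x hx) (hb x hx)
  zero_mem' := by
    intro x _
    rw [zero_mul]
    exact zero_mem _
  neg_mem' := by
    intro a ha x hx
    rw [neg_mul]
    exact neg_mem (ha x hx)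

lemma mem_mult {c : k} :
    c ∈ mult G0 ↔ ∀ x ∈ G0.strictPeriods, c * x ∈ G0.strictPeriods := Iff.rfl

lemma mult_le (h1 : upperRightHom (1 : k) ∈ G0) : mult G0 ≤ G0.strictPeriods := by
  intro c hc
  have := hc 1 (Subgroup.mem_strictPeriods_iff.mpr h1)
  rwa [mul_one] at this

lemma ratioSet_subset_mult : ratioSet G0 ⊆ (mult G0 : Set k) := by
  intro a ha x hx
  exact Subgroup.mem_strictPeriods_iff.mpr
    (upperRightHom_mul_mem ha (Subgroup.mem_strictPeriods_iff.mp hx))

lemma finite_strictPeriods [Finite G0] : (G0.strictPeriods : Set k).Finite := by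
  have : Finite (G0.strictPeriods) := by
    refine Finite.of_injective
      (fun x : G0.strictPeriods =>
        (⟨upperRightHom (x : k), Subgroup.mem_strictPeriods_iff.mp x.2⟩ : G0)) ?_
    intro x y hxy
    have := congrArg Subtype.val hxy
    exact Subtype.ext (injective_upperRightHom this)
  exact Set.toFinite _

/-- The cardinality hypothesis, in `Set.ncard` form. -/
lemma ncard_le_of_hbound
    (hbound : Nat.card {x : k // upperRightHom x ∈ G0} ≤
      2 * Nat.card {a : k // ∃ t ∈ G0, t.det = 1 ∧ t 1 0 = 0 ∧ t 0 0 = a * t 1 1} + 1) :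
    (G0.strictPeriods : Set k).ncard ≤ 2 * (ratioSet G0).ncard + 1 := by
  have e1 : Nat.card {x : k // upperRightHom x ∈ G0} = (G0.strictPeriods : Set k).ncard := by
    rw [← Nat.card_coe_set_eq]
    exact Nat.card_congr (Equiv.subtypeEquivRight fun x => Subgroup.mem_strictPeriods_iff.symm)
  have e2 : Nat.card {a : k // ∃ t ∈ G0, t.det = 1 ∧ t 1 0 = 0 ∧ t 0 0 = a * t 1 1}
      = (ratioSet G0).ncard := by
    rw [← Nat.card_coe_set_eq]
    rfl
  rw [e1, e2] at hbound
  exact hbound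

/-- Key step: under the bound, `X = R`. -/
theorem strictPeriods_eq_mult [Finite G0] (h1 : upperRightHom (1 : k) ∈ G0)
    (hb : (G0.strictPeriods : Set k).ncard ≤ 2 * (ratioSet G0).ncard + 1) :
    (mult G0 : Set k) = (G0.strictPeriods : Set k) := by
  have hXfin := finite_strictPeriods (G0 := G0)
  have hRX : (mult G0 : Set k) ⊆ (G0.strictPeriods : Set k) := mult_le h1
  have hRfin : (mult G0 : Set k).Finite := hXfin.subset hRX
  have hMfin : (ratioSet G0).Finite := hRfin.subset ratioSet_subset_mult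
  -- `μ ∪ {0} ⊆ R`
  have h0M : (0 : k) ∉ ratioSet G0 := fun h => ne_zero_of_mem_ratioSet h rfl
  have hins : insert (0 : k) (ratioSet G0) ⊆ (mult G0 : Set k) := by
    intro c hc
    rcases hc with rfl | hc
    · exact (mult G0).zero_mem
    · exact ratioSet_subset_mult hc
  have hcardR : (ratioSet G0).ncard + 1 ≤ (mult G0 : Set k).ncard := by
    rw [← Set.ncard_insert_of_notMem h0M hMfin]
    exact Set.ncard_le_ncard hins hRfin
  -- Lagrange
  have hdvd : (mult G0 : Set k).ncard ∣ (G0.strictPeriods : Set k).ncard := by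
    have := AddSubgroup.card_dvd_of_le (mult_le (G0 := G0) h1)
    rwa [← Nat.card_coe_set_eq, ← Nat.card_coe_set_eq]
  have hXpos : 0 < (G0.strictPeriods : Set k).ncard :=
    (Set.ncard_pos hXfin).mpr ⟨0, G0.strictPeriods.zero_mem⟩
  obtain ⟨m, hm⟩ := hdvd
  have hm1 : m = 1 := by
    rcases Nat.lt_or_ge m 2 with h | h
    · interval_cases m
      · rw [hm] at hXpos; simp at hXpos
      · rfl
    · exfalso
      have : 2 * (mult G0 : Set k).ncard ≤ (G0.strictPeriods : Set k).ncard := by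
        rw [hm, mul_comm]
        exact Nat.mul_le_mul_left _ h
      omega
  rw [hm1, mul_one] at hm
  exact Set.eq_of_subset_of_ncard_le hRX hm.le hXfin

/-- Under the bound, `X` is closed under multiplication. -/
theorem mul_mem_strictPeriods [Finite G0] (h1 : upperRightHom (1 : k) ∈ G0)
    (hb : (G0.strictPeriods : Set k).ncard ≤ 2 * (ratioSet G0).ncard + 1) {x y : k}
    (hx : x ∈ G0.strictPeriods) (hy : y ∈ G0.strictPeriods) : x * y ∈ G0.strictPeriods := by
  have hx' : x ∈ (mult G0 : Set k) := by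
    rw [strictPeriods_eq_mult h1 hb]
    exact hx
  exact hx' y hy

/-- Under the bound, `X` is closed under inversion (a finite subring of a field is a field). -/
theorem inv_mem_strictPeriods [Finite G0] (h1 : upperRightHom (1 : k) ∈ G0)
    (hb : (G0.strictPeriods : Set k).ncard ≤ 2 * (ratioSet G0).ncard + 1) {x : k}
    (hx : x ∈ G0.strictPeriods) : x⁻¹ ∈ G0.strictPeriods := by
  rcases eq_or_ne x 0 with rfl | hx0
  · rw [_root_.inv_zero]
    exact zero_mem _
  have hfin : Finite (G0.strictPeriods) := (finite_strictPeriods (G0 := G0)).to_subtype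
  let f : G0.strictPeriods → G0.strictPeriods :=
    fun y => ⟨x * y, mul_mem_strictPeriods h1 hb hx y.2⟩
  have hf : Function.Injective f := by
    intro y z hyz
    have := congrArg Subtype.val hyz
    exact Subtype.ext (mul_left_cancel₀ hx0 this)
  obtain ⟨y, hy⟩ := (Finite.injective_iff_surjective.mp hf)
    ⟨1, Subgroup.mem_strictPeriods_iff.mpr h1⟩
  have hxy : x * (y : k) = 1 := congrArg Subtype.val hy
  have : x⁻¹ = (y : k) := (eq_inv_of_mul_eq_one_right hxy).symm ▸ rfl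
  rw [this]
  exact y.2

/-- The subfield `F` with carrier `X = {x | u x ∈ G0}`. -/
def subfieldOf (G0 : Subgroup (GL (Fin 2) k)) [Finite G0] (h1 : upperRightHom (1 : k) ∈ G0)
    (hb : (G0.strictPeriods : Set k).ncard ≤ 2 * (ratioSet G0).ncard + 1) : Subfield k where
  carrier := (G0.strictPeriods : Set k)
  mul_mem' := fun hx hy => mul_mem_strictPeriods h1 hb hx hy
  one_mem' := Subgroup.mem_strictPeriods_iff.mpr h1
  add_mem' := fun hx hy => add_mem hx hy
  zero_mem' := zero_mem _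
  neg_mem' := fun hx => neg_mem hx
  inv_mem' := fun _ hx => inv_mem_strictPeriods h1 hb hx

lemma mem_subfieldOf [Finite G0] (h1 : upperRightHom (1 : k) ∈ G0)
    (hb : (G0.strictPeriods : Set k).ncard ≤ 2 * (ratioSet G0).ncard + 1) {x : k} :
    x ∈ subfieldOf G0 h1 hb ↔ upperRightHom x ∈ G0 :=
  Subgroup.mem_strictPeriods_iff

/-- Under the bound, every non-zero square of `X` is a ratio. -/
theorem sq_mem_ratioSet [Finite G0] (h1 : upperRightHom (1 : k) ∈ G0)
    (hb : (G0.strictPeriods : Set k).ncard ≤ 2 * (ratioSet G0).ncard + 1) {a : k}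
    (ha : a ∈ G0.strictPeriods) (ha0 : a ≠ 0) : a ^ 2 ∈ ratioSet G0 := by
  by_cases haM : a ∈ ratioSet G0
  · rw [pow_two]
    exact mul_mem_ratioSet haM haM
  have hXfin := finite_strictPeriods (G0 := G0)
  have hRX := strictPeriods_eq_mult h1 hb
  have hMX : ratioSet G0 ⊆ (G0.strictPeriods : Set k) := by
    rw [← hRX]
    exact ratioSet_subset_mult
  have hMfin : (ratioSet G0).Finite := hXfin.subset hMX
  set aM : Set k := (fun m => a * m) '' ratioSet G0 with haM_def
  have haMfin : aM.Finite := hMfin.image _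
  have hcard_aM : aM.ncard = (ratioSet G0).ncard :=
    Set.ncard_image_of_injective _ (mul_right_injective₀ ha0)
  have hdisj : Disjoint (ratioSet G0) aM := by
    rw [Set.disjoint_left]
    rintro m' hm' ⟨m, hm, rfl⟩
    apply haM
    have : a = a * m * m⁻¹ := by
      rw [mul_assoc, mul_inv_cancel₀ (ne_zero_of_mem_ratioSet hm), mul_one]
    rw [this]
    exact mul_mem_ratioSet hm' (inv_mem_ratioSet hm)
  have hsub : ratioSet G0 ∪ aM ⊆ (G0.strictPeriods : Set k) \ {0} := by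
    rintro c (hc | ⟨m, hm, rfl⟩)
    · exact ⟨hMX hc, ne_zero_of_mem_ratioSet hc⟩
    · exact ⟨mul_mem_strictPeriods h1 hb ha (hMX hm),
        mul_ne_zero ha0 (ne_zero_of_mem_ratioSet hm)⟩
  have hcard : ((G0.strictPeriods : Set k) \ {0}).ncard ≤ (ratioSet G0 ∪ aM).ncard := by
    rw [Set.ncard_union_eq hdisj hMfin haMfin, hcard_aM,
      Set.ncard_sdiff_singleton_of_mem (G0.strictPeriods.zero_mem)]
    omega
  have heq : ratioSet G0 ∪ aM = (G0.strictPeriods : Set k) \ {0} :=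
    Set.eq_of_subset_of_ncard_le hsub hcard (hXfin.subset Set.sdiff_subset)
  have hsq : a ^ 2 ∈ (G0.strictPeriods : Set k) \ {0} :=
    ⟨by rw [pow_two]; exact mul_mem_strictPeriods h1 hb ha ha, pow_ne_zero 2 ha0⟩
  rw [← heq] at hsq
  rcases hsq with h | ⟨m, hm, hme⟩
  · exact h
  · exfalso
    apply haM
    have : a = m := by
      have hme' : a * m = a ^ 2 := hme
      have h2 : a * m = a * a := by rw [hme', pow_two]
      exact (mul_left_cancel₀ ha0 h2).symm
    rw [this]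
    exact hm

/-! ### The exit of row G.2 -/

/-- **Row G.2.**  If `u 1 ∈ G0` and `|X| ≤ 2 |μ| + 1`, then `X = {x | u x ∈ G0}` is a subfield `F`
of `k` and every non-zero square of `F` is the ratio `t₀₀ / t₁₁` of an upper triangular element
`t ∈ G0` of determinant one. -/
theorem exists_subfield_torus (G0 : Subgroup (GL (Fin 2) k)) [Finite G0]
    (h1 : upperRightHom (1 : k) ∈ G0)
    (hbound : Nat.card {x : k // upperRightHom x ∈ G0} ≤
      2 * Nat.card {a : k // ∃ t ∈ G0, t.det = 1 ∧ t 1 0 = 0 ∧ t 0 0 = a * t 1 1} + 1) :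
    ∃ F : Subfield k, (∀ x : k, x ∈ F ↔ upperRightHom x ∈ G0) ∧
      ∀ a ∈ F, a ≠ 0 → ∃ t ∈ G0, t 1 0 = 0 ∧ t.det = 1 ∧ t 0 0 = a ^ 2 * t 1 1 := by
  have hb := ncard_le_of_hbound hbound
  refine ⟨subfieldOf G0 h1 hb, fun x => mem_subfieldOf h1 hb, ?_⟩
  intro a ha ha0
  obtain ⟨t, ht, htd, h10, h00⟩ := sq_mem_ratioSet h1 hb ((mem_subfieldOf h1 hb).mp ha |>
    Subgroup.mem_strictPeriods_iff.mpr) ha0
  exact ⟨t, ht, h10, htd, h00⟩

/-- A subfield with `x ∈ F ↔ u x ∈ G0` is finite when `G0` is. -/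
theorem finite_subfield [Finite G0] (F : Subfield k)
    (hF : ∀ x : k, x ∈ F ↔ upperRightHom x ∈ G0) : Finite F := by
  refine Finite.of_injective
    (fun x : F => (⟨upperRightHom (x : k), (hF x).mp x.2⟩ : G0)) ?_
  intro x y hxy
  have := congrArg Subtype.val hxy
  exact Subtype.ext (injective_upperRightHom this)

/-- The cardinality of such a subfield is `|X|`. -/
theorem card_subfield (F : Subfield k) (hF : ∀ x : k, x ∈ F ↔ upperRightHom x ∈ G0) :
    Nat.card F = Nat.card {x : k // upperRightHom x ∈ G0} :=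
  Nat.card_congr (Equiv.subtypeEquivRight hF)

/-! ### Adapters: the determinant-one part `Γ₁` of `G0` -/

/-- `Γ₁ = G0 ∩ SL₂`: the elements of `G0` of determinant one. -/
def detOne (G0 : Subgroup (GL (Fin 2) k)) : Subgroup (GL (Fin 2) k) :=
  G0 ⊓ (Matrix.GeneralLinearGroup.det : GL (Fin 2) k →* kˣ).ker

lemma mem_detOne {g : GL (Fin 2) k} : g ∈ detOne G0 ↔ g ∈ G0 ∧ g.det = 1 := by
  rw [detOne, Subgroup.mem_inf, MonoidHom.mem_ker]

lemma detOne_le : detOne G0 ≤ G0 := inf_le_left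

instance [Finite G0] : Finite (detOne G0) :=
  Finite.of_injective (Subgroup.inclusion (detOne_le (G0 := G0)))
    (Subgroup.inclusion_injective _)

lemma det_upperRightHom (x : k) : (upperRightHom x : GL (Fin 2) k).det = 1 := by
  apply Units.ext
  rw [Matrix.GeneralLinearGroup.val_det_apply]
  simp [Matrix.det_fin_two]

lemma upperRightHom_mem_detOne {x : k} :
    upperRightHom x ∈ detOne G0 ↔ upperRightHom x ∈ G0 := by
  rw [mem_detOne, and_iff_left (det_upperRightHom x)]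

lemma exists_detOne_iff {a : k} :
    (∃ g ∈ detOne G0, g 1 0 = 0 ∧ g 0 0 = a * g 1 1) ↔
      ∃ t ∈ G0, t.det = 1 ∧ t 1 0 = 0 ∧ t 0 0 = a * t 1 1 := by
  constructor
  · rintro ⟨g, hg, h10, h00⟩
    exact ⟨g, (mem_detOne.mp hg).1, (mem_detOne.mp hg).2, h10, h00⟩
  · rintro ⟨t, ht, htd, h10, h00⟩
    exact ⟨t, mem_detOne.mpr ⟨ht, htd⟩, h10, h00⟩

/-- The bound of `exists_subfield_torus` from the Klein bound `q' ≤ 2 |μ| + 1` at `Γ₁`. -/
theorem hbound_of_detOne
    (h : Nat.card {x : k // upperRightHom x ∈ detOne G0} ≤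
      2 * Nat.card {a : k // ∃ g ∈ detOne G0, g 1 0 = 0 ∧ g 0 0 = a * g 1 1} + 1) :
    Nat.card {x : k // upperRightHom x ∈ G0} ≤
      2 * Nat.card {a : k // ∃ t ∈ G0, t.det = 1 ∧ t 1 0 = 0 ∧ t 0 0 = a * t 1 1} + 1 := by
  rw [Nat.card_congr (Equiv.subtypeEquivRight fun x => upperRightHom_mem_detOne (G0 := G0)),
    Nat.card_congr (Equiv.subtypeEquivRight fun a => exists_detOne_iff (G0 := G0))] at h
  exact h

/-- The same from the form `q' - 1 ≤ 2 |μ|` (truncated subtraction) at `Γ₁`. -/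
theorem hbound_of_detOne_sub
    (h : Nat.card {x : k // upperRightHom x ∈ detOne G0} - 1 ≤
      2 * Nat.card {a : k // ∃ g ∈ detOne G0, g 1 0 = 0 ∧ g 0 0 = a * g 1 1}) :
    Nat.card {x : k // upperRightHom x ∈ G0} ≤
      2 * Nat.card {a : k // ∃ t ∈ G0, t.det = 1 ∧ t 1 0 = 0 ∧ t 0 0 = a * t 1 1} + 1 :=
  hbound_of_detOne (by omega)

/-- **Row G.2, as consumed by G.4**: the Klein bound at `Γ₁ = detOne G0` gives the field and the
torus. -/
theorem exists_subfield_torus_of_detOne (G0 : Subgroup (GL (Fin 2) k)) [Finite G0]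
    (h1 : upperRightHom (1 : k) ∈ G0)
    (h : Nat.card {x : k // upperRightHom x ∈ detOne G0} ≤
      2 * Nat.card {a : k // ∃ g ∈ detOne G0, g 1 0 = 0 ∧ g 0 0 = a * g 1 1} + 1) :
    ∃ F : Subfield k, (∀ x : k, x ∈ F ↔ upperRightHom x ∈ G0) ∧
      ∀ a ∈ F, a ≠ 0 → ∃ t ∈ G0, t 1 0 = 0 ∧ t.det = 1 ∧ t 0 0 = a ^ 2 * t 1 1 :=
  exists_subfield_torus G0 h1 (hbound_of_detOne h)

end Fermat.Agent.S56.G.FieldTorus
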