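import Mathlib
import Fermat.Agent.S56.G.Bricks

/-!
# S56, brick G, row G.4: `H¹(G₀, ad⁰ ⊗ det) = 0` from the bricks G.1, G.2, G.3

`h1Statement_of_bricks : KleinStatement → FieldStatement → CocycleStatement → H1Statement`
(the statements of `S56/G/Bricks.lean`).

Plan.  Let `G ≤ GL₂(k)` be finite, `char k = p` odd, with split characteristic polynomials, no
stable line, and (for `p = 5`) an element with `det² ≠ 1`, and `c` a cocycle for the twisted
adjoint action on trace-zero matrices.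

* If `p ∤ |G|`, average over `G`.
* Otherwise `G` has an element of order `p`; it is unipotent, and after a conjugation (which
  transports cocycles) `up 1 ∈ G`.  The subgroup `P = G ∩ U` of upper unitriangular elements is a
  Sylow `p`-subgroup (a `p`-subgroup containing `up 1` is unitriangular), so a cocycle which is a
  coboundary on `P` is a coboundary on `G` (averaging over `G ⧸ P`).
* `|P| < 5` forces `|P| = p = 3`, where the cocycle equation at `up 1` is solved by hand.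
* `|P| ≥ 5`: G.1 and G.2 for `G ∩ SL₂` give the field and the torus, G.3 gives the coboundary on
  `P`; for `|P| = 5` the upper triangular element with `det² ≠ 1` comes from Sylow conjugacy in
  `G ∩ SL₂`.
-/

set_option autoImplicit false

open Matrix Polynomial

namespace Fermat.Agent.S56.G.H1

open Fermat.Agent.S56.G

universe u

section Tw

variable {k : Type u} [Field k]

theorem tw_one (X : Matrix (Fin 2) (Fin 2) k) : tw (1 : GL (Fin 2) k) X = X := by
  unfold tw
  simp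

theorem tw_mul (g h : GL (Fin 2) k) (X : Matrix (Fin 2) (Fin 2) k) :
    tw (g * h) X = tw g (tw h X) := by
  unfold tw
  rw [_root_.mul_inv_rev, Units.val_mul, Units.val_mul, Matrix.det_mul, Matrix.mul_smul,
    Matrix.smul_mul, smul_smul]
  congr 1
  simp only [Matrix.mul_assoc]

theorem tw_add (g : GL (Fin 2) k) (X Y : Matrix (Fin 2) (Fin 2) k) :
    tw g (X + Y) = tw g X + tw g Y := by
  unfold tw
  rw [Matrix.mul_add, Matrix.add_mul, smul_add]

theorem tw_smul (g : GL (Fin 2) k) (a : k) (X : Matrix (Fin 2) (Fin 2) k) :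
    tw g (a • X) = a • tw g X := by
  unfold tw
  rw [Matrix.mul_smul, Matrix.smul_mul, smul_comm]

theorem tw_zero (g : GL (Fin 2) k) : tw g (0 : Matrix (Fin 2) (Fin 2) k) = 0 := by
  unfold tw
  simp

theorem tw_neg (g : GL (Fin 2) k) (X : Matrix (Fin 2) (Fin 2) k) : tw g (-X) = -tw g X := by
  unfold tw
  simp

theorem tw_sub (g : GL (Fin 2) k) (X Y : Matrix (Fin 2) (Fin 2) k) :
    tw g (X - Y) = tw g X - tw g Y := by
  rw [sub_eq_add_neg, tw_add, tw_neg, ← sub_eq_add_neg]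

theorem trace_tw (g : GL (Fin 2) k) (X : Matrix (Fin 2) (Fin 2) k) :
    (tw g X).trace = g.val.det * X.trace := by
  unfold tw
  rw [Matrix.trace_smul, smul_eq_mul, Matrix.trace_mul_cycle, ← Units.val_mul, inv_mul_cancel,
    Units.val_one, Matrix.one_mul]

/-- `tw g` as a linear map. -/
def twLin (g : GL (Fin 2) k) : Matrix (Fin 2) (Fin 2) k →ₗ[k] Matrix (Fin 2) (Fin 2) k where
  toFun := tw g
  map_add' := tw_add g
  map_smul' a X := by
    rw [RingHom.id_apply]
    exact tw_smul g a X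

theorem twLin_apply (g : GL (Fin 2) k) (X : Matrix (Fin 2) (Fin 2) k) : twLin g X = tw g X := rfl

/-- The twisted adjoint action as a monoid homomorphism to the endomorphisms of `M₂(k)`. -/
def twHom : GL (Fin 2) k →* Module.End k (Matrix (Fin 2) (Fin 2) k) where
  toFun := twLin
  map_one' := LinearMap.ext fun X => tw_one X
  map_mul' g h := LinearMap.ext fun X => tw_mul g h X

theorem twHom_apply (g : GL (Fin 2) k) (X : Matrix (Fin 2) (Fin 2) k) : twHom g X = tw g X := rfl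

end Tw

section Average

variable {𝔾 : Type*} [Group 𝔾] [Finite 𝔾] {k : Type*} [Field k] {M : Type*} [AddCommGroup M]
  [Module k M]

/-- **Averaging.**  A cocycle which vanishes on a subgroup of index invertible in `k` is a
coboundary, of an element of the span of its values. -/
theorem exists_coboundary_of_subgroup (a : 𝔾 →* Module.End k M) (P : Subgroup 𝔾)
    (hidx : (P.index : k) ≠ 0) (c : 𝔾 → M) (hc : ∀ g h, c (g * h) = c g + a g (c h))
    (hP : ∀ h ∈ P, c h = 0) :
    ∃ Z ∈ Submodule.span k (Set.range c), ∀ g, c g = a g Z - Z := by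
  classical
  have hconst : ∀ g h, h ∈ P → c (g * h) = c g := by
    intro g h hh
    rw [hc, hP h hh, map_zero, add_zero]
  let cbar : 𝔾 ⧸ P → M := Quotient.lift c (by
    intro g₁ g₂ h
    have h' : g₁⁻¹ * g₂ ∈ P := QuotientGroup.leftRel_apply.mp h
    have := hconst g₁ (g₁⁻¹ * g₂) h'
    rw [mul_inv_cancel_left] at this
    exact this.symm)
  have hcbar : ∀ g : 𝔾, cbar (QuotientGroup.mk g) = c g := fun g => rfl
  let _ : Fintype (𝔾 ⧸ P) := Fintype.ofFinite _
  let S : M := ∑ q : 𝔾 ⧸ P, cbar q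
  have hS : ∀ g : 𝔾, S = (P.index : k) • c g + a g S := by
    intro g
    have h1 : ∑ q : 𝔾 ⧸ P, cbar (g • q) = S :=
      Equiv.sum_comp (MulAction.toPerm g) cbar
    have h2 : ∀ q : 𝔾 ⧸ P, cbar (g • q) = c g + a g (cbar q) := by
      intro q
      induction q using QuotientGroup.induction_on with
      | H x =>
        show cbar (QuotientGroup.mk (g * x)) = _
        rw [hcbar, hcbar, hc]
    have h3 : ∑ q : 𝔾 ⧸ P, cbar (g • q) = (P.index : k) • c g + a g S := by
      rw [Finset.sum_congr rfl fun q _ => h2 q, Finset.sum_add_distrib, Finset.sum_const,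
        Finset.card_univ, ← map_sum, ← Nat.cast_smul_eq_nsmul k, Subgroup.index_eq_card,
        Nat.card_eq_fintype_card]
    exact h1.symm.trans h3
  refine ⟨-((P.index : k)⁻¹ • S), ?_, fun g => ?_⟩
  · apply Submodule.neg_mem
    apply Submodule.smul_mem
    apply Submodule.sum_mem
    intro q _
    induction q using QuotientGroup.induction_on with
    | H x => exact Submodule.subset_span ⟨x, rfl⟩
  · have h := hS g
    have h3 : S - a g S = (P.index : k) • c g := sub_eq_of_eq_add h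
    rw [map_neg, map_smul, neg_sub_neg, ← smul_sub, h3, inv_smul_smul₀ hidx]

end Average

section Up

variable {k : Type u} [Field k]

theorem up_val (x : k) : (up x).val = !![1, x; 0, 1] := rfl

theorem up_add (x y : k) : up (x + y) = up x * up y :=
  (Matrix.GeneralLinearGroup.upperRightHom (R := k)).map_add_eq_mul x y

theorem up_zero : up (0 : k) = 1 :=
  (Matrix.GeneralLinearGroup.upperRightHom (R := k)).map_zero_eq_one

theorem up_inv (x : k) : (up x)⁻¹ = up (-x) := by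
  apply inv_eq_of_mul_eq_one_right
  rw [← up_add, add_neg_cancel, up_zero]

theorem up_injective : Function.Injective (up : k → GL (Fin 2) k) :=
  Matrix.GeneralLinearGroup.injective_upperRightHom

theorem det_up (x : k) : (up x).val.det = 1 := by
  rw [up_val, Matrix.det_fin_two_of]
  ring

theorem up_pow (x : k) (n : ℕ) : up x ^ n = up (n • x) := by
  induction n with
  | zero => rw [pow_zero, zero_nsmul, up_zero]
  | succ n ih => rw [pow_succ, ih, succ_nsmul, up_add]

/-- Explicit formula for the twisted adjoint action of `up x`. -/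
theorem tw_up (x : k) (X : Matrix (Fin 2) (Fin 2) k) :
    tw (up x) X = !![X 0 0 + x * X 1 0, X 0 1 + x * (X 1 1 - X 0 0) - x ^ 2 * X 1 0;
      X 1 0, X 1 1 - x * X 1 0] := by
  unfold tw
  rw [up_inv, det_up, one_smul, up_val, up_val]
  conv_lhs => rw [Matrix.eta_fin_two X]
  rw [Matrix.mul_fin_two, Matrix.mul_fin_two]
  ext i j
  fin_cases i <;> fin_cases j <;> simp <;> ring

/-- A nilpotent `2 × 2` matrix over a field squares to zero. -/
theorem sq_eq_zero_of_isNilpotent (N : Matrix (Fin 2) (Fin 2) k) (hN : IsNilpotent N) :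
    N ^ 2 = 0 := by
  have htr : N.trace = 0 := (Matrix.isNilpotent_trace_of_isNilpotent hN).eq_zero
  have hdet : N.det = 0 := by
    obtain ⟨m, hm⟩ := hN
    have : N.det ^ m = 0 := by rw [← Matrix.det_pow, hm, Matrix.det_zero]
    exact pow_eq_zero_iff (n := m) (by
      rintro rfl
      simp at hm) |>.mp this
  rw [Matrix.trace_fin_two] at htr
  rw [Matrix.det_fin_two] at hdet
  ext i j
  fin_cases i <;> fin_cases j <;> simp [sq, Matrix.mul_apply]
  · linear_combination (N 0 0) * htr - hdet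
  · linear_combination (N 0 1) * htr
  · linear_combination (N 1 0) * htr
  · linear_combination (N 1 1) * htr - hdet

/-- Elements of `p`-power order are unipotent in characteristic `p`. -/
theorem sq_eq_zero_of_pow_eq_one (p : ℕ) [Fact p.Prime] [CharP k p] (g : GL (Fin 2) k) (a : ℕ)
    (h : g ^ (p ^ a) = 1) : (g.val - 1) ^ 2 = 0 := by
  apply sq_eq_zero_of_isNilpotent
  refine ⟨p ^ a, ?_⟩
  have hc : Commute g.val (1 : Matrix (Fin 2) (Fin 2) k) := Commute.one_right _
  have := sub_pow_char_pow_of_commute (p := p) (n := a) hc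
  rw [this]
  have h' : g.val ^ (p ^ a) = 1 := by
    have := congrArg Units.val h
    simpa using this
  rw [h', one_pow, sub_self]

/-- The trace of a unipotent element is `2`. -/
theorem trace_of_unip (g : GL (Fin 2) k) (hu : (g.val - 1) ^ 2 = 0) :
    g.val 0 0 + g.val 1 1 = 2 := by
  have hN : IsNilpotent (g.val - 1) := ⟨2, hu⟩
  have htr : (g.val - 1).trace = 0 := (Matrix.isNilpotent_trace_of_isNilpotent hN).eq_zero
  rw [Matrix.trace_fin_two] at htr
  simp only [Matrix.sub_apply, Matrix.one_apply_eq] at htr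
  linear_combination htr

/-- A unipotent element fixing `∞` is `up x`. -/
theorem eq_up_of_unip (g : GL (Fin 2) k) (h10 : g.val 1 0 = 0) (hu : (g.val - 1) ^ 2 = 0) :
    g = up (g.val 0 1) := by
  have h := fun i j => congrFun (congrFun hu i) j
  have h00 := h 0 0
  have h11 := h 1 1
  simp [sq, Matrix.mul_apply, Matrix.one_apply, h10] at h00 h11
  apply Units.ext
  ext i j
  fin_cases i <;> fin_cases j <;> simp [h10]
  · exact sub_eq_zero.mp h00
  · exact sub_eq_zero.mp h11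

/-- A `p`-subgroup of `GL₂(k)` containing `up 1` consists of upper unitriangular matrices. -/
theorem eq_up_of_isPGroup (p : ℕ) [Fact p.Prime] [CharP k p] (Q : Subgroup (GL (Fin 2) k))
    (hQ : IsPGroup p Q) (h1 : up 1 ∈ Q) (y : GL (Fin 2) k) (hy : y ∈ Q) :
    y = up (y.val 0 1) := by
  have hun : ∀ z ∈ Q, (z.val - 1) ^ 2 = 0 := by
    intro z hz
    obtain ⟨n, hn⟩ := hQ ⟨z, hz⟩
    have hn' : z ^ (p ^ n) = 1 := by
      have := congrArg Subtype.val hn
      simpa using this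
    exact sq_eq_zero_of_pow_eq_one p z n hn'
  have ht1 := trace_of_unip y (hun y hy)
  have ht2 := trace_of_unip (y * up 1) (hun _ (Q.mul_mem hy h1))
  have h10 : y.val 1 0 = 0 := by
    rw [Units.val_mul, up_val] at ht2
    simp [Matrix.mul_apply, Fin.sum_univ_two] at ht2
    linear_combination ht2 - ht1
  exact eq_up_of_unip y h10 (hun y hy)

theorem exists_up_mul_eq (b : k) (hb : b ≠ 0) : ∃ B : GL (Fin 2) k, up b * B = B * up 1 := by
  refine ⟨Matrix.GeneralLinearGroup.mkOfDetNeZero !![b, 0; 0, 1]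
    (by simp [Matrix.det_fin_two_of, hb]), ?_⟩
  apply Units.ext
  rw [Units.val_mul, Units.val_mul, up_val, up_val]
  show !![1, b; 0, 1] * !![b, 0; 0, 1] = !![b, 0; 0, 1] * !![1, 1; 0, 1]
  rw [Matrix.mul_fin_two, Matrix.mul_fin_two]
  ext i j
  fin_cases i <;> fin_cases j <;> simp

/-- An element of order `p` of `GL₂(k)` is conjugate to `up 1`. -/
theorem exists_conj_eq_up_one (p : ℕ) [Fact p.Prime] [CharP k p] (g : GL (Fin 2) k)
    (hg : g ^ p = 1) (hg1 : g ≠ 1) : ∃ A : GL (Fin 2) k, A * g * A⁻¹ = up 1 := by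
  have hu : (g.val - 1) ^ 2 = 0 := sq_eq_zero_of_pow_eq_one p g 1 (by rwa [pow_one])
  have htr := trace_of_unip g hu
  have h00 : (g.val 0 0 - 1) * (g.val 0 0 - 1) + g.val 0 1 * g.val 1 0 = 0 := by
    have := congrFun (congrFun hu 0) 0
    simpa [sq, Matrix.mul_apply, Fin.sum_univ_two, Matrix.sub_apply, Matrix.one_apply] using this
  suffices H : ∃ B : GL (Fin 2) k, g * B = B * up 1 by
    obtain ⟨B, hB⟩ := H
    refine ⟨B⁻¹, ?_⟩
    rw [inv_inv, mul_assoc, hB, inv_mul_cancel_left]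
  by_cases hc : g.val 1 0 = 0
  · have hgb := eq_up_of_unip g hc hu
    have hb : g.val 0 1 ≠ 0 := by
      intro hb
      apply hg1
      rw [hgb, hb, up_zero]
    obtain ⟨B, hB⟩ := exists_up_mul_eq (g.val 0 1) hb
    refine ⟨B, ?_⟩
    rw [← hB, ← hgb]
  · refine ⟨Matrix.GeneralLinearGroup.mkOfDetNeZero !![g.val 0 0 - 1, 1; g.val 1 0, 0]
      (by simp [Matrix.det_fin_two_of, hc]), ?_⟩
    apply Units.ext
    rw [Units.val_mul, Units.val_mul, up_val]
    show g.val * !![g.val 0 0 - 1, 1; g.val 1 0, 0] =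
      !![g.val 0 0 - 1, 1; g.val 1 0, 0] * !![1, 1; 0, 1]
    conv_lhs => rw [Matrix.eta_fin_two g.val]
    rw [Matrix.mul_fin_two, Matrix.mul_fin_two]
    ext i j
    fin_cases i <;> fin_cases j <;> simp
    · linear_combination h00
    · linear_combination (g.val 1 0) * htr

end Up

section Conj

variable {k : Type u} [Field k]

/-- "Every cocycle on `G` is a coboundary." -/
def H1For (G : Subgroup (GL (Fin 2) k)) : Prop :=
  ∀ c : GL (Fin 2) k → Matrix (Fin 2) (Fin 2) k, IsCocycle G c →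
    ∃ Y : Matrix (Fin 2) (Fin 2) k, Y.trace = 0 ∧ ∀ g ∈ G, c g = tw g Y - Y

/-- The conjugate subgroup `A G A⁻¹`. -/
def conjSub (A : GL (Fin 2) k) (G : Subgroup (GL (Fin 2) k)) : Subgroup (GL (Fin 2) k) :=
  G.map (MulAut.conj A).toMonoidHom

theorem mem_conjSub {A g : GL (Fin 2) k} {G : Subgroup (GL (Fin 2) k)} :
    g ∈ conjSub A G ↔ A⁻¹ * g * A ∈ G := by
  unfold conjSub
  rw [Subgroup.mem_map]
  constructor
  · rintro ⟨h, hh, rfl⟩
    have e : A⁻¹ * ((MulAut.conj A).toMonoidHom h) * A = h := by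
      show A⁻¹ * (A * h * A⁻¹) * A = h
      group
    rwa [e]
  · intro h
    refine ⟨A⁻¹ * g * A, h, ?_⟩
    show A * (A⁻¹ * g * A) * A⁻¹ = g
    group

theorem conj_mem_conjSub {A g : GL (Fin 2) k} {G : Subgroup (GL (Fin 2) k)} (hg : g ∈ G) :
    A * g * A⁻¹ ∈ conjSub A G := by
  rw [mem_conjSub]
  have e : A⁻¹ * (A * g * A⁻¹) * A = g := by group
  rwa [e]

theorem finite_conjSub (A : GL (Fin 2) k) (G : Subgroup (GL (Fin 2) k)) [Finite G] :
    Finite (conjSub A G) := by
  have hinj : Function.Injective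
      (fun g : conjSub A G => (⟨A⁻¹ * g.1 * A, mem_conjSub.mp g.2⟩ : G)) := by
    intro g h hgh
    have h1 : A⁻¹ * g.1 * A = A⁻¹ * h.1 * A := congrArg Subtype.val hgh
    apply Subtype.ext
    have e1 : A * (A⁻¹ * g.1 * A) * A⁻¹ = g.1 := by group
    have e2 : A * (A⁻¹ * h.1 * A) * A⁻¹ = h.1 := by group
    rw [← e1, ← e2, h1]
  exact Finite.of_injective _ hinj

/-- Transport of the vanishing of `H¹` along a conjugation. -/
theorem h1For_of_conj (A : GL (Fin 2) k) (G : Subgroup (GL (Fin 2) k))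
    (h : H1For (conjSub A G)) : H1For G := by
  intro c hc
  obtain ⟨hc1, hc2⟩ := hc
  let c' : GL (Fin 2) k → Matrix (Fin 2) (Fin 2) k := fun g' => tw A (c (A⁻¹ * g' * A))
  have hc' : IsCocycle (conjSub A G) c' := by
    refine ⟨fun g hg h hh => ?_, fun g hg => ?_⟩
    · have hg' := mem_conjSub.mp hg
      have hh' := mem_conjSub.mp hh
      show tw A (c (A⁻¹ * (g * h) * A)) =
        tw A (c (A⁻¹ * g * A)) + tw g (tw A (c (A⁻¹ * h * A)))
      have e : A⁻¹ * (g * h) * A = (A⁻¹ * g * A) * (A⁻¹ * h * A) := by group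
      rw [e, hc1 _ hg' _ hh', tw_add, ← tw_mul, ← tw_mul]
      congr 2
      group
    · show (tw A (c (A⁻¹ * g * A))).trace = 0
      rw [trace_tw, hc2 _ (mem_conjSub.mp hg), mul_zero]
  obtain ⟨Y', hY', hY'2⟩ := h c' hc'
  refine ⟨tw A⁻¹ Y', by rw [trace_tw, hY', mul_zero], fun g hg => ?_⟩
  have h1 : tw A (c (A⁻¹ * (A * g * A⁻¹) * A)) = tw (A * g * A⁻¹) Y' - Y' :=
    hY'2 (A * g * A⁻¹) (conj_mem_conjSub hg)
  have e : A⁻¹ * (A * g * A⁻¹) * A = g := by group
  rw [e] at h1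
  have h2 : c g = tw A⁻¹ (tw A (c g)) := by rw [← tw_mul, inv_mul_cancel, tw_one]
  rw [h2, h1, tw_sub, ← tw_mul, ← tw_mul]
  congr 2
  group

theorem split_conj (A : GL (Fin 2) k) (G : Subgroup (GL (Fin 2) k))
    (h : ∀ g ∈ G, ∃ α β : k, g.val.charpoly = (X - C α) * (X - C β)) :
    ∀ g ∈ conjSub A G, ∃ α β : k, g.val.charpoly = (X - C α) * (X - C β) := by
  intro g hg
  obtain ⟨α, β, hαβ⟩ := h _ (mem_conjSub.mp hg)
  refine ⟨α, β, ?_⟩
  rw [← hαβ]
  have e : g = A * (A⁻¹ * g * A) * A⁻¹ := by group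
  conv_lhs => rw [e]
  rw [Units.val_mul, Units.val_mul, Matrix.coe_units_inv]
  exact Matrix.charpoly_units_conj A _

theorem irr_conj (A : GL (Fin 2) k) (G : Subgroup (GL (Fin 2) k))
    (h : ∀ v : Fin 2 → k, v ≠ 0 → ∃ g ∈ G, ∀ a : k, g.val *ᵥ v ≠ a • v) :
    ∀ v : Fin 2 → k, v ≠ 0 → ∃ g ∈ conjSub A G, ∀ a : k, g.val *ᵥ v ≠ a • v := by
  intro v hv
  have hw : A⁻¹.val *ᵥ v ≠ 0 := by
    intro h0
    apply hv
    have : A.val *ᵥ (A⁻¹.val *ᵥ v) = v := by
      rw [Matrix.mulVec_mulVec, ← Units.val_mul, mul_inv_cancel, Units.val_one,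
        Matrix.one_mulVec]
    rw [← this, h0, Matrix.mulVec_zero]
  obtain ⟨g, hg, hga⟩ := h _ hw
  refine ⟨A * g * A⁻¹, conj_mem_conjSub hg, fun a ha => hga a ?_⟩
  have h1 : A⁻¹.val *ᵥ ((A * g * A⁻¹).val *ᵥ v) = g.val *ᵥ (A⁻¹.val *ᵥ v) := by
    rw [Matrix.mulVec_mulVec, Matrix.mulVec_mulVec, ← Units.val_mul, ← Units.val_mul]
    congr 2
    group
  rw [← h1, ha, Matrix.mulVec_smul]

theorem det5_conj (p : ℕ) (A : GL (Fin 2) k) (G : Subgroup (GL (Fin 2) k))
    (h : p = 5 → ∃ g ∈ G, g.val.det ^ 2 ≠ 1) :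
    p = 5 → ∃ g ∈ conjSub A G, g.val.det ^ 2 ≠ 1 := by
  intro hp
  obtain ⟨g, hg, hd⟩ := h hp
  refine ⟨A * g * A⁻¹, conj_mem_conjSub hg, ?_⟩
  rwa [Units.val_mul, Units.val_mul, Matrix.det_units_conj]

end Conj

section Sylow

variable {k : Type u} [Field k]

/-- The group of upper unitriangular matrices. -/
def upSub (k : Type u) [Field k] : Subgroup (GL (Fin 2) k) where
  carrier := {g | ∃ x : k, g = up x}
  mul_mem' := by
    rintro _ _ ⟨x, rfl⟩ ⟨y, rfl⟩
    exact ⟨x + y, (up_add x y).symm⟩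
  one_mem' := ⟨0, up_zero.symm⟩
  inv_mem' := by
    rintro _ ⟨x, rfl⟩
    exact ⟨-x, up_inv x⟩

theorem mem_upSub {g : GL (Fin 2) k} : g ∈ upSub k ↔ ∃ x : k, g = up x := Iff.rfl

/-- The unitriangular elements of `G`, as a subgroup of `G`. -/
abbrev PSub (G : Subgroup (GL (Fin 2) k)) : Subgroup G := (upSub k).subgroupOf G

theorem mem_PSub {G : Subgroup (GL (Fin 2) k)} {h : G} :
    h ∈ PSub G ↔ ∃ x : k, (h : GL (Fin 2) k) = up x := Subgroup.mem_subgroupOf

theorem isPGroup_PSub (p : ℕ) [Fact p.Prime] [CharP k p] (G : Subgroup (GL (Fin 2) k)) :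
    IsPGroup p (PSub G) := by
  intro h
  refine ⟨1, ?_⟩
  obtain ⟨x, hx⟩ := mem_PSub.mp h.2
  apply Subtype.ext
  apply Subtype.ext
  rw [pow_one]
  show ((h.1 : G) : GL (Fin 2) k) ^ p = 1
  rw [hx, up_pow, nsmul_eq_mul, CharP.cast_eq_zero, zero_mul, up_zero]

/-- A Sylow `p`-subgroup of `G` containing the unitriangular elements consists of them, as soon
as `up 1 ∈ G`. -/
theorem sylow_eq_PSub (p : ℕ) [Fact p.Prime] [CharP k p] (G : Subgroup (GL (Fin 2) k))
    (h1 : up 1 ∈ G) (Q : Sylow p G) (hQ : PSub G ≤ Q) : (Q : Subgroup G) = PSub G := by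
  refine le_antisymm (fun y hy => ?_) hQ
  rw [mem_PSub]
  have hQ' : IsPGroup p ((Q : Subgroup G).map G.subtype) := Q.isPGroup'.map G.subtype
  have h1' : up 1 ∈ (Q : Subgroup G).map G.subtype :=
    ⟨⟨up 1, h1⟩, hQ (mem_PSub.mpr ⟨1, rfl⟩), rfl⟩
  have hy' : (y : GL (Fin 2) k) ∈ (Q : Subgroup G).map G.subtype := ⟨y, hy, rfl⟩
  exact ⟨_, eq_up_of_isPGroup p _ hQ' h1' _ hy'⟩

theorem not_dvd_index_PSub (p : ℕ) [Fact p.Prime] [CharP k p] (G : Subgroup (GL (Fin 2) k))
    [Finite G] (h1 : up 1 ∈ G) : ¬ p ∣ (PSub G).index := by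
  obtain ⟨Q, hQ⟩ := (isPGroup_PSub p G).exists_le_sylow
  rw [← sylow_eq_PSub p G h1 Q hQ]
  exact Q.not_dvd_index

theorem card_PSub (G : Subgroup (GL (Fin 2) k)) :
    Nat.card (PSub G) = Nat.card {x : k // up x ∈ G} := by
  symm
  apply Nat.card_eq_of_bijective
    (fun x : {x : k // up x ∈ G} => (⟨⟨up x.1, x.2⟩, mem_PSub.mpr ⟨x.1, rfl⟩⟩ : PSub G))
  constructor
  · intro x y hxy
    apply Subtype.ext
    have h := congrArg (fun z : PSub G => ((z.1 : G) : GL (Fin 2) k)) hxy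
    exact up_injective h
  · intro h
    obtain ⟨x, hx⟩ := mem_PSub.mp h.2
    refine ⟨⟨x, hx ▸ h.1.2⟩, ?_⟩
    apply Subtype.ext
    apply Subtype.ext
    exact hx.symm

/-- **Averaging over `G ⧸ P`**: a cocycle of `G` which is a coboundary on a subgroup of index
prime to `p` is a coboundary. -/
theorem coboundary_of_subgroup (p : ℕ) [Fact p.Prime] [CharP k p] (G : Subgroup (GL (Fin 2) k))
    [Finite G] (P : Subgroup G) (hidx : ¬ p ∣ P.index)
    (c : GL (Fin 2) k → Matrix (Fin 2) (Fin 2) k) (hc : IsCocycle G c)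
    (Y : Matrix (Fin 2) (Fin 2) k) (hY : Y.trace = 0)
    (hP : ∀ h ∈ P, c (h : GL (Fin 2) k) = tw (h : GL (Fin 2) k) Y - Y) :
    ∃ Y' : Matrix (Fin 2) (Fin 2) k, Y'.trace = 0 ∧ ∀ g ∈ G, c g = tw g Y' - Y' := by
  obtain ⟨hc1, hc2⟩ := hc
  let a : G →* Module.End k (Matrix (Fin 2) (Fin 2) k) := twHom.comp G.subtype
  let c₀ : G → Matrix (Fin 2) (Fin 2) k := fun g => c g.1 - (tw g.1 Y - Y)
  have hc₀ : ∀ g h : G, c₀ (g * h) = c₀ g + a g (c₀ h) := by
    intro g h
    show c (g.1 * h.1) - (tw (g.1 * h.1) Y - Y) =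
      c g.1 - (tw g.1 Y - Y) + tw g.1 (c h.1 - (tw h.1 Y - Y))
    rw [hc1 _ g.2 _ h.2, tw_mul, tw_sub, tw_sub]
    abel
  have hidx' : ((P.index : ℕ) : k) ≠ 0 := fun h0 =>
    hidx ((CharP.cast_eq_zero_iff k p _).mp h0)
  have hP₀ : ∀ h ∈ P, c₀ h = 0 := by
    intro h hh
    show c h.1 - (tw h.1 Y - Y) = 0
    rw [hP h hh, sub_self]
  obtain ⟨Z, hZ, hZ2⟩ := exists_coboundary_of_subgroup a P hidx' c₀ hc₀ hP₀
  have hZtr : Z.trace = 0 := by
    have hle : Submodule.span k (Set.range c₀) ≤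
        LinearMap.ker (Matrix.traceLinearMap (Fin 2) k k) := by
      rw [Submodule.span_le]
      rintro _ ⟨g, rfl⟩
      show (c g.1 - (tw g.1 Y - Y)).trace = 0
      rw [Matrix.trace_sub, Matrix.trace_sub, trace_tw, hY, hc2 _ g.2, mul_zero, sub_zero,
        sub_zero]
    exact hle hZ
  refine ⟨Y + Z, by rw [Matrix.trace_add, hY, hZtr, add_zero], fun g hg => ?_⟩
  have h' : c g - (tw g Y - Y) = tw g Z - Z := hZ2 ⟨g, hg⟩
  have h'' : c g = (tw g Y - Y) + (tw g Z - Z) := by
    rw [← h']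
    abel
  rw [tw_add, h'']
  abel

theorem cocycle_one {G : Subgroup (GL (Fin 2) k)}
    {c : GL (Fin 2) k → Matrix (Fin 2) (Fin 2) k} (hc : IsCocycle G c) : c 1 = 0 := by
  have h := hc.1 1 G.one_mem 1 G.one_mem
  rw [mul_one, tw_one] at h
  exact left_eq_add.mp h

/-- If `p ∤ |G|`, every cocycle is a coboundary. -/
theorem coboundary_of_not_dvd (p : ℕ) [Fact p.Prime] [CharP k p] (G : Subgroup (GL (Fin 2) k))
    [Finite G] (hp : ¬ p ∣ Nat.card G) : H1For G := by
  intro c hc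
  refine coboundary_of_subgroup p G ⊥ (by rwa [Subgroup.index_bot]) c hc 0 (Matrix.trace_zero _ _) ?_
  intro h hh
  rw [Subgroup.mem_bot] at hh
  rw [hh, tw_zero, sub_zero]
  exact cocycle_one hc

/-- A cocycle which is a coboundary on the unitriangular elements of `G` is a coboundary,
if `up 1 ∈ G`. -/
theorem coboundary_of_PSub (p : ℕ) [Fact p.Prime] [CharP k p] (G : Subgroup (GL (Fin 2) k))
    [Finite G] (h1 : up 1 ∈ G)
    (c : GL (Fin 2) k → Matrix (Fin 2) (Fin 2) k) (hc : IsCocycle G c)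
    (Y : Matrix (Fin 2) (Fin 2) k) (hY : Y.trace = 0)
    (hP : ∀ x : k, up x ∈ G → c (up x) = tw (up x) Y - Y) :
    ∃ Y' : Matrix (Fin 2) (Fin 2) k, Y'.trace = 0 ∧ ∀ g ∈ G, c g = tw g Y' - Y' := by
  refine coboundary_of_subgroup p G (PSub G) (not_dvd_index_PSub p G h1) c hc Y hY ?_
  intro h hh
  obtain ⟨x, hx⟩ := mem_PSub.mp hh
  rw [hx]
  exact hP x (hx ▸ h.2)

end Sylow

section Small

variable {k : Type u} [Field k]

/-- Subtracting a coboundary from a cocycle. -/
theorem isCocycle_sub (G : Subgroup (GL (Fin 2) k))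
    {c : GL (Fin 2) k → Matrix (Fin 2) (Fin 2) k} (hc : IsCocycle G c)
    (Y : Matrix (Fin 2) (Fin 2) k) (hY : Y.trace = 0) :
    IsCocycle G (fun g => c g - (tw g Y - Y)) := by
  refine ⟨fun g hg h hh => ?_, fun g hg => ?_⟩
  · show c (g * h) - (tw (g * h) Y - Y) = c g - (tw g Y - Y) + tw g (c h - (tw h Y - Y))
    rw [hc.1 _ hg _ hh, tw_mul, tw_sub, tw_sub]
    abel
  · show (c g - (tw g Y - Y)).trace = 0
    rw [Matrix.trace_sub, Matrix.trace_sub, trace_tw, hY, hc.2 _ hg, mul_zero, sub_zero,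
      sub_zero]

/-- The zero set of a cocycle is a subgroup. -/
def zeroSub (G : Subgroup (GL (Fin 2) k)) (c : GL (Fin 2) k → Matrix (Fin 2) (Fin 2) k)
    (hc : IsCocycle G c) : Subgroup (GL (Fin 2) k) where
  carrier := {g | g ∈ G ∧ c g = 0}
  mul_mem' := by
    rintro g h ⟨hg, hg0⟩ ⟨hh, hh0⟩
    exact ⟨G.mul_mem hg hh, by rw [hc.1 _ hg _ hh, hg0, hh0, tw_zero, add_zero]⟩
  one_mem' := ⟨G.one_mem, cocycle_one hc⟩
  inv_mem' := by
    rintro g ⟨hg, hg0⟩
    refine ⟨G.inv_mem hg, ?_⟩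
    have h := hc.1 _ (G.inv_mem hg) _ hg
    rw [inv_mul_cancel, cocycle_one hc, hg0, tw_zero, add_zero] at h
    exact h.symm

/-- If the unitriangular part of `G` has prime order, a cocycle which is a coboundary at `up 1`
is a coboundary on all unitriangular elements of `G`. -/
theorem coboundary_on_P_of_card_eq_prime (p : ℕ) [Fact p.Prime] (G : Subgroup (GL (Fin 2) k))
    (h1 : up 1 ∈ G) (hcard : Nat.card {x : k // up x ∈ G} = p)
    (c : GL (Fin 2) k → Matrix (Fin 2) (Fin 2) k) (hc : IsCocycle G c)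
    (Y : Matrix (Fin 2) (Fin 2) k) (hY : Y.trace = 0)
    (hY1 : c (up 1) = tw (up 1) Y - Y) :
    ∀ x : k, up x ∈ G → c (up x) = tw (up x) Y - Y := by
  intro x hx
  have hc₀ := isCocycle_sub G hc Y hY
  let u₁ : PSub G := ⟨⟨up 1, h1⟩, mem_PSub.mpr ⟨1, rfl⟩⟩
  have hu₁ : u₁ ≠ 1 := by
    intro h
    have h' : up (1 : k) = 1 := congrArg (fun z : PSub G => ((z.1 : G) : GL (Fin 2) k)) h
    rw [← up_zero] at h'
    exact one_ne_zero (up_injective h')
  have htop : Subgroup.zpowers u₁ = ⊤ :=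
    zpowers_eq_top_of_prime_card ((card_PSub G).trans hcard) hu₁
  let h : PSub G := ⟨⟨up x, hx⟩, mem_PSub.mpr ⟨x, rfl⟩⟩
  have hmem : h ∈ Subgroup.zpowers u₁ := htop ▸ Subgroup.mem_top h
  obtain ⟨n, hn⟩ := Subgroup.mem_zpowers_iff.mp hmem
  have hn' : up (1 : k) ^ n = up x := by
    have := congrArg (fun z : PSub G => ((z.1 : G) : GL (Fin 2) k)) hn
    simpa [u₁, h] using this
  have hz : up 1 ∈ zeroSub G _ hc₀ :=
    ⟨h1, by show c (up 1) - (tw (up 1) Y - Y) = 0; rw [hY1, sub_self]⟩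
  have hz' : up x ∈ zeroSub G _ hc₀ := hn' ▸ Subgroup.zpow_mem _ hz n
  exact sub_eq_zero.mp hz'.2

/-- In characteristic `3` the cocycle equation at `up 1` can be solved. -/
theorem exists_Y_of_three [CharP k 3] (G : Subgroup (GL (Fin 2) k)) (h1 : up 1 ∈ G)
    (c : GL (Fin 2) k → Matrix (Fin 2) (Fin 2) k) (hc : IsCocycle G c) :
    ∃ Y : Matrix (Fin 2) (Fin 2) k, Y.trace = 0 ∧ c (up 1) = tw (up 1) Y - Y := by
  have h3 : (3 : k) = 0 := by exact_mod_cast CharP.cast_eq_zero k 3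
  have htr : (c (up 1)) 0 0 + (c (up 1)) 1 1 = 0 := by
    have := hc.2 _ h1
    rwa [Matrix.trace_fin_two] at this
  have hcube : up (1 : k) * (up 1 * up 1) = 1 := by
    rw [← up_add, ← up_add, ← up_zero]
    congr 1
    linear_combination h3
  have h11 : up (1 : k) * up 1 ∈ G := G.mul_mem h1 h1
  have hS : c (up 1) + tw (up 1) (c (up 1) + tw (up 1) (c (up 1))) = 0 := by
    rw [← hc.1 _ h1 _ h1, ← hc.1 _ h1 _ h11, hcube]
    exact cocycle_one hc
  generalize c (up 1) = X at htr hS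
  have hS' : X + (tw (up 1) X + tw (up 1) (tw (up 1) X)) = 0 := by
    rw [← tw_add]
    exact hS
  have h01 := congrFun (congrFun hS' 0) 1
  have h10 : X 1 0 = 0 := by
    rw [tw_up (1 : k) (tw (up 1) X), tw_up (1 : k) X] at h01
    simp at h01
    linear_combination h01 - (X 0 1 + X 1 1 - X 0 0 - 2 * X 1 0) * h3
  refine ⟨!![X 0 1 + X 0 0, 0; X 0 0, -(X 0 1 + X 0 0)], ?_, ?_⟩
  · rw [Matrix.trace_fin_two_of]
    ring
  · rw [tw_up]
    ext i j
    fin_cases i <;> fin_cases j <;> simp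
    · linear_combination (X 0 1 + X 0 0) * h3
    · exact h10
    · linear_combination htr

end Small

section DetOne

variable {k : Type u} [Field k]

/-- The elements of determinant one of `G`. -/
def detOne (G : Subgroup (GL (Fin 2) k)) : Subgroup (GL (Fin 2) k) :=
  G ⊓ (Matrix.GeneralLinearGroup.det : GL (Fin 2) k →* kˣ).ker

theorem mem_detOne {G : Subgroup (GL (Fin 2) k)} {g : GL (Fin 2) k} :
    g ∈ detOne G ↔ g ∈ G ∧ g.val.det = 1 := by
  unfold detOne
  rw [Subgroup.mem_inf, MonoidHom.mem_ker]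
  constructor
  · rintro ⟨h1, h2⟩
    refine ⟨h1, ?_⟩
    have := congrArg Units.val h2
    simpa using this
  · rintro ⟨h1, h2⟩
    refine ⟨h1, Units.ext ?_⟩
    simpa using h2

theorem finite_detOne (G : Subgroup (GL (Fin 2) k)) [Finite G] : Finite (detOne G) :=
  Finite.of_injective (Subgroup.inclusion (inf_le_left : detOne G ≤ G))
    (Subgroup.inclusion_injective _)

theorem up_mem_detOne_iff {G : Subgroup (GL (Fin 2) k)} {x : k} :
    up x ∈ detOne G ↔ up x ∈ G :=
  ⟨fun h => (mem_detOne.mp h).1, fun h => mem_detOne.mpr ⟨h, det_up x⟩⟩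

theorem conj_up_mem_detOne {G : Subgroup (GL (Fin 2) k)} {g : GL (Fin 2) k} (hg : g ∈ G)
    (h1 : up 1 ∈ G) : g * up 1 * g⁻¹ ∈ detOne G := by
  refine mem_detOne.mpr ⟨G.mul_mem (G.mul_mem hg h1) (G.inv_mem hg), ?_⟩
  rw [Units.val_mul, Units.val_mul, Matrix.det_units_conj, det_up]

/-- An irreducible `G` containing `up 1` has a determinant-one element not fixing `∞`. -/
theorem exists_low_detOne (G : Subgroup (GL (Fin 2) k)) (h1 : up 1 ∈ G)
    (hirr : ∀ v : Fin 2 → k, v ≠ 0 → ∃ g ∈ G, ∀ a : k, g.val *ᵥ v ≠ a • v) :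
    ∃ g ∈ detOne G, g.val 1 0 ≠ 0 := by
  have hv : (![1, 0] : Fin 2 → k) ≠ 0 := by
    intro h
    have := congrFun h 0
    simp at this
  obtain ⟨h, hh, hha⟩ := hirr _ hv
  have h10 : h.val 1 0 ≠ 0 := by
    intro h0
    apply hha (h.val 0 0)
    ext i
    fin_cases i <;> simp [Matrix.mulVec, dotProduct, Fin.sum_univ_two, h0]
  have key : ∀ y : GL (Fin 2) k, y * h = h * up 1 → y.val 1 0 ≠ 0 := by
    intro y e hy
    have e' := congrArg Units.val e
    rw [Units.val_mul, Units.val_mul, up_val] at e'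
    have e10 : y.val 1 0 * h.val 0 0 + y.val 1 1 * h.val 1 0 = h.val 1 0 := by
      have := congrFun (congrFun e' 1) 0
      simpa [Matrix.mul_apply, Fin.sum_univ_two] using this
    have e11 : y.val 1 0 * h.val 0 1 + y.val 1 1 * h.val 1 1 = h.val 1 0 + h.val 1 1 := by
      have := congrFun (congrFun e' 1) 1
      simpa [Matrix.mul_apply, Fin.sum_univ_two] using this
    rw [hy, zero_mul, zero_add] at e10 e11
    have hy11 : y.val 1 1 = 1 := by
      have h0 : (y.val 1 1 - 1) * h.val 1 0 = 0 := by linear_combination e10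
      rcases mul_eq_zero.mp h0 with h' | h'
      · exact sub_eq_zero.mp h'
      · exact absurd h' h10
    rw [hy11, one_mul] at e11
    exact h10 (by linear_combination -e11)
  exact ⟨h * up 1 * h⁻¹, conj_up_mem_detOne hh h1, key _ (by group)⟩

/-- Split characteristic polynomial ⟹ the discriminant is a square. -/
theorem isSquare_discr_of_split (g : Matrix (Fin 2) (Fin 2) k) (α β : k)
    (h : g.charpoly = (X - C α) * (X - C β)) : IsSquare g.discr := by
  rw [Matrix.charpoly_fin_two] at h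
  have h0 := congrArg (Polynomial.eval 0) h
  have h1 := congrArg (Polynomial.eval 1) h
  simp at h0 h1
  have htr : g.trace = α + β := by linear_combination -h1 + h0
  refine ⟨α - β, ?_⟩
  rw [Matrix.discr_fin_two, htr, h0]
  ring

end DetOne

section Final

variable {k : Type u} [Field k]

theorem finite_X (G : Subgroup (GL (Fin 2) k)) [Finite G] : Finite {x : k // up x ∈ G} :=
  Finite.of_injective (fun x : {x : k // up x ∈ G} => (⟨up x.1, x.2⟩ : G)) (by
    intro x y h
    exact Subtype.ext (up_injective (congrArg Subtype.val h)))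

theorem low_entry_of_conj (g' : GL (Fin 2) k) (y : k) (e : g' * up 1 = up y * g') :
    g'.val 1 0 = 0 := by
  have e' := congrArg Units.val e
  rw [Units.val_mul, Units.val_mul, up_val, up_val] at e'
  have e11 : g'.val 1 0 + g'.val 1 1 = g'.val 1 1 := by
    have := congrFun (congrFun e' 1) 1
    simpa [Matrix.mul_apply, Fin.sum_univ_two] using this
  linear_combination e11

open scoped Pointwise in
/-- **Sylow conjugacy in `G ∩ SL₂`**: for every `g ∈ G` there is an upper triangular element of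
`G` with the same determinant, as soon as `up 1 ∈ G`. -/
theorem exists_upper_det (p : ℕ) [Fact p.Prime] [CharP k p] (G : Subgroup (GL (Fin 2) k))
    [Finite G] (h1 : up 1 ∈ G) (g : GL (Fin 2) k) (hg : g ∈ G) :
    ∃ g' ∈ G, g'.val 1 0 = 0 ∧ g'.val.det = g.val.det := by
  have := finite_detOne G
  have h1' : up 1 ∈ detOne G := up_mem_detOne_iff.mpr h1
  let z' : detOne G := ⟨g * up 1 * g⁻¹, conj_up_mem_detOne hg h1⟩
  have hz'p : z' ^ p = 1 := by
    apply Subtype.ext
    show (g * up 1 * g⁻¹) ^ p = 1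
    rw [conj_pow, up_pow, nsmul_eq_mul, CharP.cast_eq_zero, zero_mul, up_zero, mul_one,
      mul_inv_cancel]
  have hzp : IsPGroup p (Subgroup.zpowers z') := by
    intro h
    refine ⟨1, ?_⟩
    obtain ⟨n, hn⟩ := Subgroup.mem_zpowers_iff.mp h.2
    apply Subtype.ext
    rw [pow_one]
    show (h.1) ^ p = 1
    rw [← hn, ← zpow_natCast, ← _root_.zpow_mul, mul_comm, _root_.zpow_mul, zpow_natCast, hz'p,
      _root_.one_zpow]
  obtain ⟨Q, hQ⟩ := hzp.exists_le_sylow
  obtain ⟨Q₁, hQ₁⟩ := (isPGroup_PSub p (detOne G)).exists_le_sylow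
  have hQ₁' := sylow_eq_PSub p (detOne G) h1' Q₁ hQ₁
  obtain ⟨n, hn⟩ := MulAction.exists_smul_eq (detOne G) Q Q₁
  have hmem : MulAut.conj n • z' ∈ MulAut.conj n • (Q : Subgroup (detOne G)) :=
    Subgroup.smul_mem_pointwise_smul z' (MulAut.conj n) Q (hQ (Subgroup.mem_zpowers z'))
  have hmem' : n * z' * n⁻¹ ∈ (Q₁ : Subgroup (detOne G)) := by
    rw [← hn]
    exact hmem
  rw [hQ₁', mem_PSub] at hmem'
  obtain ⟨y, hy⟩ := hmem'
  have hy' : (n : GL (Fin 2) k) * (g * up 1 * g⁻¹) * (n : GL (Fin 2) k)⁻¹ = up y := hy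
  obtain ⟨hnG, hndet⟩ := mem_detOne.mp n.2
  refine ⟨n.1 * g, G.mul_mem hnG hg, ?_, ?_⟩
  · apply low_entry_of_conj _ y
    rw [← hy']
    group
  · rw [Units.val_mul, Matrix.det_mul, hndet, one_mul]

/-- The normalised case `up 1 ∈ G`. -/
theorem h1For_of_up (hK : KleinStatement.{u}) (hF : FieldStatement.{u})
    (hC : CocycleStatement.{u}) (p : ℕ) [Fact p.Prime] [CharP k p] (hp2 : p ≠ 2)
    (G : Subgroup (GL (Fin 2) k)) [Finite G]
    (hsplit : ∀ g ∈ G, ∃ α β : k, g.val.charpoly = (X - C α) * (X - C β))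
    (hirr : ∀ v : Fin 2 → k, v ≠ 0 → ∃ g ∈ G, ∀ a : k, g.val *ᵥ v ≠ a • v)
    (hdet5 : p = 5 → ∃ g ∈ G, g.val.det ^ 2 ≠ 1) (h1 : up 1 ∈ G) : H1For G := by
  intro c hc
  suffices H : ∃ Y : Matrix (Fin 2) (Fin 2) k, Y.trace = 0 ∧
      ∀ x : k, up x ∈ G → c (up x) = tw (up x) Y - Y by
    obtain ⟨Y, hY, hYP⟩ := H
    exact coboundary_of_PSub p G h1 c hc Y hY hYP
  have hp : p.Prime := Fact.out
  obtain ⟨n, hn⟩ := (IsPGroup.iff_card (p := p)).mp (isPGroup_PSub p G)
  rw [card_PSub] at hn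
  have := finite_X G
  have hn0 : n ≠ 0 := by
    rintro rfl
    rw [pow_zero] at hn
    have hnt : Nontrivial {x : k // up x ∈ G} :=
      ⟨⟨⟨0, by rw [up_zero]; exact G.one_mem⟩, ⟨1, h1⟩, fun h =>
        zero_ne_one (congrArg Subtype.val h)⟩⟩
    have h2 := Finite.one_lt_card_iff_nontrivial.mpr hnt
    omega
  by_cases hq : 5 ≤ Nat.card {x : k // up x ∈ G}
  · have := finite_detOne G
    have hsq : ∀ g ∈ detOne G, IsSquare g.val.discr := by
      intro g hg
      obtain ⟨α, β, h⟩ := hsplit g (mem_detOne.mp hg).1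
      exact isSquare_discr_of_split _ α β h
    have hP1 : ∃ x : k, x ≠ 0 ∧ up x ∈ detOne G := ⟨1, one_ne_zero, up_mem_detOne_iff.mpr h1⟩
    have hN1 : ∃ g ∈ detOne G, g 1 0 ≠ 0 := exists_low_detOne G h1 hirr
    have hkl := hK k p hp2 (detOne G) hsq hP1 hN1
    obtain ⟨hmul, htor⟩ := hF k p hp2 (detOne G) (up_mem_detOne_iff.mpr h1) hkl
    refine hC k p hp2 G h1 ?_ ?_ hq ?_ c hc
    · intro x y hx hy
      exact up_mem_detOne_iff.mp (hmul x y (up_mem_detOne_iff.mpr hx) (up_mem_detOne_iff.mpr hy))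
    · intro x hx hx0
      obtain ⟨t, ht, ht10, ht00⟩ := htor x (up_mem_detOne_iff.mpr hx) hx0
      exact ⟨t, (mem_detOne.mp ht).1, ht10, (mem_detOne.mp ht).2, ht00⟩
    · intro h5
      have hp5 : p = 5 := by
        rw [h5] at hn
        have hdvd : p ∣ 5 := by
          rw [hn]
          exact dvd_pow_self p hn0
        exact (Nat.prime_dvd_prime_iff_eq hp (by norm_num)).mp hdvd
      obtain ⟨g, hg, hgd⟩ := hdet5 hp5
      obtain ⟨g', hg', hg'10, hg'det⟩ := exists_upper_det p G h1 g hg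
      exact ⟨g', hg', hg'10, by rw [hg'det]; exact hgd⟩
  · have hlt : p ^ n < 5 := by
      rw [← hn]
      omega
    have hp3 : p = 3 := by
      have hle : p ≤ p ^ n := Nat.le_self_pow hn0 p
      have h2 := hp.two_le
      have h34 : p = 3 ∨ p = 4 := by omega
      rcases h34 with h | h
      · exact h
      · exfalso
        rw [h] at hp
        norm_num at hp
    subst hp3
    have hn1 : n = 1 := by
      by_contra hne
      have h2n : 2 ≤ n := by omega
      have h9 : 3 ^ 2 ≤ 3 ^ n := Nat.pow_le_pow_right (by norm_num) h2n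
      omega
    rw [hn1, pow_one] at hn
    obtain ⟨Y, hY, hY1⟩ := exists_Y_of_three G h1 c hc
    exact ⟨Y, hY, coboundary_on_P_of_card_eq_prime 3 G h1 hn c hc Y hY hY1⟩

/-- **(G.4)** `H¹(G₀, ad⁰ ⊗ det) = 0` from the bricks (G.1), (G.2), (G.3). -/
theorem h1Statement_of_bricks (hK : KleinStatement.{u}) (hF : FieldStatement.{u})
    (hC : CocycleStatement.{u}) : H1Statement.{u} := by
  intro k _ p _ _ hp2 G _ hsplit hirr hdet5 c hc
  by_cases hdvd : p ∣ Nat.card G
  · obtain ⟨g₀, hg₀⟩ := exists_prime_orderOf_dvd_card' p hdvd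
    have hpow : (g₀ : GL (Fin 2) k) ^ p = 1 := by
      have h := pow_orderOf_eq_one g₀
      rw [hg₀] at h
      have := congrArg Subtype.val h
      simpa using this
    have hne : (g₀ : GL (Fin 2) k) ≠ 1 := by
      intro h
      have h' : g₀ = 1 := Subtype.ext h
      rw [h', orderOf_one] at hg₀
      exact (Fact.out : p.Prime).one_lt.ne hg₀
    obtain ⟨A, hA⟩ := exists_conj_eq_up_one p (g₀ : GL (Fin 2) k) hpow hne
    have := finite_conjSub A G
    have h1 : up 1 ∈ conjSub A G := hA ▸ conj_mem_conjSub g₀.2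
    exact h1For_of_conj A G (h1For_of_up hK hF hC p hp2 (conjSub A G) (split_conj A G hsplit)
      (irr_conj A G hirr) (det5_conj p A G hdet5) h1) c hc
  · exact coboundary_of_not_dvd p G hdvd c hc

end Final

end Fermat.Agent.S56.G.H1
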