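/-
S56 brick G, row G.1 (Klein count), part 1: fixed points of elements of `GL (Fin 2) k`
on the projective line `OnePoint k`.  Mathlib only.
-/
import Mathlib

set_option autoImplicit false

namespace Fermat.Agent.S56.G.KleinFix

open Matrix Polynomial OnePoint
open Matrix.GeneralLinearGroup

variable {k : Type*} [Field k]

/-- The discriminant of a `2 × 2` matrix in terms of its entries. -/
theorem discr_eq (g : GL (Fin 2) k) :
    g.1.discr = (g 0 0 - g 1 1) ^ 2 + 4 * (g 0 1 * g 1 0) := by
  rw [discr_fin_two, trace_fin_two, det_fin_two]; ring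

/-- A split characteristic polynomial has a square discriminant. -/
theorem isSquare_discr_of_split (m : Matrix (Fin 2) (Fin 2) k) (α β : k)
    (h : m.charpoly = (X - C α) * (X - C β)) : IsSquare m.discr := by
  have h1 : m.charpoly = X ^ 2 - C m.trace * X + C m.det := Matrix.charpoly_fin_two m
  have h2 : (X - C α) * (X - C β) = X ^ 2 - C (α + β) * X + C (α * β) := by
    simp only [C_add, C_mul]; ring
  rw [h1, h2] at h
  have ht : m.trace = α + β := by
    have := congrArg (fun q : k[X] => q.coeff 1) h
    simp [coeff_X_pow, coeff_C] at this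
    linear_combination -this
  have hdet : m.det = α * β := by
    have := congrArg (fun q : k[X] => q.coeff 0) h
    simpa [coeff_X_pow, coeff_C, coeff_X] using this
  refine ⟨α - β, ?_⟩
  rw [discr_fin_two, ht, hdet]; ring

variable [DecidableEq k]

/-- The fixed points of a parabolic element. -/
theorem fixed_parabolic [NeZero (2 : k)] (g : GL (Fin 2) k) (hg : g.IsParabolic) :
    {c : OnePoint k | g • c = c} = {parabolicFixedPoint g} := by
  ext c
  simp only [Set.mem_ofPred_eq, Set.mem_singleton_iff]
  exact hg.smul_eq_self_iff

/-- A non-scalar, non-parabolic element with square discriminant has exactly two fixed points. -/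
theorem ncard_fixed_of_not_parabolic [NeZero (2 : k)] (g : GL (Fin 2) k)
    (hns : g.1 ∉ Set.range (Matrix.scalar (Fin 2))) (hnp : ¬ g.IsParabolic)
    (hsq : IsSquare g.1.discr) :
    {c : OnePoint k | g • c = c}.ncard = 2 := by
  obtain ⟨s, hs⟩ := hsq
  have hd : g.1.discr ≠ 0 := fun h => hnp ⟨hns, h⟩
  have hs0 : s ≠ 0 := by
    rintro rfl
    exact hd (by simpa using hs)
  have h2 : (2 : k) ≠ 0 := NeZero.ne 2
  by_cases hc : g 1 0 = 0
  · have hda : g 1 1 - g 0 0 ≠ 0 := by
      intro h
      apply hd
      rw [discr_eq, hc]
      have h' : g 0 0 - g 1 1 = 0 := by linear_combination -h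
      rw [h']; ring
    have hset : {c : OnePoint k | g • c = c} =
        {∞, ((g 0 1 / (g 1 1 - g 0 0) : k) : OnePoint k)} := by
      ext c
      cases c with
      | infty => simp [smul_infty_eq_self_iff, hc]
      | coe c =>
        simp only [Set.mem_ofPred_eq, Set.mem_insert_iff, Set.mem_singleton_iff]
        rw [← fixpointPolynomial_aeval_eq_zero_iff]
        simp only [fixpointPolynomial, hc, map_zero, zero_mul, zero_add, map_sub, map_mul,
          aeval_C, aeval_X, Algebra.algebraMap_self_apply, OnePoint.coe_ne_infty, false_or,
          OnePoint.coe_eq_coe]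
        rw [eq_div_iff hda]
        constructor
        · intro h; linear_combination h
        · intro h; linear_combination h
    rw [hset, Set.ncard_pair (OnePoint.infty_ne_coe _)]
  · have hdisc : discrim (g 1 0) (g 1 1 - g 0 0) (-g 0 1) = s * s := by
      rw [discrim, ← hs, discr_eq]; ring
    have hx : (-(g 1 1 - g 0 0) + s) / (2 * g 1 0) ≠ (-(g 1 1 - g 0 0) - s) / (2 * g 1 0) := by
      intro h
      have h2c : (2 : k) * g 1 0 ≠ 0 := mul_ne_zero h2 hc
      rw [div_left_inj' h2c] at h
      apply hs0
      have : 2 * s = 0 := by linear_combination h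
      exact (mul_eq_zero.mp this).resolve_left h2
    have hset : {c : OnePoint k | g • c = c} =
        {(((-(g 1 1 - g 0 0) + s) / (2 * g 1 0) : k) : OnePoint k),
          (((-(g 1 1 - g 0 0) - s) / (2 * g 1 0) : k) : OnePoint k)} := by
      ext c
      cases c with
      | infty => simp [smul_infty_eq_self_iff, hc]
      | coe c =>
        simp only [Set.mem_ofPred_eq, Set.mem_insert_iff, Set.mem_singleton_iff,
          OnePoint.coe_eq_coe]
        rw [← fixpointPolynomial_aeval_eq_zero_iff, ← quadratic_eq_zero_iff hc hdisc c]
        simp only [fixpointPolynomial, map_sub, map_mul, map_add, aeval_C, aeval_X,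
          Algebra.algebraMap_self_apply, aeval_X_pow]
        constructor
        · intro h; linear_combination h
        · intro h; linear_combination h
    rw [hset, Set.ncard_pair (by simpa using hx)]

/-- The fixed point set of a non-scalar element with square discriminant is finite. -/
theorem finite_fixed [NeZero (2 : k)] (g : GL (Fin 2) k)
    (hns : g.1 ∉ Set.range (Matrix.scalar (Fin 2))) (hsq : IsSquare g.1.discr) :
    {c : OnePoint k | g • c = c}.Finite := by
  by_cases hp : g.IsParabolic
  · rw [fixed_parabolic g hp]; exact Set.finite_singleton _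
  · exact Set.finite_of_ncard_ne_zero (by rw [ncard_fixed_of_not_parabolic g hns hp hsq]; norm_num)

/-- The number of fixed points of a non-scalar element with square discriminant, weighted:
`2` for a parabolic element (one fixed point), `1` otherwise (two fixed points). -/
theorem weight_mul_ncard_fixed [NeZero (2 : k)] (g : GL (Fin 2) k) [Decidable g.IsParabolic]
    (hns : g.1 ∉ Set.range (Matrix.scalar (Fin 2))) (hsq : IsSquare g.1.discr) :
    (if g.IsParabolic then 2 else 1) * {c : OnePoint k | g • c = c}.ncard = 2 := by
  by_cases hp : g.IsParabolic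
  · rw [if_pos hp, fixed_parabolic g hp, Set.ncard_singleton]
  · rw [if_neg hp, ncard_fixed_of_not_parabolic g hns hp hsq]

end Fermat.Agent.S56.G.KleinFix
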