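/-
S56 brick G, row G.1 (Klein count), part 2: abstract orbit counting for a finite group action,
and the final numerics.  Mathlib only.
-/
import Mathlib

set_option autoImplicit false

namespace Fermat.Agent.S56.G.KleinOrbit

open MulAction

section Orbit

variable {G X : Type*} [Group G] [MulAction G X]

/-- Orbit-stabiliser in `Set.ncard` / `Nat.card` form. -/
theorem ncard_orbit_mul_card_stabilizer (x : X) :
    (orbit G x).ncard * Nat.card (stabilizer G x) = Nat.card G := by
  rw [← index_stabilizer, mul_comm]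
  exact Subgroup.card_mul_index _

theorem finite_orbit [Finite G] (x : X) : (orbit G x).Finite := Set.finite_range _

theorem smul_mem_orbit_iff (g : G) (x y : X) : g • y ∈ orbit G x ↔ y ∈ orbit G x := by
  rw [← orbit_eq_iff, orbit_smul, orbit_eq_iff]

/-- A finite group acting freely on a finite stable set: the order divides the cardinality. -/
theorem card_dvd_ncard_of_free [Finite G] (S : Set X) (hS : S.Finite)
    (hstab : ∀ g : G, ∀ x ∈ S, g • x ∈ S) (hfree : ∀ x ∈ S, ∀ g : G, g • x = x → g = 1) :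
    Nat.card G ∣ S.ncard := by
  induction' h : S.ncard using Nat.strong_induction_on with m ih generalizing S
  by_cases hne : S = ∅
  · subst hne
    rw [← h, Set.ncard_empty]
    exact dvd_zero _
  · obtain ⟨x, hx⟩ := Set.nonempty_iff_ne_empty.mpr hne
    have hO : orbit G x ⊆ S := by
      rintro _ ⟨g, rfl⟩
      exact hstab g x hx
    have hbot : stabilizer G x = ⊥ := by
      rw [Subgroup.eq_bot_iff_forall]
      intro g hg
      exact hfree x hx g hg
    have hcard : (orbit G x).ncard = Nat.card G := by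
      rw [← index_stabilizer, hbot, Subgroup.index_bot]
    have hsplit : (S \ orbit G x).ncard + (orbit G x).ncard = S.ncard :=
      Set.ncard_sdiff_add_ncard_of_subset hO hS
    have hpos : 0 < Nat.card G := Nat.card_pos
    have hlt : (S \ orbit G x).ncard < m := by omega
    have h' := ih _ hlt (S \ orbit G x) (hS.subset Set.sdiff_subset)
      (fun g y hy => ⟨hstab g y hy.1, fun hgy => hy.2 ((smul_mem_orbit_iff g x y).mp hgy)⟩)
      (fun y hy g hg => hfree y hy.1 g hg) rfl
    rw [← h, ← hsplit, hcard]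
    exact Dvd.dvd.add h' dvd_rfl

theorem sum_orbit [Finite G] (c : X → ℕ) (hc : ∀ (g : G) (x : X), c (g • x) = c x) (x : X) :
    ∑ y ∈ (finite_orbit (G := G) x).toFinset, c y = (orbit G x).ncard * c x := by
  rw [Set.ncard_eq_toFinset_card _ (finite_orbit x), ← smul_eq_mul, ← Finset.sum_const]
  refine Finset.sum_congr rfl fun y hy => ?_
  rw [Set.Finite.mem_toFinset] at hy
  obtain ⟨g, rfl⟩ := hy
  exact hc g x

theorem two_mul_sum_orbit_ge [Finite G] (c : X → ℕ) (hc : ∀ (g : G) (x : X), c (g • x) = c x)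
    (x : X) (h2 : Nat.card (stabilizer G x) ≤ 2 * c x) :
    Nat.card G ≤ 2 * ∑ y ∈ (finite_orbit (G := G) x).toFinset, c y := by
  rw [sum_orbit c hc x, ← ncard_orbit_mul_card_stabilizer x]
  calc (orbit G x).ncard * Nat.card (stabilizer G x) ≤ (orbit G x).ncard * (2 * c x) :=
        Nat.mul_le_mul_left _ h2
    _ = 2 * ((orbit G x).ncard * c x) := by ring

theorem orbit_toFinset_subset [Finite G] (pts : Finset X)
    (hpts : ∀ g : G, ∀ x ∈ pts, g • x ∈ pts) (x : X) (hx : x ∈ pts) :
    (finite_orbit (G := G) x).toFinset ⊆ pts := by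
  intro y hy
  rw [Set.Finite.mem_toFinset] at hy
  obtain ⟨g, rfl⟩ := hy
  exact hpts g x hx

theorem orbit_toFinset_disjoint [Finite G] (x y : X) (h : y ∉ orbit G x) :
    Disjoint (finite_orbit (G := G) x).toFinset (finite_orbit (G := G) y).toFinset := by
  rw [Finset.disjoint_left]
  intro z hzx hzy
  rw [Set.Finite.mem_toFinset] at hzx hzy
  apply h
  rw [← orbit_eq_iff] at hzx hzy ⊢
  rw [← hzy, hzx]

/-- The orbit-counting step of Klein's argument: if the total of an invariant weight over a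
finite stable set exceeds the contribution of one orbit by a positive amount less than `|G|`,
and every orbit contributes at least `|G| / 2`, then there is exactly one further orbit. -/
theorem exists_second_orbit [DecidableEq X] [Finite G] (pts : Finset X)
    (hpts : ∀ g : G, ∀ x ∈ pts, g • x ∈ pts)
    (c : X → ℕ) (hc : ∀ (g : G) (x : X), c (g • x) = c x)
    (h2 : ∀ x ∈ pts, Nat.card (stabilizer G x) ≤ 2 * c x)
    (x0 : X) (hx0 : x0 ∈ pts)
    (hlo : (orbit G x0).ncard * c x0 < ∑ x ∈ pts, c x)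
    (hhi : ∑ x ∈ pts, c x < (orbit G x0).ncard * c x0 + Nat.card G) :
    ∃ x1 ∈ pts, x1 ∉ orbit G x0 ∧
      ∑ x ∈ pts, c x = (orbit G x0).ncard * c x0 + (orbit G x1).ncard * c x1 := by
  set O : X → Finset X := fun x => (finite_orbit (G := G) x).toFinset with hO
  have hsub : ∀ x ∈ pts, O x ⊆ pts := fun x hx => orbit_toFinset_subset pts hpts x hx
  have hsum : ∀ x, ∑ y ∈ O x, c y = (orbit G x).ncard * c x := fun x => sum_orbit c hc x
  -- a point outside the first orbit
  have hex : ∃ x1 ∈ pts, x1 ∉ orbit G x0 := by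
    by_contra hcon
    have hcon : ∀ x1 ∈ pts, x1 ∈ orbit G x0 := by
      intro x1 hx1
      by_contra hx1O
      exact hcon ⟨x1, hx1, hx1O⟩
    have hEq : pts = O x0 := by
      apply Finset.Subset.antisymm
      · intro y hy
        rw [hO, Set.Finite.mem_toFinset]
        exact hcon y hy
      · exact hsub x0 hx0
    rw [hEq, hsum x0] at hlo
    exact lt_irrefl _ hlo
  obtain ⟨x1, hx1, hx1O⟩ := hex
  have hdisj : Disjoint (O x0) (O x1) := orbit_toFinset_disjoint x0 x1 hx1O
  have hunion : O x0 ∪ O x1 ⊆ pts := Finset.union_subset (hsub x0 hx0) (hsub x1 hx1)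
  have hsumU : ∑ y ∈ O x0 ∪ O x1, c y = (orbit G x0).ncard * c x0 + (orbit G x1).ncard * c x1 := by
    rw [Finset.sum_union hdisj, hsum, hsum]
  refine ⟨x1, hx1, hx1O, ?_⟩
  by_cases hall : pts ⊆ O x0 ∪ O x1
  · rw [Finset.Subset.antisymm hall hunion, hsumU]
  · exfalso
    rw [Finset.not_subset] at hall
    obtain ⟨x2, hx2, hx2U⟩ := hall
    rw [Finset.mem_union, not_or] at hx2U
    have hx2O0 : x2 ∉ orbit G x0 := fun h => hx2U.1 (by rw [hO, Set.Finite.mem_toFinset]; exact h)
    have hx2O1 : x2 ∉ orbit G x1 := fun h => hx2U.2 (by rw [hO, Set.Finite.mem_toFinset]; exact h)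
    have hdisj2 : Disjoint (O x0 ∪ O x1) (O x2) := by
      rw [Finset.disjoint_union_left]
      exact ⟨orbit_toFinset_disjoint x0 x2 hx2O0, orbit_toFinset_disjoint x1 x2 hx2O1⟩
    have hunion2 : (O x0 ∪ O x1) ∪ O x2 ⊆ pts := Finset.union_subset hunion (hsub x2 hx2)
    have hge : ∑ y ∈ (O x0 ∪ O x1) ∪ O x2, c y ≤ ∑ y ∈ pts, c y :=
      Finset.sum_le_sum_of_subset hunion2
    rw [Finset.sum_union hdisj2, Finset.sum_union hdisj, hsum x0] at hge
    have h1 : Nat.card G ≤ 2 * ∑ y ∈ O x1, c y := two_mul_sum_orbit_ge c hc x1 (h2 x1 hx1)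
    have h2' : Nat.card G ≤ 2 * ∑ y ∈ O x2, c y := two_mul_sum_orbit_ge c hc x2 (h2 x2 hx2)
    omega

end Orbit

/-- The final numerics of the Klein count. -/
theorem numerics (N q δ s m : ℕ) (hq : 2 ≤ q) (hm : 1 ≤ m) (hN : N = 1 + m * q) (hδ : 1 ≤ δ)
    (h : N * q * δ = (2 + N * (q - 2)) * s) : q ≤ 2 * δ + 1 := by
  obtain ⟨r, rfl⟩ : ∃ r, q = r + 2 := ⟨q - 2, by omega⟩
  simp only [Nat.add_sub_cancel] at h
  subst hN
  have hfac : 2 + (1 + m * (r + 2)) * r = (r + 2) * (1 + m * r) := by ring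
  rw [hfac] at h
  have h' : (1 + m * (r + 2)) * δ = (1 + m * r) * s := by
    have : (r + 2) * ((1 + m * (r + 2)) * δ) = (r + 2) * ((1 + m * r) * s) := by
      calc (r + 2) * ((1 + m * (r + 2)) * δ) = (1 + m * (r + 2)) * (r + 2) * δ := by ring
        _ = (r + 2) * (1 + m * r) * s := h
        _ = (r + 2) * ((1 + m * r) * s) := by ring
    exact Nat.eq_of_mul_eq_mul_left (Nat.succ_pos _) this
  by_contra hcon
  have hr : 2 * δ ≤ r := by omega
  have h4 : m * (2 * δ) ≤ m * r := Nat.mul_le_mul_left _ hr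
  rcases Nat.lt_or_ge δ s with hs | hs
  · have h1 : (1 + m * r) * (δ + 1) ≤ (1 + m * r) * s := Nat.mul_le_mul_left _ hs
    have h3 : (1 + m * r) * (δ + 1) ≤ (1 + m * (r + 2)) * δ := by rw [h']; exact h1
    nlinarith
  · have h1 : (1 + m * r) * s ≤ (1 + m * r) * δ := Nat.mul_le_mul_left _ hs
    have h2 : (1 + m * r) * δ < (1 + m * (r + 2)) * δ := by
      apply Nat.mul_lt_mul_of_pos_right _ hδ
      nlinarith
    omega

end Fermat.Agent.S56.G.KleinOrbit
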