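/-
S56 brick G, row G.1 (Klein count), part 3: the structure of a finite subgroup of
`GL (Fin 2) k` (char `p`) at the point `∞`: the elements `[[a, y], [0, a]]` are exactly the
products `scalar * unipotent` inside the subgroup.  Mathlib only.
-/
import Mathlib

set_option autoImplicit false

namespace Fermat.Agent.S56.G.KleinUpper

open Matrix
open Matrix.GeneralLinearGroup

variable {k : Type*} [Field k]

/-- Powers of `[[a, y], [0, a]]`. -/
theorem pow_upper (a y : k) (ha : a ≠ 0) (j : ℕ) :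
    (!![a, y; 0, a] : Matrix (Fin 2) (Fin 2) k) ^ j =
      !![a ^ j, j * a ^ j * a⁻¹ * y; 0, a ^ j] := by
  induction j with
  | zero => simp [Matrix.one_fin_two]
  | succ j ih =>
    rw [pow_succ, ih, Matrix.mul_fin_two]
    ext i l
    fin_cases i <;> fin_cases l <;> simp [pow_succ]
    field_simp
    ring

theorem val_eq_of_upper (g : GL (Fin 2) k) (h10 : g 1 0 = 0) (hd : g 0 0 = g 1 1) :
    g.1 = !![g 0 0, g 0 1; 0, g 0 0] := by
  ext i l
  fin_cases i <;> fin_cases l <;> simp [h10, hd]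

theorem diag_ne_zero_of_upper (g : GL (Fin 2) k) (h10 : g 1 0 = 0) (hd : g 0 0 = g 1 1) :
    g 0 0 ≠ 0 := by
  intro h
  have hdet := g.det_ne_zero
  rw [Matrix.det_fin_two, h10, ← hd, h] at hdet
  simp at hdet

theorem upperRightHom_val (x : k) : (upperRightHom x).1 = !![1, x; 0, 1] := rfl

/-- In a finite subgroup of `GL (Fin 2) k`, `char k = p`, the unipotent part of an element
`[[a, y], [0, a]]` lies in the subgroup. -/
theorem upper_mem (p : ℕ) [Fact p.Prime] [CharP k p] (G0 : Subgroup (GL (Fin 2) k)) [Finite G0]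
    (g : GL (Fin 2) k) (hg : g ∈ G0) (h10 : g 1 0 = 0) (hd : g 0 0 = g 1 1) :
    upperRightHom (g 0 1 / g 0 0) ∈ G0 := by
  have hp : p.Prime := Fact.out
  set a := g 0 0 with ha_def
  set y := g 0 1 with hy_def
  have ha : a ≠ 0 := diag_ne_zero_of_upper g h10 hd
  have hval : g.1 = !![a, y; 0, a] := val_eq_of_upper g h10 hd
  have hpow : ∀ j : ℕ, (g ^ j).1 = !![a ^ j, j * a ^ j * a⁻¹ * y; 0, a ^ j] := by
    intro j
    rw [Units.val_pow_eq_pow_val, hval, pow_upper a y ha]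
  -- `g ^ |G0| = 1`
  have hn : g ^ Nat.card G0 = 1 := by
    have h1 : (⟨g, hg⟩ : G0) ^ Nat.card G0 = 1 := pow_card_eq_one'
    have h2 : (((⟨g, hg⟩ : G0) ^ Nat.card G0 : G0) : GL (Fin 2) k) = ((1 : G0) : GL (Fin 2) k) :=
      congrArg Subtype.val h1
    rwa [SubmonoidClass.coe_pow, Subgroup.coe_one] at h2
  have han : a ^ Nat.card G0 = 1 := by
    have h1 := hpow (Nat.card G0)
    rw [hn] at h1
    have h2 := congrFun (congrFun h1 0) 0
    simpa using h2.symm
  obtain ⟨r, n', hnd, hnn⟩ :=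
    Nat.exists_eq_pow_mul_and_not_dvd (n := Nat.card G0) Nat.card_pos.ne' p hp.ne_one
  have han' : a ^ n' = 1 := by
    have h1 : (a ^ n' - 1) ^ p ^ r = 0 := by
      rw [sub_pow_char_pow, one_pow, ← pow_mul, mul_comm, ← hnn, han, sub_self]
    exact sub_eq_zero.mp (pow_eq_zero_iff (pow_ne_zero _ hp.ne_zero) |>.mp h1)
  -- `g ^ n'` is unipotent
  have hgn' : g ^ n' = upperRightHom ((n' : k) * a⁻¹ * y) := by
    apply Units.ext
    rw [hpow n', han', upperRightHom_val, mul_one]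
  have hmem1 : upperRightHom ((n' : k) * a⁻¹ * y) ∈ G0 := hgn' ▸ G0.pow_mem hg n'
  -- invert `n'` modulo `p`
  have hcop : Nat.Coprime n' p := (Nat.Prime.coprime_iff_not_dvd hp).mpr hnd |>.symm
  obtain ⟨j, -, hj⟩ := Nat.exists_mul_mod_eq_one_of_coprime hcop hp.one_lt
  have hcast : ((n' * j : ℕ) : k) = 1 := by
    rw [CharP.natCast_eq_natCast_mod k p, hj, Nat.cast_one]
  have hfin : upperRightHom (g 0 1 / g 0 0) = upperRightHom ((n' : k) * a⁻¹ * y) ^ j := by
    rw [← AddChar.map_nsmul_eq_pow]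
    congr 1
    rw [nsmul_eq_mul, ← mul_assoc, ← mul_assoc, ← Nat.cast_mul, mul_comm j n', hcast, one_mul,
      div_eq_inv_mul]
  rw [hfin]
  exact G0.pow_mem hmem1 j

/-- In a finite subgroup of `GL (Fin 2) k`, `char k = p`, the scalar part of an element
`[[a, y], [0, a]]` lies in the subgroup. -/
theorem scalar_mem (p : ℕ) [Fact p.Prime] [CharP k p] (G0 : Subgroup (GL (Fin 2) k)) [Finite G0]
    (g : GL (Fin 2) k) (hg : g ∈ G0) (h10 : g 1 0 = 0) (hd : g 0 0 = g 1 1) :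
    ∃ z ∈ G0, z.1 = Matrix.scalar (Fin 2) (g 0 0) ∧ z * upperRightHom (g 0 1 / g 0 0) = g := by
  have hu := upper_mem p G0 g hg h10 hd
  have ha : g 0 0 ≠ 0 := diag_ne_zero_of_upper g h10 hd
  refine ⟨g * (upperRightHom (g 0 1 / g 0 0))⁻¹, G0.mul_mem hg (G0.inv_mem hu), ?_, by group⟩
  rw [← AddChar.map_neg_eq_inv, Units.val_mul, val_eq_of_upper g h10 hd, upperRightHom_val,
    Matrix.mul_fin_two]
  ext i l
  fin_cases i <;> fin_cases l <;> simp [Matrix.scalar_apply]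
  field_simp
  ring

theorem scalar_iff_of_upper (g : GL (Fin 2) k) (h10 : g 1 0 = 0) :
    g.1 ∈ Set.range (Matrix.scalar (Fin 2)) ↔ g 0 0 = g 1 1 ∧ g 0 1 = 0 := by
  constructor
  · rintro ⟨a, ha⟩
    have h00 := congrFun (congrFun ha 0) 0
    have h11 := congrFun (congrFun ha 1) 1
    have h01 := congrFun (congrFun ha 0) 1
    simp [Matrix.scalar_apply] at h00 h11 h01
    exact ⟨by rw [← h00, ← h11], h01.symm⟩
  · rintro ⟨hd, h01⟩
    refine ⟨g 0 0, ?_⟩
    ext i l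
    fin_cases i <;> fin_cases l <;> simp [Matrix.scalar_apply, h10, hd, h01]

theorem scalar_apply_10 (g : GL (Fin 2) k) (h : g.1 ∈ Set.range (Matrix.scalar (Fin 2))) :
    g 1 0 = 0 := by
  obtain ⟨a, ha⟩ := h
  have h10 := congrFun (congrFun ha 1) 0
  simp [Matrix.scalar_apply] at h10
  exact h10.symm

/-- `|K| = e * q'`: the elements `[[a, y], [0, a]]` of the subgroup are in bijection with
pairs (scalar element, unipotent upper triangular element). -/
theorem card_upper_eq (p : ℕ) [Fact p.Prime] [CharP k p] (G0 : Subgroup (GL (Fin 2) k))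
    [Finite G0] :
    Nat.card {g : GL (Fin 2) k // g ∈ G0 ∧ g 1 0 = 0 ∧ g 0 0 = g 1 1} =
      Nat.card {g : GL (Fin 2) k // g ∈ G0 ∧ g.1 ∈ Set.range (Matrix.scalar (Fin 2))} *
        Nat.card {x : k // upperRightHom x ∈ G0} := by
  rw [← Nat.card_prod]
  symm
  have hmap : ∀ zx : {g : GL (Fin 2) k // g ∈ G0 ∧ g.1 ∈ Set.range (Matrix.scalar (Fin 2))} ×
      {x : k // upperRightHom x ∈ G0},
      zx.1.1 * upperRightHom zx.2.1 ∈ G0 ∧ (zx.1.1 * upperRightHom zx.2.1) 1 0 = 0 ∧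
        (zx.1.1 * upperRightHom zx.2.1) 0 0 = (zx.1.1 * upperRightHom zx.2.1) 1 1 := by
    rintro ⟨⟨z, hz, hzs⟩, ⟨x, hx⟩⟩
    refine ⟨G0.mul_mem hz hx, ?_, ?_⟩
    · have h10 := scalar_apply_10 z hzs
      have := (scalar_iff_of_upper z h10).mp hzs
      simp [Units.val_mul, Matrix.mul_apply, Fin.sum_univ_two, h10]
    · have h10 := scalar_apply_10 z hzs
      have := (scalar_iff_of_upper z h10).mp hzs
      simp [Units.val_mul, Matrix.mul_apply, Fin.sum_univ_two, h10, this.1]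
  refine Nat.card_congr (Equiv.ofBijective (fun zx => ⟨zx.1.1 * upperRightHom zx.2.1, hmap zx⟩)
    ⟨?_, ?_⟩)
  · rintro ⟨⟨z, hz, hzs⟩, ⟨x, hx⟩⟩ ⟨⟨z', hz', hzs'⟩, ⟨x', hx'⟩⟩ h
    simp only [Subtype.mk.injEq] at h
    have h10 := scalar_apply_10 z hzs
    have h10' := scalar_apply_10 z' hzs'
    have hs := (scalar_iff_of_upper z h10).mp hzs
    have hs' := (scalar_iff_of_upper z' h10').mp hzs'
    have hz0 : z 0 0 ≠ 0 := diag_ne_zero_of_upper z h10 hs.1
    have h00 := congrArg (fun m : GL (Fin 2) k => m 0 0) h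
    have h01 := congrArg (fun m : GL (Fin 2) k => m 0 1) h
    simp [Units.val_mul, Matrix.mul_apply, Fin.sum_univ_two, hs.2, hs'.2] at h00 h01
    have hxx : x = x' := by
      rw [← h00] at h01
      exact mul_left_cancel₀ hz0 h01
    subst hxx
    have hzz : z = z' := mul_right_cancel h
    subst hzz
    rfl
  · rintro ⟨g, hg, h10, hd⟩
    obtain ⟨z, hz, hzs, hzg⟩ := scalar_mem p G0 g hg h10 hd
    exact ⟨⟨⟨z, hz, ⟨_, hzs.symm⟩⟩, ⟨g 0 1 / g 0 0, upper_mem p G0 g hg h10 hd⟩⟩,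
      Subtype.ext hzg⟩

end Fermat.Agent.S56.G.KleinUpper
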