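/-
S56 brick G, row G.1 (Klein count), part 4: the weighted fixed-point count for a finite
subgroup of `GL (Fin 2) k` acting on `OnePoint k`.
-/
import Fermat.Agent.S56.G.KleinFix
import Fermat.Agent.S56.G.KleinOrbit
import Fermat.Agent.S56.G.KleinUpper

set_option autoImplicit false
set_option linter.unusedSectionVars false

namespace Fermat.Agent.S56.G.KleinCount

open Matrix OnePoint MulAction
open Matrix.GeneralLinearGroup

open scoped Classical

variable {k : Type*} [Field k]

/-- Scalar elements. -/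
def Sc (g : GL (Fin 2) k) : Prop := g.1 ∈ Set.range (Matrix.scalar (Fin 2))

theorem sc_iff_mem_center (g : GL (Fin 2) k) : Sc g ↔ g ∈ Subgroup.center (GL (Fin 2) k) :=
  mem_center_iff_val_mem_range_scalar.symm

theorem sc_conj (h g : GL (Fin 2) k) : Sc (h * g * h⁻¹) ↔ Sc g := by
  rw [sc_iff_mem_center, sc_iff_mem_center]
  constructor
  · intro hc
    have := (Subgroup.center (GL (Fin 2) k)).normal_of_characteristic.conj_mem _ hc h⁻¹
    simpa [mul_assoc] using this
  · intro hc
    exact (Subgroup.center (GL (Fin 2) k)).normal_of_characteristic.conj_mem _ hc h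

theorem not_parabolic_of_sc (g : GL (Fin 2) k) (h : Sc g) : ¬ g.IsParabolic := fun hp => hp.1 h

/-- Scalar elements act trivially on the projective line. -/
theorem sc_smul [DecidableEq k] (g : GL (Fin 2) k) (h : Sc g) (x : OnePoint k) : g • x = x := by
  have h10 := KleinUpper.scalar_apply_10 g h
  have hs := (KleinUpper.scalar_iff_of_upper g h10).mp h
  have h0 : g 0 0 ≠ 0 := KleinUpper.diag_ne_zero_of_upper g h10 hs.1
  cases x with
  | infty => exact smul_infty_eq_self_iff.mpr h10
  | coe c =>
    rw [smul_some_eq_ite, h10, hs.2, ← hs.1]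
    simp [h0]

/-- A scalar multiple of a parabolic element is parabolic. -/
theorem parabolic_sc_mul [NeZero (2 : k)] (z g : GL (Fin 2) k) (hz : Sc z)
    (hg : g.IsParabolic) : (z * g).IsParabolic := by
  have h10 := KleinUpper.scalar_apply_10 z hz
  have hs := (KleinUpper.scalar_iff_of_upper z h10).mp hz
  have h0 : z 0 0 ≠ 0 := KleinUpper.diag_ne_zero_of_upper z h10 hs.1
  obtain ⟨a, ha⟩ := hz
  have ha0 : a = z 0 0 := by
    have := congrFun (congrFun ha 0) 0
    simpa [Matrix.scalar_apply] using this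
  have hg' := hg
  rw [GeneralLinearGroup.IsParabolic, isParabolic_iff_exists] at hg' ⊢
  obtain ⟨b, n, hgn, hn0, hn2⟩ := hg'
  refine ⟨a * b, a • n, ?_, ?_, ?_⟩
  · rw [Units.val_mul, ← ha, hgn, mul_add, ← map_mul]
    congr 1
    rw [Matrix.scalar_apply, ← Matrix.smul_eq_diagonal_mul]
  · intro h
    apply hn0
    have := congrArg (fun m => a⁻¹ • m) h
    simpa [smul_smul, inv_mul_cancel₀ (ha0 ▸ h0)] using this
  · rw [smul_pow, hn2, smul_zero]

/-- The weight: `0` for scalars, `2` for parabolic elements, `1` otherwise. -/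
noncomputable def wt (g : GL (Fin 2) k) : ℕ :=
  (if Sc g then 0 else 1) + (if g.IsParabolic then 1 else 0)

theorem wt_conj (h g : GL (Fin 2) k) : wt (h * g * h⁻¹) = wt g := by
  unfold wt
  rw [if_congr (sc_conj h g) rfl rfl,
    if_congr (GeneralLinearGroup.isParabolic_conj_iff h g) rfl rfl]

theorem wt_of_sc (g : GL (Fin 2) k) (h : Sc g) : wt g = 0 := by
  unfold wt
  rw [if_pos h, if_neg (not_parabolic_of_sc g h)]

theorem wt_of_not_sc (g : GL (Fin 2) k) (h : ¬ Sc g) :
    wt g = if g.IsParabolic then 2 else 1 := by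
  unfold wt
  rw [if_neg h]
  split_ifs <;> rfl

section Count

variable [DecidableEq k] (G0 : Subgroup (GL (Fin 2) k)) [Fintype G0]

/-- The weighted size of the stabiliser of a point. -/
noncomputable def cw (x : OnePoint k) : ℕ :=
  ∑ g : G0, if g • x = x then wt (g : GL (Fin 2) k) else 0

theorem cw_smul (h : G0) (x : OnePoint k) : cw G0 (h • x) = cw G0 x := by
  unfold cw
  rw [← Equiv.sum_comp (MulAut.conj h).toEquiv]
  refine Finset.sum_congr rfl fun g _ => ?_
  have h1 : ((MulAut.conj h).toEquiv g) • (h • x) = h • x ↔ g • x = x := by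
    simp only [MulEquiv.toEquiv_eq_coe, EquivLike.coe_coe, MulAut.conj_apply]
    rw [smul_smul, inv_mul_cancel_right, mul_smul]
    exact smul_left_cancel_iff h
  have h2 : wt (((MulAut.conj h).toEquiv g : G0) : GL (Fin 2) k) = wt (g : GL (Fin 2) k) := by
    simp only [MulEquiv.toEquiv_eq_coe, EquivLike.coe_coe, MulAut.conj_apply, Subgroup.coe_mul,
      Subgroup.coe_inv]
    exact wt_conj _ _
  rw [h2]
  exact if_congr h1 rfl rfl

/-- The set of points fixed by some non-scalar element of the subgroup. -/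
def ptsSet : Set (OnePoint k) := {x | ∃ g : G0, ¬ Sc (g : GL (Fin 2) k) ∧ g • x = x}

theorem ptsSet_finite [NeZero (2 : k)] (hsq : ∀ g ∈ G0, IsSquare g.1.discr) :
    (ptsSet G0).Finite := by
  have h : ptsSet G0 ⊆ ⋃ g : {g : G0 // ¬ Sc (g : GL (Fin 2) k)},
      {x : OnePoint k | (g.1 : GL (Fin 2) k) • x = x} := by
    rintro x ⟨g, hg, hgx⟩
    exact Set.mem_iUnion.mpr ⟨⟨g, hg⟩, hgx⟩
  exact (Set.finite_iUnion fun g : {g : G0 // ¬ Sc (g : GL (Fin 2) k)} =>
    KleinFix.finite_fixed (g.1 : GL (Fin 2) k) g.2 (hsq _ g.1.2)).subset h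

theorem smul_mem_ptsSet (h : G0) (x : OnePoint k) (hx : x ∈ ptsSet G0) : h • x ∈ ptsSet G0 := by
  obtain ⟨g, hg, hgx⟩ := hx
  refine ⟨h * g * h⁻¹, ?_, ?_⟩
  · rw [Subgroup.coe_mul, Subgroup.coe_mul, Subgroup.coe_inv, sc_conj]
    exact hg
  · rw [mul_smul, mul_smul, inv_smul_smul, hgx]

/-- The number of scalar elements. -/
noncomputable def eCard : ℕ := (Finset.univ.filter (fun g : G0 => Sc (g : GL (Fin 2) k))).card

/-- The order of the stabiliser of a point. -/
noncomputable def bCard (x : OnePoint k) : ℕ := (Finset.univ.filter (fun g : G0 => g • x = x)).card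

/-- The number of parabolic elements fixing a point. -/
noncomputable def kCard (x : OnePoint k) : ℕ :=
  (Finset.univ.filter (fun g : G0 => (g : GL (Fin 2) k).IsParabolic ∧ g • x = x)).card

/-- The weighted double count: the total weight is `2 (n - e)`. -/
theorem sum_cw [NeZero (2 : k)] (hsq : ∀ g ∈ G0, IsSquare g.1.discr) (pts : Finset (OnePoint k))
    (hpts : ∀ x, x ∈ pts ↔ x ∈ ptsSet G0) :
    ∑ x ∈ pts, cw G0 x + 2 * eCard G0 = 2 * Fintype.card G0 := by
  unfold cw eCard
  rw [Finset.sum_comm]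
  have key : ∀ g : G0, ∑ x ∈ pts, (if g • x = x then wt (g : GL (Fin 2) k) else 0) =
      if Sc (g : GL (Fin 2) k) then 0 else 2 := by
    intro g
    by_cases hs : Sc (g : GL (Fin 2) k)
    · rw [if_pos hs, wt_of_sc _ hs]
      simp
    · rw [if_neg hs, ← Finset.sum_filter, Finset.sum_const, smul_eq_mul]
      have hfilter : (pts.filter fun x => g • x = x) =
          (KleinFix.finite_fixed (g : GL (Fin 2) k) hs (hsq _ g.2)).toFinset := by
        ext x
        rw [Finset.mem_filter, Set.Finite.mem_toFinset, hpts]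
        constructor
        · exact fun h => h.2
        · exact fun h => ⟨⟨g, hs, h⟩, h⟩
      rw [hfilter, ← Set.ncard_eq_toFinset_card _
        (KleinFix.finite_fixed (g : GL (Fin 2) k) hs (hsq _ g.2)), wt_of_not_sc _ hs, mul_comm]
      exact KleinFix.weight_mul_ncard_fixed _ hs (hsq _ g.2)
  rw [Finset.sum_congr rfl (fun g _ => key g), Finset.sum_ite, Finset.sum_const_zero, zero_add,
    Finset.sum_const, smul_eq_mul]
  have := Finset.card_filter_add_card_filter_not (s := (Finset.univ : Finset G0))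
    (fun g : G0 => Sc (g : GL (Fin 2) k))
  rw [Finset.card_univ] at this
  omega

/-- The weighted stabiliser size: `c + e = b + κ`. -/
theorem cw_add (x : OnePoint k) : cw G0 x + eCard G0 = bCard G0 x + kCard G0 x := by
  unfold cw wt eCard bCard kCard
  have h1 : ∀ g : G0, (if g • x = x then ((if Sc (g : GL (Fin 2) k) then 0 else 1) +
      (if (g : GL (Fin 2) k).IsParabolic then 1 else 0)) else 0) =
      (if (g • x = x ∧ ¬ Sc (g : GL (Fin 2) k)) then 1 else 0) +
        (if ((g : GL (Fin 2) k).IsParabolic ∧ g • x = x) then 1 else 0) := by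
    intro g
    by_cases hf : g • x = x <;> by_cases hs : Sc (g : GL (Fin 2) k) <;>
      by_cases hp : (g : GL (Fin 2) k).IsParabolic <;> simp [hf, hs, hp]
  rw [Finset.sum_congr rfl (fun g _ => h1 g), Finset.sum_add_distrib, Finset.sum_boole,
    Finset.sum_boole]
  have h2 : (Finset.univ.filter (fun g : G0 => g • x = x ∧ ¬ Sc (g : GL (Fin 2) k))).card +
      (Finset.univ.filter (fun g : G0 => Sc (g : GL (Fin 2) k))).card =
      (Finset.univ.filter (fun g : G0 => g • x = x)).card := by
    have := Finset.card_filter_add_card_filter_not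
      (s := Finset.univ.filter (fun g : G0 => g • x = x)) (fun g : G0 => Sc (g : GL (Fin 2) k))
    rw [Finset.filter_filter, Finset.filter_filter] at this
    have h3 : (Finset.univ.filter (fun g : G0 => g • x = x ∧ Sc (g : GL (Fin 2) k))) =
        Finset.univ.filter (fun g : G0 => Sc (g : GL (Fin 2) k)) := by
      ext g
      simp only [Finset.mem_filter, Finset.mem_univ, true_and]
      exact ⟨fun h => h.2, fun h => ⟨sc_smul _ h x, h⟩⟩
    rw [h3] at this
    omega
  simp only [Nat.cast_id]
  omega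

/-- Either no parabolic element fixes `x`, or at least `e` of them do. -/
theorem kCard_zero_or_ge [NeZero (2 : k)] (x : OnePoint k) :
    kCard G0 x = 0 ∨ eCard G0 ≤ kCard G0 x := by
  unfold kCard eCard
  by_cases hne : (Finset.univ.filter
      (fun g : G0 => (g : GL (Fin 2) k).IsParabolic ∧ g • x = x)) = ∅
  · left
    rw [hne, Finset.card_empty]
  · right
    obtain ⟨g0, hg0⟩ := Finset.nonempty_iff_ne_empty.mpr hne
    rw [Finset.mem_filter] at hg0
    apply Finset.card_le_card_of_injOn (fun z => z * g0)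
    · intro z hz
      rw [Finset.mem_coe, Finset.mem_filter] at hz ⊢
      refine ⟨Finset.mem_univ _, ?_, ?_⟩
      · rw [Subgroup.coe_mul]
        exact parabolic_sc_mul _ _ hz.2 hg0.2.1
      · rw [mul_smul, hg0.2.2]
        exact sc_smul _ hz.2 x
    · intro z _ z' _ h
      exact mul_right_cancel h

theorem bCard_eq (x : OnePoint k) : bCard G0 x = Nat.card (stabilizer G0 x) := by
  unfold bCard
  rw [← Fintype.card_subtype, ← Nat.card_eq_fintype_card]
  exact Nat.card_congr (Equiv.subtypeEquivRight (fun g => mem_stabilizer_iff.symm))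

theorem eCard_eq :
    eCard G0 = Nat.card ((Subgroup.center (GL (Fin 2) k)).subgroupOf G0) := by
  unfold eCard
  rw [← Fintype.card_subtype, ← Nat.card_eq_fintype_card]
  exact Nat.card_congr (Equiv.subtypeEquivRight
    (fun g => by rw [Subgroup.mem_subgroupOf, sc_iff_mem_center]))

theorem center_le_stabilizer (x : OnePoint k) :
    (Subgroup.center (GL (Fin 2) k)).subgroupOf G0 ≤ stabilizer G0 x := by
  intro g hg
  rw [Subgroup.mem_subgroupOf, ← sc_iff_mem_center] at hg
  exact mem_stabilizer_iff.mpr (sc_smul _ hg x)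

theorem eCard_pos : 0 < eCard G0 := by
  rw [eCard_eq]
  exact Nat.card_pos

theorem eCard_dvd_bCard (x : OnePoint k) : eCard G0 ∣ bCard G0 x := by
  rw [eCard_eq, bCard_eq]
  exact Subgroup.card_dvd_of_le (center_le_stabilizer G0 x)

theorem two_mul_eCard_le_bCard (x : OnePoint k) (hx : x ∈ ptsSet G0) :
    2 * eCard G0 ≤ bCard G0 x := by
  obtain ⟨t, ht⟩ := eCard_dvd_bCard G0 x
  have hb : 0 < bCard G0 x := by
    rw [bCard_eq]
    exact Nat.card_pos
  have hne : bCard G0 x ≠ eCard G0 := by
    intro h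
    rw [eCard_eq, bCard_eq] at h
    have hEq := Subgroup.eq_of_le_of_card_ge (center_le_stabilizer G0 x) h.le
    obtain ⟨g, hg, hgx⟩ := hx
    apply hg
    have hmem : g ∈ stabilizer G0 x := mem_stabilizer_iff.mpr hgx
    rw [← hEq, Subgroup.mem_subgroupOf, ← sc_iff_mem_center] at hmem
    exact hmem
  have ht2 : 2 ≤ t := by
    by_contra hlt
    have h01 : t = 0 ∨ t = 1 := by omega
    rcases h01 with rfl | rfl
    · rw [mul_zero] at ht; omega
    · rw [mul_one] at ht; exact hne ht
  rw [ht]
  calc 2 * eCard G0 = eCard G0 * 2 := by ring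
    _ ≤ eCard G0 * t := Nat.mul_le_mul_left _ ht2

/-- Every orbit of a point with non-scalar stabiliser contributes at least `n / 2`. -/
theorem bCard_le_two_mul_cw (x : OnePoint k) (hx : x ∈ ptsSet G0) :
    bCard G0 x ≤ 2 * cw G0 x := by
  have h1 := cw_add G0 x
  have h2 := two_mul_eCard_le_bCard G0 x hx
  omega

end Count

end Fermat.Agent.S56.G.KleinCount
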