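/-
S56 brick G, row G.1: the Klein count for a finite subgroup `G0` of `GL (Fin 2) k`,
`char k = p` odd, all of whose elements have square discriminant.

EXIT (`klein_bound`): if `G0` contains a non-trivial `[[1, x], [0, 1]]` and is not upper
triangular, then `e * q' * (q' - 1) ≤ 2 * |B|`, where `e` is the number of scalar elements,
`q'` the number of upper unipotent elements and `B` the upper triangular elements of `G0`.
-/
import Fermat.Agent.S56.G.KleinCount
import Fermat.Agent.S56.G.Bricks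

set_option autoImplicit false
set_option linter.unusedSectionVars false

namespace Fermat.Agent.S56.G.Klein

open Matrix OnePoint MulAction
open Matrix.GeneralLinearGroup
open Fermat.Agent.S56.G.KleinCount

open scoped Classical

variable {k : Type*} [Field k]

section Infty

variable [DecidableEq k] (G0 : Subgroup (GL (Fin 2) k)) [Fintype G0]

theorem card_filter_eq (P : GL (Fin 2) k → Prop)
    [DecidablePred (fun g : G0 => P (g : GL (Fin 2) k))] :
    (Finset.univ.filter (fun g : G0 => P (g : GL (Fin 2) k))).card =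
      Nat.card {g : GL (Fin 2) k // g ∈ G0 ∧ P g} := by
  rw [← Fintype.card_subtype, ← Nat.card_eq_fintype_card]
  exact Nat.card_congr (Equiv.subtypeSubtypeEquivSubtypeInter (· ∈ G0) P)

/-- `K`: the number of elements `[[a, y], [0, a]]` of the subgroup. -/
noncomputable def KCard : ℕ :=
  (Finset.univ.filter (fun g : G0 => (g : GL (Fin 2) k) 1 0 = 0 ∧
    (g : GL (Fin 2) k) 0 0 = (g : GL (Fin 2) k) 1 1)).card

theorem smul_infty_iff (g : G0) :
    g • (∞ : OnePoint k) = ∞ ↔ (g : GL (Fin 2) k) 1 0 = 0 :=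
  smul_infty_eq_self_iff (g := (g : GL (Fin 2) k))

theorem kCard_infty : kCard G0 ∞ + eCard G0 = KCard G0 := by
  unfold kCard eCard KCard
  rw [← Finset.card_union_of_disjoint]
  · congr 1
    ext g
    simp only [Finset.mem_union, Finset.mem_filter, Finset.mem_univ, true_and]
    rw [smul_infty_iff]
    constructor
    · rintro (⟨hp, h10⟩ | hs)
      · exact ⟨h10, ((GeneralLinearGroup.isParabolic_iff_of_upperTriangular h10).mp hp).1⟩
      · have h10 := KleinUpper.scalar_apply_10 _ hs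
        exact ⟨h10, ((KleinUpper.scalar_iff_of_upper _ h10).mp hs).1⟩
    · rintro ⟨h10, hd⟩
      by_cases h01 : (g : GL (Fin 2) k) 0 1 = 0
      · right
        exact (KleinUpper.scalar_iff_of_upper _ h10).mpr ⟨hd, h01⟩
      · left
        exact ⟨(GeneralLinearGroup.isParabolic_iff_of_upperTriangular h10).mpr ⟨hd, h01⟩, h10⟩
  · rw [Finset.disjoint_left]
    intro g h1 h2
    rw [Finset.mem_filter] at h1 h2
    exact not_parabolic_of_sc _ h2.2 h1.2.1

theorem KCard_eq (p : ℕ) [Fact p.Prime] [CharP k p] :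
    KCard G0 = eCard G0 * Nat.card {x : k // upperRightHom x ∈ G0} := by
  have h1 : KCard G0 = Nat.card {g : GL (Fin 2) k // g ∈ G0 ∧ g 1 0 = 0 ∧ g 0 0 = g 1 1} :=
    card_filter_eq G0 (fun g => g 1 0 = 0 ∧ g 0 0 = g 1 1)
  have h2 : eCard G0 = Nat.card {g : GL (Fin 2) k // g ∈ G0 ∧
      g.1 ∈ Set.range (Matrix.scalar (Fin 2))} := card_filter_eq G0 Sc
  rw [h1, h2]
  exact KleinUpper.card_upper_eq p G0

/-- The `(0,0)` entry, as a monoid hom on the stabiliser of `∞`. -/
noncomputable def entry00 : stabilizer G0 (∞ : OnePoint k) →* k where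
  toFun g := ((g : G0) : GL (Fin 2) k) 0 0
  map_one' := by simp
  map_mul' g h := by
    have hh : ((h : G0) : GL (Fin 2) k) 1 0 = 0 :=
      (smul_infty_iff G0 _).mp (mem_stabilizer_iff.mp h.2)
    simp [Matrix.mul_apply, Fin.sum_univ_two, hh]

/-- The `(1,1)` entry, as a monoid hom on the stabiliser of `∞`. -/
noncomputable def entry11 : stabilizer G0 (∞ : OnePoint k) →* k where
  toFun g := ((g : G0) : GL (Fin 2) k) 1 1
  map_one' := by simp
  map_mul' g h := by
    have hg : ((g : G0) : GL (Fin 2) k) 1 0 = 0 :=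
      (smul_infty_iff G0 _).mp (mem_stabilizer_iff.mp g.2)
    simp [Matrix.mul_apply, Fin.sum_univ_two, hg]

/-- The ratio of the diagonal entries, as a hom from the stabiliser of `∞` to `kˣ`. -/
noncomputable def ratio : stabilizer G0 (∞ : OnePoint k) →* kˣ :=
  (entry00 G0).toHomUnits / (entry11 G0).toHomUnits

theorem ratio_val (g : stabilizer G0 (∞ : OnePoint k)) :
    ((ratio G0 g : kˣ) : k) = ((g : G0) : GL (Fin 2) k) 0 0 / ((g : G0) : GL (Fin 2) k) 1 1 := by
  unfold ratio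
  rw [MonoidHom.div_apply, Units.val_div_eq_div_val, MonoidHom.coe_toHomUnits,
    MonoidHom.coe_toHomUnits]
  rfl

theorem entry11_ne_zero (g : stabilizer G0 (∞ : OnePoint k)) :
    ((g : G0) : GL (Fin 2) k) 1 1 ≠ 0 := by
  have h := ((entry11 G0).toHomUnits g).ne_zero
  rwa [MonoidHom.coe_toHomUnits] at h

theorem mem_ker_ratio (g : stabilizer G0 (∞ : OnePoint k)) :
    g ∈ (ratio G0).ker ↔ ((g : G0) : GL (Fin 2) k) 0 0 = ((g : G0) : GL (Fin 2) k) 1 1 := by
  rw [MonoidHom.mem_ker, Units.ext_iff, ratio_val, Units.val_one,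
    div_eq_one_iff_eq (entry11_ne_zero G0 g)]

theorem card_ker_ratio : Nat.card (ratio G0).ker = KCard G0 := by
  unfold KCard
  rw [← Fintype.card_subtype, ← Nat.card_eq_fintype_card]
  refine Nat.card_congr
    { toFun := fun g => ⟨g.1.1, (smul_infty_iff G0 _).mp (mem_stabilizer_iff.mp g.1.2),
        (mem_ker_ratio G0 g.1).mp g.2⟩
      invFun := fun g => ⟨⟨g.1, mem_stabilizer_iff.mpr ((smul_infty_iff G0 _).mpr g.2.1)⟩,
        (mem_ker_ratio G0 _).mpr g.2.2⟩
      left_inv := fun g => rfl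
      right_inv := fun g => rfl }

theorem bCard_infty : bCard G0 ∞ = KCard G0 * Nat.card (ratio G0).range := by
  rw [bCard_eq, ← card_ker_ratio, ← Subgroup.index_ker]
  exact (Subgroup.card_mul_index _).symm

/-- The range of the ratio hom, as a set of field elements. -/
theorem card_range_ratio : Nat.card (ratio G0).range =
    Nat.card {a : k // ∃ g ∈ G0, g 1 0 = 0 ∧ g 0 0 = a * g 1 1} := by
  have hmap : ∀ r : (ratio G0).range, ∃ g ∈ G0, g 1 0 = 0 ∧ g 0 0 = ((r : kˣ) : k) * g 1 1 := by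
    rintro ⟨r, g, rfl⟩
    refine ⟨((g : G0) : GL (Fin 2) k), (g : G0).2,
      (smul_infty_iff G0 _).mp (mem_stabilizer_iff.mp g.2), ?_⟩
    rw [ratio_val, div_mul_cancel₀ _ (entry11_ne_zero G0 g)]
  refine Nat.card_congr (Equiv.ofBijective (fun r => ⟨((r : kˣ) : k), hmap r⟩) ⟨?_, ?_⟩)
  · intro r r' h
    simp only [Subtype.mk.injEq] at h
    exact Subtype.ext (Units.ext h)
  · rintro ⟨a, g, hg, h10, ha⟩
    let g' : stabilizer G0 (∞ : OnePoint k) :=
      ⟨⟨g, hg⟩, mem_stabilizer_iff.mpr ((smul_infty_iff G0 _).mpr h10)⟩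
    refine ⟨⟨ratio G0 g', g', rfl⟩, ?_⟩
    apply Subtype.ext
    show ((ratio G0 g' : kˣ) : k) = a
    rw [ratio_val]
    show g 0 0 / g 1 1 = a
    rw [ha, mul_div_cancel_right₀ _ (entry11_ne_zero G0 g')]

end Infty

section Arith

/-- The bounds needed to apply the orbit-counting lemma. -/
theorem arith_bounds (n e q δ b N c T : ℕ) (he : 1 ≤ e) (hq : 2 ≤ q) (hδ : 1 ≤ δ) (hN : 2 ≤ N)
    (hT : T + 2 * e = 2 * n) (hc : c + 2 * e = b + e * q) (hNb : N * b = n)
    (hb : b = e * q * δ) : N * c < T ∧ T < N * c + n := by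
  have h1 : N * c + 2 * (N * e) = n + N * e * q := by
    have h0 : N * (c + 2 * e) = N * (b + e * q) := by rw [hc]
    rw [← hNb]
    calc N * c + 2 * (N * e) = N * (c + 2 * e) := by ring
      _ = N * (b + e * q) := h0
      _ = N * b + N * e * q := by ring
  have h2 : N * e * q ≤ n := by
    rw [← hNb, hb]
    calc N * e * q = N * (e * q * 1) := by ring
      _ ≤ N * (e * q * δ) := Nat.mul_le_mul_left _ (Nat.mul_le_mul_left _ hδ)
  have h3 : 2 * e ≤ N * e := Nat.mul_le_mul_right e hN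
  have h4 : 2 * (N * e) ≤ N * e * q := by
    calc 2 * (N * e) = N * e * 2 := by ring
      _ ≤ N * e * q := Nat.mul_le_mul_left _ hq
  constructor <;> omega

/-- The consequence of the existence of exactly one further orbit. -/
theorem arith_second (n e q δ b N c T N1 c1 b1 κ1 s : ℕ) (he : 1 ≤ e) (hq : 2 ≤ q)
    (hT : T + 2 * e = 2 * n) (hc : c + 2 * e = b + e * q) (hNb : N * b = n)
    (hb : b = e * q * δ) (hsum : T = N * c + N1 * c1) (hN1 : N1 * b1 = n)
    (hc1 : c1 + e = b1 + κ1) (hκ : κ1 = 0 ∨ e ≤ κ1) (hs : b1 = e * s) :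
    N * q * δ = (2 + N * (q - 2)) * s := by
  obtain ⟨r, rfl⟩ : ∃ r, q = r + 2 := ⟨q - 2, by omega⟩
  simp only [Nat.add_sub_cancel]
  have h1 : N * c + 2 * (N * e) = n + N * e * (r + 2) := by
    have h0 : N * (c + 2 * e) = N * (b + e * (r + 2)) := by rw [hc]
    rw [← hNb]
    calc N * c + 2 * (N * e) = N * (c + 2 * e) := by ring
      _ = N * (b + e * (r + 2)) := h0
      _ = N * b + N * e * (r + 2) := by ring
  have h2 : N1 * c1 + N1 * e = n + N1 * κ1 := by
    have h0 : N1 * (c1 + e) = N1 * (b1 + κ1) := by rw [hc1]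
    rw [← hN1]
    calc N1 * c1 + N1 * e = N1 * (c1 + e) := by ring
      _ = N1 * (b1 + κ1) := h0
      _ = N1 * b1 + N1 * κ1 := by ring
  have h3 : N * e * (r + 2) + N1 * κ1 + 2 * e = 2 * (N * e) + N1 * e := by omega
  rcases hκ with hκ | hκ
  · subst hκ
    have h4 : e * (N * (r + 2) + 2) = e * (2 * N + N1) := by nlinarith
    have h5 : N * (r + 2) + 2 = 2 * N + N1 := Nat.eq_of_mul_eq_mul_left (by omega) h4
    have h6 : N1 = 2 + N * r := by nlinarith
    have h7 : e * (N * (r + 2) * δ) = e * ((2 + N * r) * s) := by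
      calc e * (N * (r + 2) * δ) = N * (e * (r + 2) * δ) := by ring
        _ = n := by rw [← hb, hNb]
        _ = N1 * (e * s) := by rw [← hs, hN1]
        _ = e * ((2 + N * r) * s) := by rw [h6]; ring
    exact Nat.eq_of_mul_eq_mul_left (by omega) h7
  · exfalso
    have h4 : N1 * e ≤ N1 * κ1 := Nat.mul_le_mul_left _ hκ
    have h5 : N * e * (r + 2) = N * e * r + 2 * (N * e) := by ring
    omega

end Arith

section Free

variable [DecidableEq k] (G0 : Subgroup (GL (Fin 2) k)) [Fintype G0]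

/-- The subgroup of upper unipotent elements of `G0`. -/
def Psub : Subgroup (GL (Fin 2) k) := G0 ⊓ (upperRightHom (R := k)).toMonoidHom.range

theorem card_Psub : Nat.card (Psub G0) = Nat.card {x : k // upperRightHom x ∈ G0} := by
  symm
  refine Nat.card_congr (Equiv.ofBijective
    (fun x => ⟨upperRightHom x.1, ⟨x.2, ⟨Multiplicative.ofAdd x.1, rfl⟩⟩⟩) ⟨?_, ?_⟩)
  · intro x y h
    exact Subtype.ext (injective_upperRightHom (congrArg Subtype.val h))
  · rintro ⟨g, hg, ⟨x, rfl⟩⟩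
    exact ⟨⟨Multiplicative.toAdd x, hg⟩, rfl⟩

theorem upper_smul_coe (x c : k) :
    upperRightHom x • (c : OnePoint k) = ((c + x : k) : OnePoint k) := by
  rw [smul_some_eq_ite]
  simp [upperRightHom]

/-- `q' ∣ N - 1`: the upper unipotent elements act freely on the orbit of `∞` minus `∞`. -/
theorem card_upper_dvd :
    Nat.card {x : k // upperRightHom x ∈ G0} ∣ (orbit G0 (∞ : OnePoint k)).ncard - 1 := by
  rw [← card_Psub, ← Set.ncard_sdiff_singleton_of_mem (mem_orbit_self _)]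
  have hfin : Finite (Psub G0) := Finite.of_injective
    (fun g : Psub G0 => (⟨g.1, g.2.1⟩ : G0))
    (fun a b h => Subtype.ext (congrArg (fun z : G0 => (z : GL (Fin 2) k)) h))
  apply KleinOrbit.card_dvd_ncard_of_free
  · exact (KleinOrbit.finite_orbit _).subset Set.sdiff_subset
  · rintro ⟨h, hG, ⟨x, rfl⟩⟩ y ⟨⟨g, rfl⟩, hy⟩
    refine ⟨⟨⟨_, hG⟩ * g, ?_⟩, ?_⟩
    · show (⟨_, hG⟩ * g : G0) • (∞ : OnePoint k) = _
      rw [mul_smul]
      rfl
    · rw [Set.mem_singleton_iff] at hy ⊢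
      cases hgy : (g • (∞ : OnePoint k)) with
      | infty => exact absurd hgy hy
      | coe c =>
        show (upperRightHom (Multiplicative.toAdd x)) • (g • (∞ : OnePoint k)) ≠ ∞
        rw [hgy, upper_smul_coe]
        exact OnePoint.coe_ne_infty _
  · rintro y ⟨-, hy⟩ ⟨h, hG, ⟨x, rfl⟩⟩ hfix
    rw [Set.mem_singleton_iff] at hy
    cases y with
    | infty => exact absurd rfl hy
    | coe c =>
      have h1 : (upperRightHom (Multiplicative.toAdd x)) • (c : OnePoint k) = c := hfix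
      rw [upper_smul_coe, OnePoint.coe_eq_coe] at h1
      have hx0 : Multiplicative.toAdd x = 0 := by simpa using h1
      apply Subtype.ext
      show (upperRightHom (R := k)).toMonoidHom x = 1
      rw [AddChar.toMonoidHom_apply, hx0, AddChar.map_zero_eq_one]

end Free

section Main

theorem neZero_two (p : ℕ) [Fact p.Prime] [CharP k p] (hp2 : p ≠ 2) : NeZero (2 : k) := by
  constructor
  intro h
  have h2 : ((2 : ℕ) : k) = 0 := by exact_mod_cast h
  rw [CharP.cast_eq_zero_iff k p] at h2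
  exact hp2 ((Nat.prime_dvd_prime_iff_eq Fact.out Nat.prime_two).mp h2)

/-- The Klein count, core form: `q' ≤ 2 δ + 1`, where `q'` is the number of upper unipotent
elements of `G0` and `δ` the order of the group of diagonal ratios of the upper triangular
elements of `G0`. -/
theorem klein_core [DecidableEq k] (p : ℕ) [Fact p.Prime] [CharP k p] (hp2 : p ≠ 2)
    (G0 : Subgroup (GL (Fin 2) k)) [Fintype G0]
    (hsq : ∀ g ∈ G0, IsSquare g.1.discr)
    (hP : ∃ x : k, x ≠ 0 ∧ upperRightHom x ∈ G0)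
    (hN : ∃ g ∈ G0, g 1 0 ≠ 0) :
    Nat.card {x : k // upperRightHom x ∈ G0} ≤ 2 * Nat.card (ratio G0).range + 1 := by
  have : NeZero (2 : k) := neZero_two p hp2
  obtain ⟨x0, hx0, hx0G⟩ := hP
  obtain ⟨g1, hg1G, hg1⟩ := hN
  set q := Nat.card {x : k // upperRightHom x ∈ G0} with hq_def
  set e := eCard G0 with he_def
  set δ := Nat.card (ratio G0).range with hδ_def
  set N := (orbit G0 (∞ : OnePoint k)).ncard with hN_def
  have hfinX : Finite {x : k // upperRightHom x ∈ G0} :=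
    Finite.of_injective (fun x => (⟨upperRightHom x.1, x.2⟩ : G0))
      (fun a b h => Subtype.ext
        (injective_upperRightHom (congrArg (fun z : G0 => (z : GL (Fin 2) k)) h)))
  have hq2 : 2 ≤ q := by
    have hnt : Nontrivial {x : k // upperRightHom x ∈ G0} :=
      ⟨⟨⟨0, by simp [G0.one_mem]⟩, ⟨x0, hx0G⟩, fun h => hx0 (congrArg Subtype.val h).symm⟩⟩
    exact Finite.one_lt_card_iff_nontrivial.mpr hnt
  have he : 1 ≤ e := eCard_pos G0
  have hK : KCard G0 = e * q := KCard_eq G0 p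
  have hb : bCard G0 ∞ = e * q * δ := by rw [bCard_infty, hK]
  have hbpos : 0 < bCard G0 (∞ : OnePoint k) := by
    rw [bCard_eq]
    exact Nat.card_pos
  have hδ : 1 ≤ δ := by
    rcases Nat.eq_zero_or_pos δ with h | h
    · rw [h, mul_zero] at hb
      omega
    · exact h
  have hκ : kCard G0 ∞ + e = e * q := by rw [kCard_infty, hK]
  have hc : cw G0 ∞ + 2 * e = bCard G0 ∞ + e * q := by
    have := cw_add G0 (∞ : OnePoint k)
    omega
  have hNb : N * bCard G0 ∞ = Fintype.card G0 := by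
    rw [bCard_eq, ← Nat.card_eq_fintype_card]
    exact KleinOrbit.ncard_orbit_mul_card_stabilizer _
  set pts := (ptsSet_finite G0 hsq).toFinset with hpts_def
  have hpts : ∀ x, x ∈ pts ↔ x ∈ ptsSet G0 := fun x => Set.Finite.mem_toFinset _
  have hT := sum_cw G0 hsq pts hpts
  have hinf : (∞ : OnePoint k) ∈ pts := by
    rw [hpts]
    refine ⟨⟨upperRightHom x0, hx0G⟩, ?_, ?_⟩
    · intro hs
      have h2 := (KleinUpper.scalar_iff_of_upper _ (by simp [upperRightHom])).mp hs
      exact hx0 (by simpa [upperRightHom] using h2.2)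
    · exact (smul_infty_iff G0 _).mpr (by simp [upperRightHom])
  have hN2 : 2 ≤ N := by
    have h1 : 1 < N := by
      rw [hN_def, Set.one_lt_ncard_iff (KleinOrbit.finite_orbit _)]
      refine ⟨∞, (⟨g1, hg1G⟩ : G0) • (∞ : OnePoint k), mem_orbit_self _, mem_orbit _ _, ?_⟩
      intro h
      exact hg1 ((smul_infty_iff G0 ⟨g1, hg1G⟩).mp h.symm)
    exact h1
  obtain ⟨m, hm⟩ := card_upper_dvd G0
  have hm1 : 1 ≤ m := by
    rcases Nat.eq_zero_or_pos m with h | h
    · rw [h, mul_zero] at hm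
      omega
    · exact h
  have hNm : N = 1 + m * q := by
    have h1 : N - 1 = q * m := hm
    rw [mul_comm] at h1
    omega
  obtain ⟨hlo, hhi⟩ := arith_bounds (Fintype.card G0) e q δ (bCard G0 ∞) N (cw G0 ∞)
    (∑ x ∈ pts, cw G0 x) he hq2 hδ hN2 hT hc hNb hb
  rw [← Nat.card_eq_fintype_card] at hhi
  obtain ⟨x1, hx1, hx1O, hsum⟩ := KleinOrbit.exists_second_orbit (G := G0) pts
    (fun g x hx => (hpts _).mpr (smul_mem_ptsSet G0 g x ((hpts x).mp hx)))
    (cw G0) (cw_smul G0)
    (fun x hx => by rw [← bCard_eq]; exact bCard_le_two_mul_cw G0 x ((hpts x).mp hx))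
    ∞ hinf hlo hhi
  obtain ⟨s, hs⟩ := eCard_dvd_bCard G0 x1
  have hN1 : (orbit G0 x1).ncard * bCard G0 x1 = Fintype.card G0 := by
    rw [bCard_eq, ← Nat.card_eq_fintype_card]
    exact KleinOrbit.ncard_orbit_mul_card_stabilizer _
  have hfinal := arith_second (Fintype.card G0) e q δ (bCard G0 ∞) N (cw G0 ∞)
    (∑ x ∈ pts, cw G0 x) (orbit G0 x1).ncard (cw G0 x1) (bCard G0 x1) (kCard G0 x1) s he hq2
    hT hc hNb hb hsum hN1 (cw_add G0 x1) (kCard_zero_or_ge G0 x1) hs
  exact KleinOrbit.numerics N q δ s m hq2 hm1 hNm hδ hfinal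

/-- **EXIT (ratio form)**: `q' ≤ 2 |μ| + 1`, where `μ = {t₁ / t₂}` over the upper triangular
elements of `G0`. -/
theorem card_le_two_mul_ratio (p : ℕ) [Fact p.Prime] [CharP k p] (hp2 : p ≠ 2)
    (G0 : Subgroup (GL (Fin 2) k)) [Finite G0]
    (hsq : ∀ g ∈ G0, IsSquare g.1.discr)
    (hP : ∃ x : k, x ≠ 0 ∧ upperRightHom x ∈ G0)
    (hN : ∃ g ∈ G0, g 1 0 ≠ 0) :
    Nat.card {x : k // upperRightHom x ∈ G0} ≤
      2 * Nat.card {a : k // ∃ g ∈ G0, g 1 0 = 0 ∧ g 0 0 = a * g 1 1} + 1 := by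
  have := Fintype.ofFinite G0
  rw [← card_range_ratio G0]
  exact klein_core p hp2 G0 hsq hP hN

/-- **EXIT (Klein bound)**: `e * q' * (q' - 1) ≤ 2 * |B|`. -/
theorem klein_bound (p : ℕ) [Fact p.Prime] [CharP k p] (hp2 : p ≠ 2)
    (G0 : Subgroup (GL (Fin 2) k)) [Finite G0]
    (hsq : ∀ g ∈ G0, IsSquare g.1.discr)
    (hP : ∃ x : k, x ≠ 0 ∧ upperRightHom x ∈ G0)
    (hN : ∃ g ∈ G0, g 1 0 ≠ 0) :
    Nat.card {g : GL (Fin 2) k // g ∈ G0 ∧ g.1 ∈ Set.range (Matrix.scalar (Fin 2))} *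
        (Nat.card {x : k // upperRightHom x ∈ G0} *
          (Nat.card {x : k // upperRightHom x ∈ G0} - 1)) ≤
      2 * Nat.card {g : GL (Fin 2) k // g ∈ G0 ∧ g 1 0 = 0} := by
  have := Fintype.ofFinite G0
  have h := klein_core p hp2 G0 hsq hP hN
  have he : eCard G0 = Nat.card {g : GL (Fin 2) k // g ∈ G0 ∧
      g.1 ∈ Set.range (Matrix.scalar (Fin 2))} := card_filter_eq G0 Sc
  have hb : bCard G0 ∞ = Nat.card {g : GL (Fin 2) k // g ∈ G0 ∧ g 1 0 = 0} := by
    rw [← card_filter_eq G0 (fun g => g 1 0 = 0)]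
    unfold bCard
    congr 1
    ext g
    simp only [Finset.mem_filter, Finset.mem_univ, true_and]
    exact smul_infty_iff G0 g
  have hb2 : bCard G0 ∞ = eCard G0 * Nat.card {x : k // upperRightHom x ∈ G0} *
      Nat.card (ratio G0).range := by rw [bCard_infty, KCard_eq G0 p]
  rw [← he, ← hb, hb2]
  have h1 : Nat.card {x : k // upperRightHom x ∈ G0} - 1 ≤ 2 * Nat.card (ratio G0).range := by
    omega
  calc eCard G0 * (Nat.card {x : k // upperRightHom x ∈ G0} *
        (Nat.card {x : k // upperRightHom x ∈ G0} - 1))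
      ≤ eCard G0 * (Nat.card {x : k // upperRightHom x ∈ G0} *
        (2 * Nat.card (ratio G0).range)) :=
        Nat.mul_le_mul_left _ (Nat.mul_le_mul_left _ h1)
    _ = 2 * (eCard G0 * Nat.card {x : k // upperRightHom x ∈ G0} *
        Nat.card (ratio G0).range) := by ring

/-- The Klein bound with the split-characteristic-polynomial hypothesis of the consumer. -/
theorem klein_bound_of_split (p : ℕ) [Fact p.Prime] [CharP k p] (hp2 : p ≠ 2)
    (G0 : Subgroup (GL (Fin 2) k)) [Finite G0]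
    (hsplit : ∀ g ∈ G0, ∃ α β : k,
      g.1.charpoly = (Polynomial.X - Polynomial.C α) * (Polynomial.X - Polynomial.C β))
    (hP : ∃ x : k, x ≠ 0 ∧ upperRightHom x ∈ G0)
    (hN : ∃ g ∈ G0, g 1 0 ≠ 0) :
    Nat.card {g : GL (Fin 2) k // g ∈ G0 ∧ g.1 ∈ Set.range (Matrix.scalar (Fin 2))} *
        (Nat.card {x : k // upperRightHom x ∈ G0} *
          (Nat.card {x : k // upperRightHom x ∈ G0} - 1)) ≤
      2 * Nat.card {g : GL (Fin 2) k // g ∈ G0 ∧ g 1 0 = 0} :=
  klein_bound p hp2 G0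
    (fun g hg => by
      obtain ⟨α, β, h⟩ := hsplit g hg
      exact KleinFix.isSquare_discr_of_split _ α β h) hP hN

/-- The ratio form with the split-characteristic-polynomial hypothesis of the consumer. -/
theorem card_le_two_mul_ratio_of_split (p : ℕ) [Fact p.Prime] [CharP k p] (hp2 : p ≠ 2)
    (G0 : Subgroup (GL (Fin 2) k)) [Finite G0]
    (hsplit : ∀ g ∈ G0, ∃ α β : k,
      g.1.charpoly = (Polynomial.X - Polynomial.C α) * (Polynomial.X - Polynomial.C β))
    (hP : ∃ x : k, x ≠ 0 ∧ upperRightHom x ∈ G0)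
    (hN : ∃ g ∈ G0, g 1 0 ≠ 0) :
    Nat.card {x : k // upperRightHom x ∈ G0} ≤
      2 * Nat.card {a : k // ∃ g ∈ G0, g 1 0 = 0 ∧ g 0 0 = a * g 1 1} + 1 :=
  card_le_two_mul_ratio p hp2 G0
    (fun g hg => by
      obtain ⟨α, β, h⟩ := hsplit g hg
      exact KleinFix.isSquare_discr_of_split _ α β h) hP hN

end Main

universe u

/-- **(G.1)** The landed brick statement `KleinStatement` of `S56/G/Bricks.lean`. -/
theorem kleinStatement : Fermat.Agent.S56.G.KleinStatement.{u} := by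
  intro k _ p _ _ hp2 G _ hsq hP hN
  exact card_le_two_mul_ratio p hp2 G hsq hP hN

end Fermat.Agent.S56.G.Klein
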