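import Fermat.Agent.S56.G.H1
import Fermat.Agent.S56.G.Klein
import Fermat.Agent.S56.G.FieldProof
import Fermat.Agent.S56.G.CocycleProof

/-!
# S56, brick G, row G.4 closed: `h1Statement : H1Statement`

The composition of the assembly `H1.h1Statement_of_bricks` with the three landed bricks
`Klein.kleinStatement` (G.1), `FieldProof.fieldStatement` (G.2) and
`CocycleProof.cocycleStatement` (G.3): every trace-zero cocycle of a finite subgroup `G ≤ GL₂(k)`
(`char k = p` odd, split characteristic polynomials, no stable line, and for `p = 5` an element
with `det² ≠ 1`) for the twisted adjoint action is a coboundary.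
-/

set_option autoImplicit false

namespace Fermat.Agent.S56.G.H1Proof

universe u

/-- **(G.4)** `H¹(G₀, ad⁰ ⊗ det) = 0`. -/
theorem h1Statement : Fermat.Agent.S56.G.H1Statement.{u} :=
  Fermat.Agent.S56.G.H1.h1Statement_of_bricks Fermat.Agent.S56.G.Klein.kleinStatement
    Fermat.Agent.S56.G.FieldProof.fieldStatement Fermat.Agent.S56.G.CocycleProof.cocycleStatement

end Fermat.Agent.S56.G.H1Proof
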