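import Mathlib

/-!
# S56, brick G, row G.1 (abstract part): Klein's fixed-point count

`klein_count`: a finite group `G` acts on a type `X` (possibly infinite); `K` is a subgroup
acting trivially; every `g ∉ K` has exactly one or exactly two fixed points; the stabiliser of
`ω` has order `e q δ` (`e = |K|`, `q ≥ 3`), exactly `e (q - 1)` elements outside `K` have `ω`
as their only fixed point, and `ω` is not fixed by `G`.  Then `q ≤ 2 δ + 1`.

Nothing is assumed about the other points: the weighted count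
`∑ₓ (|Stab x| - e + π x) = 2 (n - e)`, `π x = #{g ∉ K : Fix g = {x}}`, shows that the points
with a non-trivial stabiliser outside the orbit of `ω` form exactly one orbit.

(helper247; design: helper254's note `S56_G_design.md` and helper78's simplification.)
-/

set_option autoImplicit false

open scoped Classical
open MulAction

namespace Fermat.Agent.S56.G.KleinCore

section arith

/-- The numerical endgame. -/
theorem arith_count {N q δ s : ℕ} (hN : 2 ≤ N) (hq : 2 ≤ q) (hδ : 1 ≤ δ)
    (h : (N * (q - 2) + 2) * s = N * q * δ) : q ≤ 2 * δ + 1 := by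
  obtain ⟨q', rfl⟩ : ∃ q', q = q' + 2 := ⟨q - 2, by omega⟩
  simp only [Nat.add_sub_cancel] at h
  have hsδ : δ < s := by
    by_contra hcon
    have hcon' : s ≤ δ := Nat.not_lt.mp hcon
    have h1 : (N * q' + 2) * s ≤ (N * q' + 2) * δ := Nat.mul_le_mul_left _ hcon'
    have h2 : (N * q' + 2) * δ < N * (q' + 2) * δ := by nlinarith
    omega
  have h3 : (N * q' + 2) * (δ + 1) ≤ N * (q' + 2) * δ := by
    rw [← h]; exact Nat.mul_le_mul_left _ (by omega)
  by_contra hcon
  have hcon' : 2 * δ ≤ q' := by omega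
  nlinarith

end arith

section core

variable {G X : Type*} [Group G] [MulAction G X]

theorem ncard_orbit_mul_card_stabilizer [Finite G] (x : X) :
    (orbit G x).ncard * Nat.card (stabilizer G x) = Nat.card G := by
  rw [← Nat.card_coe_set_eq, ← Nat.card_prod]
  exact Nat.card_congr (orbitProdStabilizerEquivGroup G x)

theorem ncard_eq_card_filter {α : Type*} [Fintype α] (s : Set α) :
    s.ncard = (Finset.univ.filter (· ∈ s)).card := by
  rw [← Set.ncard_coe_finset]
  congr 1
  ext x
  simp

theorem natCard_subgroup_eq_card_filter [Fintype G] (H : Subgroup G) :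
    Nat.card H = (Finset.univ.filter (· ∈ H)).card := by
  have h := ncard_eq_card_filter (H : Set G)
  rw [← Nat.card_coe_set_eq] at h
  simp only [SetLike.mem_coe] at h
  exact h

/-- If some three points are distinct, `K` is the kernel of the action. -/
theorem mem_iff_of_three (K : Subgroup G) (hK : ∀ g ∈ K, ∀ x : X, g • x = x)
    (hfix : ∀ g : G, g ∉ K → (fixedBy X g).ncard = 1 ∨ (fixedBy X g).ncard = 2)
    {a b c : X} (hab : a ≠ b) (hac : a ≠ c) (hbc : b ≠ c) (g : G) :
    g ∈ K ↔ ∀ x : X, g • x = x := by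
  refine ⟨fun h => hK g h, fun h => ?_⟩
  by_contra hg
  have h12 := hfix g hg
  have hfin : (fixedBy X g).Finite := Set.finite_of_ncard_ne_zero (by omega)
  have hsub : ({a, b, c} : Set X) ⊆ fixedBy X g := fun y _ => h y
  have h3 : ({a, b, c} : Set X).ncard = 3 :=
    Set.ncard_eq_three.mpr ⟨a, b, c, hab, hac, hbc, rfl⟩
  have := Set.ncard_le_ncard hsub hfin
  omega

theorem conj_mem_iff_of_ker (K : Subgroup G) (hker : ∀ g : G, g ∈ K ↔ ∀ x : X, g • x = x)
    (h g : G) : h * g * h⁻¹ ∈ K ↔ g ∈ K := by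
  rw [hker, hker]
  constructor
  · intro H x
    have h1 := H (h • x)
    rw [mul_smul, mul_smul, inv_smul_smul] at h1
    exact smul_left_cancel h h1
  · intro H x
    rw [mul_smul, mul_smul, H, smul_inv_smul]

theorem fixedBy_conj_eq_singleton (h g : G) (x : X) (H : fixedBy X g = {x}) :
    fixedBy X (h * g * h⁻¹) = {h • x} := by
  have key : ∀ z : X, g • z = z ↔ z = x := fun z => by
    have h1 := congrArg (fun s => z ∈ s) H
    simpa using h1
  ext y
  simp only [mem_fixedBy, Set.mem_singleton_iff]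
  rw [mul_smul, mul_smul]
  constructor
  · intro h1
    have h2 : g • h⁻¹ • y = h⁻¹ • y := eq_inv_smul_iff.mpr h1
    have h3 := (key _).mp h2
    rw [← h3, smul_inv_smul]
  · intro h1
    rw [h1, inv_smul_smul, (key x).mpr rfl]

/-- The number of elements outside the kernel with unique fixed point `x` is constant on
orbits. -/
theorem ncard_par_smul [Finite G] (K : Subgroup G)
    (hker : ∀ g : G, g ∈ K ↔ ∀ x : X, g • x = x) (h : G) (x : X) :
    {g : G | g ∉ K ∧ fixedBy X g = {h • x}}.ncard = {g : G | g ∉ K ∧ fixedBy X g = {x}}.ncard := by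
  have himg : {g : G | g ∉ K ∧ fixedBy X g = {h • x}}
      = (fun g => h * g * h⁻¹) '' {g : G | g ∉ K ∧ fixedBy X g = {x}} := by
    ext g
    simp only [Set.mem_ofPred_eq, Set.mem_image]
    constructor
    · rintro ⟨hgK, hg⟩
      refine ⟨h⁻¹ * g * h, ⟨?_, ?_⟩, by group⟩
      · intro hc
        apply hgK
        have := (conj_mem_iff_of_ker K hker h⁻¹ g).mp (by simpa using hc)
        exact this
      · have := fixedBy_conj_eq_singleton h⁻¹ g (h • x) hg
        simpa using this
    · rintro ⟨g', ⟨hgK, hg⟩, rfl⟩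
      exact ⟨fun hc => hgK ((conj_mem_iff_of_ker K hker h g').mp hc),
        fixedBy_conj_eq_singleton h g' x hg⟩
  rw [himg]
  apply Set.ncard_image_of_injective
  intro a b hab
  simpa using hab

/-- A point that is the unique fixed point of some element outside `K` is the unique fixed
point of at least `|K|` such elements. -/
theorem card_le_ncard_par [Finite G] (K : Subgroup G) (hK : ∀ g ∈ K, ∀ x : X, g • x = x) (x : X)
    (hne : {g : G | g ∉ K ∧ fixedBy X g = {x}}.ncard ≠ 0) :
    Nat.card K ≤ {g : G | g ∉ K ∧ fixedBy X g = {x}}.ncard := by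
  obtain ⟨g, hgK, hg⟩ : {g : G | g ∉ K ∧ fixedBy X g = {x}}.Nonempty := by
    by_contra hcon
    rw [Set.not_nonempty_iff_eq_empty] at hcon
    rw [hcon] at hne
    simp at hne
  have hsub : (fun z => z * g) '' (K : Set G) ⊆ {g : G | g ∉ K ∧ fixedBy X g = {x}} := by
    rintro _ ⟨z, hz, rfl⟩
    refine ⟨fun hc => hgK ?_, ?_⟩
    · have : g = z⁻¹ * (z * g) := by group
      rw [this]
      exact K.mul_mem (K.inv_mem hz) hc
    · rw [← hg]
      ext y
      simp only [mem_fixedBy, mul_smul]
      constructor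
      · intro h1
        rw [hK z hz] at h1
        exact h1
      · intro h1
        rw [hK z hz]
        exact h1
  have h1 : ((fun z => z * g) '' (K : Set G)).ncard = Nat.card K := by
    rw [Set.ncard_image_of_injective _ (mul_left_injective g)]
    exact (Nat.card_coe_set_eq (K : Set G)).symm
  rw [← h1]
  exact Set.ncard_le_ncard hsub (Set.toFinite _)

/-- **Klein's fixed-point count**, abstract form. -/
theorem klein_count [Finite G]
    (K : Subgroup G) (hK : ∀ g ∈ K, ∀ x : X, g • x = x)
    (hfix : ∀ g : G, g ∉ K → (fixedBy X g).ncard = 1 ∨ (fixedBy X g).ncard = 2)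
    (ω : X) (q δ : ℕ) (hq : 3 ≤ q)
    (hstab : Nat.card (stabilizer G ω) = Nat.card K * q * δ)
    (hpar : {g : G | g ∉ K ∧ fixedBy X g = {ω}}.ncard = Nat.card K * (q - 1))
    (hN : ∃ g : G, g • ω ≠ ω) :
    q ≤ 2 * δ + 1 := by
  have := Fintype.ofFinite G
  set e := Nat.card K with he
  have he0 : 0 < e := Nat.card_pos
  set n := Nat.card G with hn
  set π : X → ℕ := fun x => {g : G | g ∉ K ∧ fixedBy X g = {x}}.ncard with hπ
  -- three distinct points; `K` is the kernel
  obtain ⟨h0, hh0⟩ := hN
  have hparpos : {g : G | g ∉ K ∧ fixedBy X g = {ω}}.ncard ≠ 0 := by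
    rw [hpar]
    have : 0 < e * (q - 1) := Nat.mul_pos he0 (by omega)
    omega
  obtain ⟨g0, hg0K, hg0fix⟩ : {g : G | g ∉ K ∧ fixedBy X g = {ω}}.Nonempty := by
    by_contra hcon
    rw [Set.not_nonempty_iff_eq_empty] at hcon
    rw [hcon] at hparpos
    simp at hparpos
  have hg0 : ∀ z : X, g0 • z = z ↔ z = ω := fun z => by
    have h1 := congrArg (fun s => z ∈ s) hg0fix
    simpa using h1
  have hker : ∀ g : G, g ∈ K ↔ ∀ x : X, g • x = x := by
    refine mem_iff_of_three K hK hfix (a := ω) (b := h0 • ω) (c := g0 • h0 • ω)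
      (fun h => hh0 h.symm) ?_ ?_
    · intro h
      have h1 : g0 • ω = g0 • h0 • ω := by rw [(hg0 ω).mpr rfl]; exact h
      exact hh0 (smul_left_cancel g0 h1).symm
    · intro h
      exact hh0 ((hg0 _).mp h.symm)
  have hπsmul : ∀ (h : G) (x : X), π (h • x) = π x := fun h x => ncard_par_smul K hker h x
  have hπe : ∀ x : X, π x ≠ 0 → e ≤ π x := fun x hx => card_le_ncard_par K hK x hx
  -- stabiliser cardinalities
  have hKle : ∀ x : X, K ≤ stabilizer G x := fun x g hg => hK g hg x
  have hdiv : ∀ x : X, ∃ c : ℕ, Nat.card (stabilizer G x) = e * (c + 1) := by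
    intro x
    obtain ⟨d, hd⟩ := Subgroup.card_dvd_of_le (hKle x)
    have hpos : 0 < Nat.card (stabilizer G x) := Nat.card_pos
    rcases d with _ | d
    · rw [hd] at hpos; simp at hpos
    · exact ⟨d, hd⟩
  choose c hc using hdiv
  have hos : ∀ x : X, (orbit G x).ncard * (e * (c x + 1)) = n := fun x => by
    rw [← hc x]; exact ncard_orbit_mul_card_stabilizer x
  have hδ1 : 1 ≤ δ := by
    rcases Nat.eq_zero_or_pos δ with h0 | h0
    · have hpos : 0 < Nat.card (stabilizer G ω) := Nat.card_pos
      rw [hstab, h0] at hpos; simp at hpos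
    · exact h0
  have hq0 : 0 < q := by omega
  -- `c` and `π` are constant on orbits
  have hcorb : ∀ x y : X, y ∈ orbit G x → c y = c x := by
    intro x y hy
    have h1 : orbit G y = orbit G x := orbit_eq_iff.mpr hy
    have h2 := hos y
    have h3 := hos x
    rw [h1] at h2
    have hfin : (orbit G x).Finite := Set.finite_range _
    have hpos : 0 < (orbit G x).ncard := (Set.ncard_pos hfin).mpr ⟨x, mem_orbit_self x⟩
    have h4 : (orbit G x).ncard * (e * (c y + 1)) = (orbit G x).ncard * (e * (c x + 1)) := by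
      rw [h2, h3]
    have h5 := Nat.eq_of_mul_eq_mul_left hpos h4
    have h6 := Nat.eq_of_mul_eq_mul_left he0 h5
    omega
  have hπorb : ∀ x y : X, y ∈ orbit G x → π y = π x := by
    rintro x y ⟨h, rfl⟩
    exact hπsmul h x
  -- the finite set of points with a non-trivial stabiliser
  have hX0fin : {x : X | ∃ g : G, g ∉ K ∧ g • x = x}.Finite := by
    have h1 : {x : X | ∃ g : G, g ∉ K ∧ g • x = x} = ⋃ g ∈ {g : G | g ∉ K}, fixedBy X g := by
      ext x
      simp only [Set.mem_ofPred_eq, Set.mem_iUnion, mem_fixedBy, exists_prop]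
    rw [h1]
    refine Set.Finite.biUnion (Set.toFinite _) (fun g hg => ?_)
    have h12 := hfix g hg
    exact Set.finite_of_ncard_ne_zero (by omega)
  set X0 : Finset X := hX0fin.toFinset with hX0
  have hmemX0 : ∀ x, x ∈ X0 ↔ ∃ g : G, g ∉ K ∧ g • x = x := fun x => by
    rw [hX0, Set.Finite.mem_toFinset]; rfl
  have hX0smul : ∀ (h : G) (x : X), x ∈ X0 → h • x ∈ X0 := by
    intro h x hx
    obtain ⟨g, hgK, hgx⟩ := (hmemX0 x).mp hx
    refine (hmemX0 _).mpr ⟨h * g * h⁻¹, fun hc => hgK ((conj_mem_iff_of_ker K hker h g).mp hc), ?_⟩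
    rw [mul_smul, mul_smul, inv_smul_smul, hgx]
  have horbX0 : ∀ x ∈ X0, ∀ y ∈ orbit G x, y ∈ X0 := by
    rintro x hx y ⟨h, rfl⟩
    exact hX0smul h x hx
  -- the finsets
  set A : Finset G := Finset.univ.filter (fun g => g ∉ K) with hA
  set fxs : G → Finset X := fun g => X0.filter (fun x => g • x = x) with hfxs
  have hfxs_coe : ∀ g ∈ A, (fxs g : Set X) = fixedBy X g := by
    intro g hg
    have hgK : g ∉ K := (Finset.mem_filter.mp hg).2
    ext x
    simp only [hfxs, Finset.coe_filter, Set.mem_ofPred_eq, mem_fixedBy]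
    exact ⟨fun h => h.2, fun h => ⟨(hmemX0 x).mpr ⟨g, hgK, h⟩, h⟩⟩
  have hfxs_card : ∀ g ∈ A, (fxs g).card = (fixedBy X g).ncard := fun g hg => by
    rw [← hfxs_coe g hg, Set.ncard_coe_finset]
  have hfix' : ∀ g ∈ A, (fxs g).card = 1 ∨ (fxs g).card = 2 := fun g hg => by
    rw [hfxs_card g hg]; exact hfix g (Finset.mem_filter.mp hg).2
  -- pair count
  have hpair : ∑ g ∈ A, (fxs g).card = ∑ x ∈ X0, (A.filter (fun g => g • x = x)).card := by
    simp only [hfxs, Finset.card_filter]
    exact Finset.sum_comm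
  have hstx : ∀ x : X, (A.filter (fun g => g • x = x)).card = e * c x := by
    intro x
    have h1 : (Finset.univ.filter (fun g : G => g • x = x)).card = e * (c x + 1) := by
      rw [← hc x, natCard_subgroup_eq_card_filter]; rfl
    have h2 := Finset.card_filter_add_card_filter_not
      (s := Finset.univ.filter (fun g : G => g • x = x)) (fun g => g ∈ K)
    have h3 : (Finset.univ.filter (fun g : G => g • x = x)).filter (fun g => g ∈ K)
        = Finset.univ.filter (fun g : G => g ∈ K) := by
      ext g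
      simp only [Finset.mem_filter, Finset.mem_univ, true_and]
      exact ⟨fun h => h.2, fun h => ⟨hK g h x, h⟩⟩
    have h4 : (Finset.univ.filter (fun g : G => g • x = x)).filter (fun g => ¬ g ∈ K)
        = A.filter (fun g => g • x = x) := by
      ext g
      simp only [hA, Finset.mem_filter, Finset.mem_univ, true_and]
      tauto
    rw [h3, h4, ← natCard_subgroup_eq_card_filter, h1] at h2
    have : e + (A.filter (fun g => g • x = x)).card = e * c x + e := by rw [h2]; ring
    omega
  -- weights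
  set Par : Finset G := A.filter (fun g => (fxs g).card = 1) with hPar
  have hweight : ∑ g ∈ A, (fxs g).card + Par.card = 2 * A.card := by
    rw [hPar, Finset.card_filter, ← Finset.sum_add_distrib, Finset.card_eq_sum_ones,
      Finset.mul_sum]
    refine Finset.sum_congr rfl (fun g hg => ?_)
    rcases hfix' g hg with h | h <;> simp [h]
  have hcardA : A.card + e = n := by
    have h2 : (Finset.univ.filter (fun g : G => g ∈ K)).card + A.card
        = (Finset.univ : Finset G).card :=
      Finset.card_filter_add_card_filter_not (s := (Finset.univ : Finset G)) (fun g => g ∈ K)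
    rw [← natCard_subgroup_eq_card_filter] at h2
    have h3 : (Finset.univ : Finset G).card = n := by
      rw [Finset.card_univ, hn, Nat.card_eq_fintype_card]
    rw [h3] at h2
    omega
  -- count of `Par` by fixed point
  have hParSum : Par.card = ∑ x ∈ X0, (A.filter (fun g => fxs g = {x})).card := by
    simp only [hPar, Finset.card_filter]
    rw [Finset.sum_comm]
    refine Finset.sum_congr rfl (fun g _ => ?_)
    by_cases h1 : (fxs g).card = 1
    · obtain ⟨y, hy⟩ := Finset.card_eq_one.mp h1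
      have hy0 : y ∈ X0 := by
        have : y ∈ fxs g := by rw [hy]; simp
        exact (Finset.mem_filter.mp this).1
      rw [if_pos h1, hy]
      simp [Finset.singleton_inj, hy0]
    · have hne : ∀ x, fxs g ≠ {x} := fun x hx => h1 (by rw [hx]; simp)
      rw [if_neg h1]
      simp [hne]
  have hset_eq : ∀ x : X, (A.filter (fun g => fxs g = {x})).card = π x := by
    intro x
    rw [hπ, ← Set.ncard_coe_finset]
    congr 1
    ext g
    simp only [Finset.coe_filter, Set.mem_ofPred_eq]
    constructor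
    · rintro ⟨hgA, hg⟩
      refine ⟨(Finset.mem_filter.mp hgA).2, ?_⟩
      rw [← hfxs_coe g hgA, hg, Finset.coe_singleton]
    · rintro ⟨hgK, hg⟩
      have hgA : g ∈ A := Finset.mem_filter.mpr ⟨Finset.mem_univ _, hgK⟩
      refine ⟨hgA, ?_⟩
      apply Finset.coe_injective
      rw [hfxs_coe g hgA, hg, Finset.coe_singleton]
  -- the weighted identity
  have hmain : ∑ x ∈ X0, (e * c x + π x) + 2 * e = 2 * n := by
    rw [Finset.sum_add_distrib, ← Finset.sum_congr rfl (fun x _ => hstx x), ← hpair,
      ← Finset.sum_congr rfl (fun x _ => hset_eq x), ← hParSum, hweight]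
    omega
  -- the orbit of `ω`
  have hωX0 : ω ∈ X0 := (hmemX0 ω).mpr ⟨g0, hg0K, (hg0 ω).mpr rfl⟩
  set Ωf : Finset X := X0.filter (fun x => x ∈ orbit G ω) with hΩf
  have hΩcoe : (Ωf : Set X) = orbit G ω := by
    ext x
    simp only [hΩf, Finset.coe_filter, Set.mem_ofPred_eq]
    exact ⟨fun h => h.2, fun h => ⟨horbX0 ω hωX0 x h, h⟩⟩
  set N := Ωf.card with hNdef
  have hNorb : (orbit G ω).ncard = N := by rw [← hΩcoe, Set.ncard_coe_finset]
  have hN2 : 2 ≤ N := by
    have : 1 < Ωf.card := by
      rw [Finset.one_lt_card]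
      refine ⟨ω, ?_, h0 • ω, ?_, fun h => hh0 h.symm⟩
      · exact Finset.mem_filter.mpr ⟨hωX0, mem_orbit_self ω⟩
      · exact Finset.mem_filter.mpr ⟨hX0smul h0 ω hωX0, mem_orbit ω h0⟩
    omega
  have hn' : n = N * (e * q * δ) := by
    rw [← hNorb, ← hstab]; exact (ncard_orbit_mul_card_stabilizer ω).symm
  have hcω : c ω + 1 = q * δ := by
    have h1 := hc ω
    rw [hstab] at h1
    have h3 : e * (q * δ) = e * (c ω + 1) := by rw [← h1]; ring
    exact (Nat.eq_of_mul_eq_mul_left he0 h3).symm
  have hπω : π ω = e * (q - 1) := hpar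
  have hΩsum : ∑ x ∈ Ωf, (e * c x + π x) = N * (e * c ω + π ω) := by
    rw [Finset.sum_congr rfl (fun x hx => by
      rw [hcorb ω x (Finset.mem_filter.mp hx).2, hπorb ω x (Finset.mem_filter.mp hx).2])]
    simp [hNdef]
  -- the rest
  set Off : Finset X := X0.filter (fun x => ¬ x ∈ orbit G ω) with hOff
  set R := ∑ x ∈ Off, (e * c x + π x) with hR
  have hsplit : ∑ x ∈ X0, (e * c x + π x) = N * (e * c ω + π ω) + R := by
    rw [← hΩsum, hR, hΩf, hOff, Finset.sum_filter_add_sum_filter_not]
  -- (III): R + N e (q - 2) + 2 e = N e q δ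
  obtain ⟨q2, rfl⟩ : ∃ q2, q = q2 + 2 := ⟨q - 2, by omega⟩
  have hIII : R + N * (e * q2) + 2 * e = N * (e * (q2 + 2) * δ) := by
    have h1 : e * c ω + e = e * ((q2 + 2) * δ) := by rw [← hcω]; ring
    have h2 : π ω = e * (q2 + 1) := by rw [hπω]; congr 1
    have h3 : N * (e * c ω + π ω) + N * (2 * e) = N * (e * ((q2 + 2) * δ)) + N * (e * (q2 + 2)) := by
      rw [h2, ← h1]; ring
    have h4 : N * (e * c ω + π ω) + R + 2 * e = 2 * (N * (e * (q2 + 2) * δ)) := by
      rw [← hsplit, ← hn']; exact hmain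
    zify at h3 h4 ⊢
    linear_combination h4 - h3
  have hRlt : R < n := by
    rw [hn']
    have : 0 < 2 * e := by omega
    have h2 : 0 ≤ N * (e * q2) := Nat.zero_le _
    omega
  have hRpos : 0 < R := by
    have h1 : N * (e * (q2 + 2)) ≤ N * (e * (q2 + 2) * δ) :=
      Nat.mul_le_mul_left _ (Nat.le_mul_of_pos_right _ hδ1)
    have h2 : N * (e * (q2 + 2)) = N * (e * q2) + 2 * (N * e) := by ring
    have h3 : 2 * e ≤ N * e := Nat.mul_le_mul_right _ hN2
    omega
  -- facts about an orbit inside `Off`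
  have horbfacts : ∀ x1 ∈ Off,
      (X0.filter (fun x => x ∈ orbit G x1)) ⊆ Off ∧
      ∑ y ∈ X0.filter (fun x => x ∈ orbit G x1), (e * c y + π y)
        = (X0.filter (fun x => x ∈ orbit G x1)).card * (e * c x1 + π x1) ∧
      (X0.filter (fun x => x ∈ orbit G x1)).card * (e * (c x1 + 1)) = n ∧ 1 ≤ c x1 := by
    intro x1 hx1
    have hx1X0 : x1 ∈ X0 := (Finset.mem_filter.mp hx1).1
    have hx1Ω : x1 ∉ orbit G ω := (Finset.mem_filter.mp hx1).2
    refine ⟨?_, ?_, ?_, ?_⟩
    · intro y hy
      obtain ⟨hyX0, hyo⟩ := Finset.mem_filter.mp hy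
      refine Finset.mem_filter.mpr ⟨hyX0, fun hyΩ => hx1Ω ?_⟩
      have h1 : orbit G y = orbit G x1 := orbit_eq_iff.mpr hyo
      have h2 : orbit G y = orbit G ω := orbit_eq_iff.mpr hyΩ
      rw [← h2, h1]; exact mem_orbit_self x1
    · rw [Finset.sum_congr rfl (fun y hy => by
        rw [hcorb x1 y (Finset.mem_filter.mp hy).2, hπorb x1 y (Finset.mem_filter.mp hy).2])]
      simp
    · have hcoe : ((X0.filter (fun x => x ∈ orbit G x1) : Finset X) : Set X) = orbit G x1 := by
        ext x
        simp only [Finset.coe_filter, Set.mem_ofPred_eq]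
        exact ⟨fun h => h.2, fun h => ⟨horbX0 x1 hx1X0 x h, h⟩⟩
      rw [← Set.ncard_coe_finset, hcoe]
      exact hos x1
    · obtain ⟨g, hgK, hgx⟩ := (hmemX0 x1).mp hx1X0
      have hgA : g ∈ A.filter (fun g => g • x1 = x1) :=
        Finset.mem_filter.mpr ⟨Finset.mem_filter.mpr ⟨Finset.mem_univ _, hgK⟩, hgx⟩
      have hpos : 0 < (A.filter (fun g => g • x1 = x1)).card := Finset.card_pos.mpr ⟨g, hgA⟩
      rw [hstx x1] at hpos
      rcases Nat.eq_zero_or_pos (c x1) with h0 | h0
      · rw [h0] at hpos; simp at hpos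
      · exact h0
  obtain ⟨x1, hx1⟩ : Off.Nonempty := by
    by_contra hcon
    rw [Finset.not_nonempty_iff_eq_empty] at hcon
    rw [hR, hcon] at hRpos
    simp at hRpos
  obtain ⟨hO1sub, hO1sum, hO1card, hc1⟩ := horbfacts x1 hx1
  set O1 : Finset X := X0.filter (fun x => x ∈ orbit G x1) with hO1
  have hO1le : ∑ y ∈ O1, (e * c y + π y) ≤ R := Finset.sum_le_sum_of_subset hO1sub
  -- no element with unique fixed point `x1`
  have hπ1 : π x1 = 0 := by
    by_contra hne
    have h1 := hπe x1 hne
    have h2 : O1.card * (e * (c x1 + 1)) ≤ O1.card * (e * c x1 + π x1) :=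
      Nat.mul_le_mul_left _ (by rw [Nat.mul_add, Nat.mul_one]; omega)
    rw [hO1card, ← hO1sum] at h2
    omega
  -- no second orbit
  have hOffO1 : Off ⊆ O1 := by
    intro x2 hx2
    by_contra hx2O
    obtain ⟨hO2sub, hO2sum, hO2card, hc2⟩ := horbfacts x2 hx2
    set O2 : Finset X := X0.filter (fun x => x ∈ orbit G x2) with hO2
    have hdisj : Disjoint O1 O2 := by
      rw [Finset.disjoint_left]
      intro y hy1 hy2
      have h1 : orbit G y = orbit G x1 := orbit_eq_iff.mpr (Finset.mem_filter.mp hy1).2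
      have h2 : orbit G y = orbit G x2 := orbit_eq_iff.mpr (Finset.mem_filter.mp hy2).2
      apply hx2O
      refine Finset.mem_filter.mpr ⟨(Finset.mem_filter.mp hx2).1, ?_⟩
      rw [← h1, h2]; exact mem_orbit_self x2
    have hle : ∑ y ∈ O1 ∪ O2, (e * c y + π y) ≤ R :=
      Finset.sum_le_sum_of_subset (Finset.union_subset hO1sub hO2sub)
    rw [Finset.sum_union hdisj, hO1sum, hO2sum] at hle
    have ha : O1.card * (e * (c x1 + 1)) ≤ 2 * (O1.card * (e * c x1 + π x1)) := by
      have : e * (c x1 + 1) ≤ 2 * (e * c x1 + π x1) := by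
        have : e ≤ e * c x1 := Nat.le_mul_of_pos_right _ hc1
        rw [Nat.mul_add, Nat.mul_one]; omega
      calc O1.card * (e * (c x1 + 1)) ≤ O1.card * (2 * (e * c x1 + π x1)) :=
            Nat.mul_le_mul_left _ this
        _ = 2 * (O1.card * (e * c x1 + π x1)) := by ring
    have hb : O2.card * (e * (c x2 + 1)) ≤ 2 * (O2.card * (e * c x2 + π x2)) := by
      have : e * (c x2 + 1) ≤ 2 * (e * c x2 + π x2) := by
        have : e ≤ e * c x2 := Nat.le_mul_of_pos_right _ hc2
        rw [Nat.mul_add, Nat.mul_one]; omega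
      calc O2.card * (e * (c x2 + 1)) ≤ O2.card * (2 * (e * c x2 + π x2)) :=
            Nat.mul_le_mul_left _ this
        _ = 2 * (O2.card * (e * c x2 + π x2)) := by ring
    rw [hO1card] at ha
    rw [hO2card] at hb
    omega
  have hReq : R = O1.card * (e * c x1) := by
    have h1 : R = ∑ y ∈ O1, (e * c y + π y) := by
      rw [hR, Finset.Subset.antisymm hOffO1 hO1sub]
    rw [h1, hO1sum, hπ1, Nat.add_zero]
  -- |O1| = N (q - 2) + 2 and |O1| s = N q δ
  have hO1eq : O1.card = N * q2 + 2 := by
    have h1 : O1.card * (e * c x1) + O1.card * e = N * (e * (q2 + 2) * δ) := by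
      rw [← hn', ← hO1card]; ring
    have h2 : e * O1.card = e * (N * q2 + 2) := by
      have : O1.card * e = N * (e * q2) + 2 * e := by rw [← hReq] at h1; omega
      rw [Nat.mul_comm e O1.card, this]; ring
    exact Nat.eq_of_mul_eq_mul_left he0 h2
  have hfinal : (N * (q2 + 2 - 2) + 2) * (c x1 + 1) = N * (q2 + 2) * δ := by
    rw [Nat.add_sub_cancel, ← hO1eq]
    have h2 : e * (O1.card * (c x1 + 1)) = e * (N * (q2 + 2) * δ) := by
      calc e * (O1.card * (c x1 + 1)) = O1.card * (e * (c x1 + 1)) := by ring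
        _ = n := hO1card
        _ = N * (e * (q2 + 2) * δ) := hn'
        _ = e * (N * (q2 + 2) * δ) := by ring
    exact Nat.eq_of_mul_eq_mul_left he0 h2
  exact arith_count hN2 (by omega) hδ1 hfinal

end core

end Fermat.Agent.S56.G.KleinCore
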