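import Fermat.Agent.S56.G.H1

/-!
# S56, brick G.7 (a): the Sylow `p`-subgroups of a finite subgroup of `GL₂(k)` are TI

`k` a field of characteristic `p`, `Γ` a finite group with an injective homomorphism
`ρ : Γ →* GL₂(k)`.  Two distinct Sylow `p`-subgroups of `Γ` intersect trivially: a non-trivial
element `x` of `P ∩ g P g⁻¹` is unipotent with a single fixed line, every `p`-subgroup
containing `x` lies in the preimage `Q` of the unitriangular group of that line, `Q` is a
`p`-group, so `P = Q ⊇ g P g⁻¹`.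

This is the TI hypothesis of `EC/Contract.ECExit` (see `SplitTI.lean`).
-/

set_option autoImplicit false

open Matrix

namespace Fermat.Agent.S56.G.SylowTI

open Fermat.Agent.S56.G Fermat.Agent.S56.G.H1

universe u v

variable {k : Type u} [Field k]

/-- A unipotent element of `GL₂(k)` has order dividing `p`. -/
theorem pow_char_eq_one_of_unip (p : ℕ) [Fact p.Prime] [CharP k p] (g : GL (Fin 2) k)
    (hu : (g.val - 1) ^ 2 = 0) : g ^ p = 1 := by
  have hp : p.Prime := Fact.out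
  apply Units.ext
  rw [Units.val_pow_eq_pow_val, Units.val_one]
  have hc : Commute (g.val - 1) (1 : Matrix (Fin 2) (Fin 2) k) := Commute.one_right _
  have h1 : g.val = (g.val - 1) + 1 := by rw [sub_add_cancel]
  rw [h1, add_pow_char_of_commute _ hc, one_pow, pow_eq_zero_of_le hp.two_le hu, zero_add]

theorem up_pow (x : k) (n : ℕ) : (up x) ^ n = up (n • x) := by
  induction n with
  | zero => rw [pow_zero, zero_smul, up_zero]
  | succ n ih => rw [pow_succ, ih, ← up_add, succ_nsmul]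

variable {Γ : Type v} [Group Γ]

/-- If `x ≠ 1` lies in `P` and in `g P g⁻¹` (`P` a Sylow `p`-subgroup), then `g P g⁻¹ ≤ P`. -/
theorem conj_mem_of_common (p : ℕ) [Fact p.Prime] [CharP k p] (ρ : Γ →* GL (Fin 2) k)
    (hρ : Function.Injective ρ) (P : Sylow p Γ) (g x : Γ) (hx1 : x ≠ 1)
    (hxP : x ∈ (P : Subgroup Γ)) (hxg : g⁻¹ * x * g ∈ (P : Subgroup Γ)) :
    ∀ y ∈ (P : Subgroup Γ), g * y * g⁻¹ ∈ (P : Subgroup Γ) := by
  have hp : p.Prime := Fact.out
  -- `ρ x` is a non-trivial unipotent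
  obtain ⟨n, hn⟩ := P.isPGroup' ⟨x, hxP⟩
  have hn' : x ^ p ^ n = 1 := by
    have := congrArg Subtype.val hn
    simpa using this
  have hu : ((ρ x).val - 1) ^ 2 = 0 :=
    sq_eq_zero_of_pow_eq_one p (ρ x) n (by rw [← map_pow, hn', map_one])
  have hxp : (ρ x) ^ p = 1 := pow_char_eq_one_of_unip p (ρ x) hu
  have hρx1 : ρ x ≠ 1 := fun h => hx1 (hρ (by rw [h, map_one]))
  obtain ⟨A, hA⟩ := exists_conj_eq_up_one p (ρ x) hxp hρx1
  -- the conjugated representation
  let ρ' : Γ →* GL (Fin 2) k := (MulAut.conj A).toMonoidHom.comp ρ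
  have hρ' : Function.Injective ρ' := (MulAut.conj A).injective.comp hρ
  have hρ'x : ρ' x = up 1 := by
    show MulAut.conj A (ρ x) = up 1
    rw [MulAut.conj_apply, hA]
  -- the preimage of the unitriangular group is a `p`-group
  let Q : Subgroup Γ := (upSub k).comap ρ'
  have hQ : IsPGroup p Q := by
    rintro ⟨y, hy⟩
    refine ⟨1, ?_⟩
    obtain ⟨z, hz⟩ : ∃ z : k, ρ' y = up z := hy
    apply Subtype.ext
    apply hρ'
    show ρ' (y ^ p ^ 1) = ρ' 1
    rw [pow_one, map_pow, hz, up_pow, map_one, nsmul_eq_mul, CharP.cast_eq_zero, zero_mul, up_zero]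
  -- every `p`-subgroup containing `x` lies in `Q`
  have hsub : ∀ R : Subgroup Γ, IsPGroup p R → x ∈ R → R ≤ Q := by
    intro R hR hxR y hy
    have hR' : IsPGroup p (R.map ρ') := hR.map ρ'
    have h1 : up 1 ∈ R.map ρ' := ⟨x, hxR, hρ'x⟩
    have h2 : ρ' y ∈ R.map ρ' := ⟨y, hy, rfl⟩
    exact ⟨_, eq_up_of_isPGroup p (R.map ρ') hR' h1 (ρ' y) h2⟩
  have hPQ : (P : Subgroup Γ) ≤ Q := hsub P P.isPGroup' hxP
  have hQP : Q = (P : Subgroup Γ) := P.is_maximal' hQ hPQ
  -- the conjugate of `P`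
  let R : Subgroup Γ := (P : Subgroup Γ).map (MulAut.conj g).toMonoidHom
  have hR : IsPGroup p R := P.isPGroup'.map _
  have hxR : x ∈ R := by
    refine ⟨g⁻¹ * x * g, hxg, ?_⟩
    show MulAut.conj g (g⁻¹ * x * g) = x
    rw [MulAut.conj_apply]
    group
  intro y hy
  have h3 : g * y * g⁻¹ ∈ R := ⟨y, hy, by rw [MulEquiv.coe_toMonoidHom, MulAut.conj_apply]⟩
  have h4 := hsub R hR hxR h3
  rwa [hQP] at h4

/-- **The Sylow `p`-subgroups of a finite subgroup of `GL₂(k)`, `char k = p`, are TI.** -/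
theorem sylow_ti (p : ℕ) [Fact p.Prime] [CharP k p] (ρ : Γ →* GL (Fin 2) k)
    (hρ : Function.Injective ρ) (P : Sylow p Γ) (g : Γ)
    (hg : g ∉ Subgroup.normalizer ((P : Subgroup Γ) : Set Γ)) :
    (P : Subgroup Γ) ⊓ (P : Subgroup Γ).map (MulAut.conj g).toMonoidHom = ⊥ := by
  by_contra hne
  apply hg
  obtain ⟨x, hx, hx1⟩ : ∃ x ∈ (P : Subgroup Γ) ⊓ (P : Subgroup Γ).map (MulAut.conj g).toMonoidHom,
      x ≠ 1 := by
    by_contra hcon
    push Not at hcon
    exact hne ((Subgroup.eq_bot_iff_forall _).2 hcon)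
  obtain ⟨hxP, y0, hy0, hy0x⟩ := hx
  have hy0x' : g * y0 * g⁻¹ = x := by
    rw [← hy0x, MulEquiv.coe_toMonoidHom, MulAut.conj_apply]
  have hxg : g⁻¹ * x * g ∈ (P : Subgroup Γ) := by
    have : g⁻¹ * x * g = y0 := by rw [← hy0x']; group
    rw [this]
    exact hy0
  have hy01 : y0 ≠ 1 := by
    rintro rfl
    apply hx1
    rw [← hy0x']
    group
  have h1 := conj_mem_of_common p ρ hρ P g x hx1 hxP hxg
  have h2 := conj_mem_of_common p ρ hρ P g⁻¹ y0 hy01 hy0 (by
    rw [inv_inv, hy0x']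
    exact hxP)
  rw [Subgroup.mem_normalizer_iff]
  intro h
  constructor
  · exact h1 h
  · intro hh
    have h3 := h2 _ hh
    rw [inv_inv] at h3
    have h4 : g⁻¹ * (g * h * g⁻¹) * g = h := by group
    rwa [h4] at h3

end Fermat.Agent.S56.G.SylowTI
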