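import Fermat.Agent.S56.G.HypAdapter
import Fermat.Agent.S56.G.SylowTI
import Fermat.Agent.S55.Glue.DualTwist

/-!
# S56, brick G.7 (b): the splitting field of `ρbar` and the hypotheses of `EC/Contract.ECExit`

`splitField ρbar := ℚ̄ ^ (ker ρbar)`.  Its fixing subgroup is exactly `ker ρbar` (the kernel is
open, hence closed, in the Krull topology), so `Gal(F/ℚ) = ρbar(G_ℚ) ≤ GL₂(k)`:

* `mem_fixingSubgroup_splitField` : `σ ∈ (splitField ρbar).fixingSubgroup ↔ ρbar.ρ σ = 1`;
* `normal_fixingSubgroup_splitField`, `finiteDimensional_splitField`;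
* `isUnramifiedOutside_splitField` : unramified outside every set of primes outside of which
  `ρbar` is unramified (`isUnramifiedOutside_splitField_of_hyp` for the frozen hypotheses);
* `cycloField_le_splitField` : `μ_p ⊂ F` when `det ρbar` is the mod `p` cyclotomic character;
* `splitField_ti` : the Sylow `p`-subgroups of `G_ℚ ⧸ Gal(ℚ̄/F)` are TI (`SylowTI.sylow_ti`).
-/

set_option autoImplicit false

open Polynomial IsLocalRing Matrix

namespace Fermat.Agent.S56.G.SplitTI

open Fermat.Agent.S56.Contract Fermat.Agent.S56.G.HypAdapter Fermat.Agent.S55.Glue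

local notation "Qb" => AlgebraicClosure ℚ
local notation "GQ" => (AlgebraicClosure ℚ ≃ₐ[ℚ] AlgebraicClosure ℚ)

local instance isAlgebraicQbar_sti : Algebra.IsAlgebraic ℚ (AlgebraicClosure ℚ) :=
  AlgebraicClosure.isAlgebraic ℚ
local instance isAlgClosureQbar_sti : IsAlgClosure ℚ (AlgebraicClosure ℚ) :=
  ⟨inferInstance, inferInstance⟩
local instance normalQbar_sti : Normal ℚ (AlgebraicClosure ℚ) :=
  IsAlgClosure.normal ℚ (AlgebraicClosure ℚ)
local instance isGaloisQbar_sti : IsGalois ℚ (AlgebraicClosure ℚ) := ⟨⟩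

section Field

variable {k : Type} [Field k] (ρbar : ResidualGaloisRep k)

/-- The kernel of `ρbar`. -/
def kerRho : Subgroup GQ where
  carrier := {σ | ρbar.ρ σ = 1}
  mul_mem' := by
    intro a b ha hb
    show ρbar.ρ (a * b) = 1
    rw [map_mul, show ρbar.ρ a = 1 from ha, show ρbar.ρ b = 1 from hb, mul_one]
  one_mem' := map_one ρbar.ρ
  inv_mem' := by
    intro a ha
    show ρbar.ρ a⁻¹ = 1
    have h1 : ρbar.ρ a⁻¹ * ρbar.ρ a = 1 := by rw [← map_mul, inv_mul_cancel, map_one]
    rwa [show ρbar.ρ a = 1 from ha, mul_one] at h1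

theorem mem_kerRho {σ : GQ} : σ ∈ kerRho ρbar ↔ ρbar.ρ σ = 1 := Iff.rfl

instance normal_kerRho : (kerRho ρbar).Normal where
  conj_mem := by
    intro n hn g
    show ρbar.ρ (g * n * g⁻¹) = 1
    rw [map_mul, map_mul, show ρbar.ρ n = 1 from hn, mul_one, ← map_mul, mul_inv_cancel, map_one]

theorem isOpen_kerRho : IsOpen ((kerRho ρbar : Subgroup GQ) : Set GQ) := by
  obtain ⟨L, hL, h1⟩ := ρbar.factorsThroughFiniteLevel
  have hle : L.fixingSubgroup ≤ kerRho ρbar := by
    intro σ hσ
    exact h1 σ (fun x hx => (IntermediateField.mem_fixingSubgroup_iff L σ).1 hσ x hx)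
  exact Subgroup.isOpen_mono hle (IntermediateField.fixingSubgroup_isOpen L)

/-- The splitting field of `ρbar`: the fixed field of its kernel. -/
noncomputable def splitField : IntermediateField ℚ Qb :=
  IntermediateField.fixedField (kerRho ρbar)

theorem fixingSubgroup_splitField : (splitField ρbar).fixingSubgroup = kerRho ρbar :=
  InfiniteGalois.fixingSubgroup_fixedField
    (⟨kerRho ρbar, Subgroup.isClosed_of_isOpen _ (isOpen_kerRho ρbar)⟩ : ClosedSubgroup GQ)

theorem mem_fixingSubgroup_splitField {σ : GQ} :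
    σ ∈ (splitField ρbar).fixingSubgroup ↔ ρbar.ρ σ = 1 := by
  rw [fixingSubgroup_splitField]
  exact Iff.rfl

instance normal_fixingSubgroup_splitField : (splitField ρbar).fixingSubgroup.Normal := by
  rw [fixingSubgroup_splitField]
  infer_instance

theorem finiteDimensional_splitField : FiniteDimensional ℚ (splitField ρbar) := by
  obtain ⟨L, hL, h1⟩ := ρbar.factorsThroughFiniteLevel
  have hle : splitField ρbar ≤ L := by
    intro x hx
    have hx' : x ∈ IntermediateField.fixedField L.fixingSubgroup := by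
      rw [IntermediateField.mem_fixedField_iff]
      intro σ hσ
      refine (IntermediateField.mem_fixedField_iff (kerRho ρbar) x).1 hx σ ?_
      exact h1 σ (fun y hy => (IntermediateField.mem_fixingSubgroup_iff L σ).1 hσ y hy)
    rwa [InfiniteGalois.fixedField_fixingSubgroup] at hx'
  exact FiniteDimensional.of_injective (IntermediateField.inclusion hle).toLinearMap
    (IntermediateField.inclusion hle).injective

theorem isUnramifiedOutside_splitField (S' : Finset Nat.Primes)
    (hunr : ∀ q : Nat.Primes, q ∉ S' → ρbar.IsUnramifiedAt (q : ℕ)) :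
    (splitField ρbar).IsUnramifiedOutside S' := by
  refine ⟨finiteDimensional_splitField ρbar, fun q hq A hA σ hσ => ?_⟩
  rw [mem_fixingSubgroup_splitField]
  exact hunr q hq A hA σ hσ

end Field

section Hyp

variable {𝒪 : Type} [CommRing 𝒪] [IsLocalRing 𝒪] {p : ℕ} [Fact p.Prime]
  {ρbar : ResidualGaloisRep (ResidueField 𝒪)} {S Smin : Finset ℕ}

/-- `ρbar` is unramified outside `S`. -/
theorem unramified_of_hyp (h : Hyp 𝒪 p ρbar S Smin) (q : ℕ) (hq : q.Prime) (hqS : q ∉ S) :
    ρbar.IsUnramifiedAt q := by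
  have hqSmin : q ∉ Smin := fun hq' => hqS (h.hSmin hq')
  have hqp : q ≠ p := by
    rintro rfl
    exact hqSmin h.hpSmin
  by_contra hcon
  exact hqSmin ((h.hmin q hq hqp).2 hcon)

theorem isUnramifiedOutside_splitField_of_hyp (h : Hyp 𝒪 p ρbar S Smin)
    (S' : Finset Nat.Primes) (hS' : ∀ q : Nat.Primes, (q : ℕ) ∈ S → q ∈ S') :
    (splitField ρbar).IsUnramifiedOutside S' :=
  isUnramifiedOutside_splitField ρbar S' (fun q hq =>
    unramified_of_hyp h (q : ℕ) q.2 (fun hqS => hq (hS' q hqS)))

/-- `ker ρbar` fixes the `p`-th roots of unity (`det ρbar` is the cyclotomic character). -/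
theorem fixes_roots_of_mem_ker (h : Hyp 𝒪 p ρbar S Smin) {σ : GQ} (hσ : ρbar.ρ σ = 1)
    (z : Qb) (hz : z ^ p = 1) : σ z = z := by
  have hp : p.Prime := Fact.out
  have := charP_of_hyp h
  obtain ⟨i, hi⟩ := exists_pow_act p hp.pos σ
  let b : Module.Basis (Fin 2) (ResidueField 𝒪) ρbar.V :=
    Module.finBasisOfFinrankEq (ResidueField 𝒪) ρbar.V ρbar.finrank_eq
  have hdet := det_eq_natCast h b σ i hi
  rw [matRho_val, hσ] at hdet
  have h1 : ((i : ℕ) : ResidueField 𝒪) = ((1 : ℕ) : ResidueField 𝒪) := by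
    rw [← hdet, Nat.cast_one]
    simp
  have hmod : i ≡ 1 [MOD p] := (CharP.natCast_eq_natCast (ResidueField 𝒪) p).1 h1
  rw [hi z hz]
  have h2 : z ^ i = z ^ (i % p) := by
    conv_lhs => rw [← Nat.div_add_mod i p, pow_add, pow_mul, hz, one_pow, one_mul]
  rw [h2, hmod, Nat.mod_eq_of_lt hp.one_lt, pow_one]

theorem cycloField_le_splitField (h : Hyp 𝒪 p ρbar S Smin) :
    cycloField p ≤ splitField ρbar := by
  intro x hx
  show x ∈ IntermediateField.fixedField (kerRho ρbar)
  rw [IntermediateField.mem_fixedField_iff]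
  intro σ hσ
  have h1 : σ ∈ (cycloField p).fixingSubgroup :=
    (mem_fixingSubgroup_cycloField_iff p σ).2 (fun z hz => fixes_roots_of_mem_ker h hσ z hz)
  exact (IntermediateField.mem_fixingSubgroup_iff _ σ).1 h1 x hx

/-- **The TI hypothesis of `ECExit` for the splitting field of `ρbar`.** -/
theorem splitField_ti (h : Hyp 𝒪 p ρbar S Smin)
    (P : Sylow p (GQ ⧸ (splitField ρbar).fixingSubgroup))
    (g : GQ ⧸ (splitField ρbar).fixingSubgroup)
    (hg : g ∉ Subgroup.normalizer
      ((P : Subgroup (GQ ⧸ (splitField ρbar).fixingSubgroup)) :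
        Set (GQ ⧸ (splitField ρbar).fixingSubgroup))) :
    (P : Subgroup (GQ ⧸ (splitField ρbar).fixingSubgroup)) ⊓
      (P : Subgroup (GQ ⧸ (splitField ρbar).fixingSubgroup)).map
        (MulAut.conj g).toMonoidHom = ⊥ := by
  have := charP_of_hyp h
  let b : Module.Basis (Fin 2) (ResidueField 𝒪) ρbar.V :=
    Module.finBasisOfFinrankEq (ResidueField 𝒪) ρbar.V ρbar.finrank_eq
  have hker : ∀ σ : GQ, matRho ρbar b σ = 1 ↔ ρbar.ρ σ = 1 := by
    intro σ
    constructor
    · intro h1
      have h2 : LinearMap.toMatrix b b (ρbar.ρ σ) = 1 := by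
        rw [← matRho_val, h1, Units.val_one]
      have h3 : LinearMap.toMatrix b b (ρbar.ρ σ) = LinearMap.toMatrix b b 1 := by
        rw [h2, LinearMap.toMatrix_one]
      exact (LinearMap.toMatrix b b).injective h3
    · intro h1
      apply Units.ext
      rw [matRho_val, h1, Units.val_one, LinearMap.toMatrix_one]
  let ρ' : GQ ⧸ (splitField ρbar).fixingSubgroup →* GL (Fin 2) (ResidueField 𝒪) :=
    QuotientGroup.lift (splitField ρbar).fixingSubgroup (matRho ρbar b)
      (fun σ hσ => (hker σ).2 ((mem_fixingSubgroup_splitField ρbar).1 hσ))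
  have hρ' : Function.Injective ρ' := by
    rw [injective_iff_map_eq_one]
    intro x
    induction x using QuotientGroup.induction_on with
    | H σ =>
      intro h1
      have h2 : matRho ρbar b σ = 1 := h1
      exact (QuotientGroup.eq_one_iff σ).2
        ((mem_fixingSubgroup_splitField ρbar).2 ((hker σ).1 h2))
  exact SylowTI.sylow_ti p ρ' hρ' P g hg

end Hyp

end Fermat.Agent.S56.G.SplitTI
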