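import Fermat.Agent.S56.G.SylowTI
import Fermat.Agent.S56.EC.Steinberg

/-!
# S56, brick G.7 (c): `EC/Steinberg.TIStatement`

The Sylow `p`-subgroups of a finite group acting faithfully on a `2`-dimensional vector space in
characteristic `p` are TI, in the literal of `EC/Steinberg.lean` (from `SylowTI.sylow_ti`).
-/

set_option autoImplicit false

namespace Fermat.Agent.S56.G.TIClose

open Fermat.Agent.S56.EC.Steinberg

/-- **(EC.5, instance)** closed. -/
theorem tiStatement : TIStatement := by
  intro p _ k _ _ V _ _ hV G _ _ ι hι P g hg x hx hgx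
  have : Module.Finite k V := Module.finite_of_finrank_eq_succ hV
  let b : Module.Basis (Fin 2) k V := Module.finBasisOfFinrankEq k V hV
  let ρ : G →* GL (Fin 2) k :=
    (Units.map (MonoidHomClass.toMonoidHom (LinearMap.toMatrixAlgEquiv b))).comp ι.toHomUnits
  have hρ : Function.Injective ρ := by
    intro a c hac
    apply hι
    have h1 : LinearMap.toMatrixAlgEquiv b (ι a) = LinearMap.toMatrixAlgEquiv b (ι c) :=
      congrArg Units.val hac
    exact (LinearMap.toMatrixAlgEquiv b).injective h1
  have hg' : g⁻¹ ∉ Subgroup.normalizer ((P : Subgroup G) : Set G) := by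
    intro h
    apply hg
    have h2 := (Subgroup.normalizer ((P : Subgroup G) : Set G)).inv_mem h
    rwa [inv_inv] at h2
  have hbot := SylowTI.sylow_ti p ρ hρ P g⁻¹ hg'
  have hmem : x ∈ (P : Subgroup G) ⊓ (P : Subgroup G).map (MulAut.conj g⁻¹).toMonoidHom := by
    refine ⟨hx, g * x * g⁻¹, hgx, ?_⟩
    show MulAut.conj g⁻¹ (g * x * g⁻¹) = x
    rw [MulAut.conj_apply]
    group
  rw [hbot] at hmem
  exact Subgroup.mem_bot.1 hmem

end Fermat.Agent.S56.G.TIClose
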